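/-
T4-N (helper3), part 0: **the interface between helper4's `T4NewUnrAux t4gWU` and the geometry**.

`q = 𝔓.p`, `L = tbFix 𝔓 ⊤` (the inertia field), `F1 = tbLevF 𝔓 (N'' q) ⊤`, `F = tbLevF 𝔓 (N'' q q) ⊤`,
`w = t4wSq 𝔓 ⊤ N'' h` (lead's `w_{q²}` over `L`).

* `t4nNormB L N1 q` : the norm `N_β : F_{N1 q} → F_{N1}` for the algebra structure given by
  `β = heckeBetaBar` (`f ↦ f(𝔮^q)`); `t4nNormA` the norm for `α = heckeAlphaBar` (the inclusion);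
* `T4nCoreAt 𝔓 N'' h` : **(NEW) inside the level field** — the target of the geometry: a Kummer
  function `y ∈ F` (all orders divisible by `m`, `m` prime to `q`, both at the places of `F / L` and
  at the places of `F_ℚ̄ / ℚ̄`) such that `N_β y` and `N_β (w y)` are `constant × m`-th powers in `F1`
  satisfies `y ^ ((q² - 1)²) = constant × m`-th power;
* `T4nProdB 𝔓 H N1` : the product formula `(N_β y)(𝔮^q) = ∏_{b < q} y(ζ^b 𝔮)` (owner: V5), pushed to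
  `ℚ̄((𝔮))`;
* `T4nCFE 𝔓 H N` : "constant field extensions are unramified" (owner: helper1): every place of
  `F_L / L` lies under a place of `F_ℚ̄ / ℚ̄` with the same order function.

`Lib/T4/New/Reduce.lean` proves `T4nProdB → T4nCFE → T4nCoreAt → T4NewUnrAt t4gWU`.
-/
import Mathlib
import Fermat.Agent.Lib.T4.Desc.NewUnr
import Fermat.Agent.Lib.T4.Desc.Compat
import Fermat.Agent.Lib.T4.G.WU
import Fermat.Agent.Lib.T2.Inst.KronH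

set_option autoImplicit false
set_option linter.unusedSectionVars false
set_option linter.unusedVariables false
set_option linter.style.haveILetI false

open Fermat.Agent.T1 Fermat.Agent.T2 Fermat.Agent.TW ModularCurve Fermat.Agent.S24Lib
  AlgebraicCurve

noncomputable section

namespace Fermat.Agent.T4

local notation "Qb" => AlgebraicClosure ℚ

section Generic

variable (L : Type*) [Field L] [Algebra ℚ L] (N1 q : ℕ) [NeZero N1] [NeZero q]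

/-- the norm `N_β` from `F_{N1 q}` to `F_{N1}` for the algebra structure `β = heckeBetaBar`
(`f ↦ f(𝔮^q)`) -/
def t4nNormB (y : ↥(TaF L (N1 * q))) : ↥(TaF L N1) :=
  letI : Algebra ↥(TaF L N1) ↥(TaF L (N1 * q)) := (heckeBetaBar L N1 q).toRingHom.toAlgebra
  Algebra.norm ↥(TaF L N1) y

/-- the norm `N_α` from `F_{N1 q}` to `F_{N1}` for the algebra structure `α = heckeAlphaBar` (the
inclusion, `t2iAlgebra`) -/
def t4nNormA (y : ↥(TaF L (N1 * q))) : ↥(TaF L N1) :=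
  letI : Algebra ↥(TaF L N1) ↥(TaF L (N1 * q)) := t2iAlgebra L N1 q
  Algebra.norm ↥(TaF L N1) y

theorem t4nNormB_def (y : ↥(TaF L (N1 * q))) :
    t4nNormB L N1 q y =
      (letI : Algebra ↥(TaF L N1) ↥(TaF L (N1 * q)) := (heckeBetaBar L N1 q).toRingHom.toAlgebra
       Algebra.norm ↥(TaF L N1) y) := rfl

theorem t4nNormA_def (y : ↥(TaF L (N1 * q))) :
    t4nNormA L N1 q y =
      (letI : Algebra ↥(TaF L N1) ↥(TaF L (N1 * q)) := t2iAlgebra L N1 q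
       Algebra.norm ↥(TaF L N1) y) := rfl

theorem t4nNormB_one : t4nNormB L N1 q 1 = 1 := by
  rw [t4nNormB_def]
  exact map_one _

theorem t4nNormB_mul (x y : ↥(TaF L (N1 * q))) :
    t4nNormB L N1 q (x * y) = t4nNormB L N1 q x * t4nNormB L N1 q y := by
  rw [t4nNormB_def, t4nNormB_def, t4nNormB_def]
  exact map_mul _ _ _

theorem t4nNormB_pow (x : ↥(TaF L (N1 * q))) (n : ℕ) :
    t4nNormB L N1 q (x ^ n) = t4nNormB L N1 q x ^ n := by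
  rw [t4nNormB_def, t4nNormB_def]
  exact map_pow _ _ _

theorem t4nNormA_one : t4nNormA L N1 q 1 = 1 := by
  rw [t4nNormA_def]
  exact map_one _

theorem t4nNormA_mul (x y : ↥(TaF L (N1 * q))) :
    t4nNormA L N1 q (x * y) = t4nNormA L N1 q x * t4nNormA L N1 q y := by
  rw [t4nNormA_def, t4nNormA_def, t4nNormA_def]
  exact map_mul _ _ _

theorem t4nNormA_pow (x : ↥(TaF L (N1 * q))) (n : ℕ) :
    t4nNormA L N1 q (x ^ n) = t4nNormA L N1 q x ^ n := by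
  rw [t4nNormA_def, t4nNormA_def]
  exact map_pow _ _ _

/-- **transport of the norm along Atkin–Lehner**: if `w ∘ α = β ∘ w1` on `F1` (ring automorphisms
`w` of `F`, `w1` of `F1`) then `N_β (w y) = w1 (N_α y)` -/
theorem t4n_normB_w (w : ↥(TaF L (N1 * q)) ≃+* ↥(TaF L (N1 * q))) (w1 : ↥(TaF L N1) ≃+* ↥(TaF L N1))
    (hw : ∀ x : ↥(TaF L N1), w (heckeAlphaBar L N1 q x) = heckeBetaBar L N1 q (w1 x))
    (y : ↥(TaF L (N1 * q))) :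
    t4nNormB L N1 q (w y) = w1 (t4nNormA L N1 q y) := by
  rw [t4nNormB_def, t4nNormA_def]
  have key := @Algebra.norm_eq_of_equiv_equiv ↥(TaF L N1) ↥(TaF L (N1 * q)) ↥(TaF L N1)
    ↥(TaF L (N1 * q)) _ _ _ _ (t2iAlgebra L N1 q) ((heckeBetaBar L N1 q).toRingHom.toAlgebra)
    w1 w (RingHom.ext fun x => (hw x).symm) y
  rw [key, RingEquiv.apply_symm_apply]

end Generic

section Level

variable (𝔓 : FFPlace)

/-- **(NEW) inside the level field** `L = ℚ̄^I`: the target of the geometry of T4 -/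
def T4nCoreAt (N'' : ℕ) [NeZero N''] (h : ¬ 𝔓.p ∣ N'') : Prop :=
  ∀ m : ℕ, Nat.Coprime m 𝔓.p → m ≠ 0 →
    ∀ y : (↥(tbLevF 𝔓 (N'' * 𝔓.p * 𝔓.p) ⊤))ˣ, y ∈ tWsub ↥(tbFix 𝔓 ⊤) (N'' * 𝔓.p * 𝔓.p) m →
      (∀ P : Place Qb ↥(modularFunctionFieldBar (N'' * 𝔓.p * 𝔓.p)),
        (m : ℤ) ∣ P.ord (tbPhiF 𝔓 (N'' * 𝔓.p * 𝔓.p) ⊤
          (y : ↥(tbLevF 𝔓 (N'' * 𝔓.p * 𝔓.p) ⊤)))) →
      (∃ (c : ↥(tbFix 𝔓 ⊤)) (s : ↥(tbLevF 𝔓 (N'' * 𝔓.p) ⊤)), c ≠ 0 ∧ s ≠ 0 ∧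
        t4nNormB ↥(tbFix 𝔓 ⊤) (N'' * 𝔓.p) 𝔓.p (y : ↥(tbLevF 𝔓 (N'' * 𝔓.p * 𝔓.p) ⊤)) = c • s ^ m) →
      (∃ (c : ↥(tbFix 𝔓 ⊤)) (s : ↥(tbLevF 𝔓 (N'' * 𝔓.p) ⊤)), c ≠ 0 ∧ s ≠ 0 ∧
        t4nNormB ↥(tbFix 𝔓 ⊤) (N'' * 𝔓.p) 𝔓.p
          (t4wSq 𝔓 ⊤ N'' h (y : ↥(tbLevF 𝔓 (N'' * 𝔓.p * 𝔓.p) ⊤))) = c • s ^ m) →
      ∃ (c : ↥(tbFix 𝔓 ⊤)) (t : ↥(tbLevF 𝔓 (N'' * 𝔓.p * 𝔓.p) ⊤)), c ≠ 0 ∧ t ≠ 0 ∧
        (y : ↥(tbLevF 𝔓 (N'' * 𝔓.p * 𝔓.p) ⊤)) ^ ((𝔓.p ^ 2 - 1) ^ 2) = c • t ^ m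

/-- **the product formula for `N_β`** (V5), pushed to `ℚ̄((𝔮))`:
`(N_β y)(𝔮^q) = ∏_{b < q} y(ζ^b 𝔮)` -/
def T4nProdB (H : Subgroup 𝔓.I) (N1 : ℕ) [NeZero N1] : Prop :=
  ∀ ζ : Qbˣ, IsPrimitiveRoot (ζ : Qb) 𝔓.p →
    ∀ y : ↥(tbLevF 𝔓 (N1 * 𝔓.p) H),
      qExpand Qb 𝔓.p (tbPhi 𝔓 H
          ((t4nNormB ↥(tbFix 𝔓 H) N1 𝔓.p y : ↥(tbLevF 𝔓 N1 H)) : LaurentSeries ↥(tbFix 𝔓 H)))
        = ∏ b ∈ Finset.range 𝔓.p, tkrTw (ζ ^ b) (tbPhi 𝔓 H (y : LaurentSeries ↥(tbFix 𝔓 H)))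

/-- **constant field extensions are unramified** (CFE): every place of `F_L / L` lies under a place
of `F_ℚ̄ / ℚ̄` with the same order function -/
def T4nCFE (H : Subgroup 𝔓.I) (N : ℕ) [NeZero N] : Prop :=
  ∀ V : Place ↥(tbFix 𝔓 H) ↥(tbLevF 𝔓 N H),
    ∃ P : Place Qb ↥(modularFunctionFieldBar N),
      ∀ f : ↥(tbLevF 𝔓 N H), P.ord (tbPhiF 𝔓 N H f) = V.ord f

end Level

end Fermat.Agent.T4
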