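/-
T4-V5 (helper7): **the product formula `T4nProdB` at the inertia level** (helper3's interface
`Lib/T4/New/CoreDefs.lean`), from `t4vnNormB_eq_prod` (`Lib/T4/Inst/NormProd.lean`) with
`L = tbFix 𝔓 ⊤`, `L' = ℚ̄`, the Atkin–Lehner data `t4iALFix`, `t2iALFix` and the degree
`[F : F1] = p` of `t4vInputFix` (`Lib/T4/Inst/ValH.lean`).
-/
import Fermat.Agent.Lib.T4.New.CoreDefs
import Fermat.Agent.Lib.T4.Inst.ValH
import Fermat.Agent.Lib.T4.Inst.NormProd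

set_option autoImplicit false
set_option linter.unusedSectionVars false
set_option linter.unusedVariables false
set_option linter.style.haveILetI false
set_option synthInstance.maxHeartbeats 400000

open HahnSeries ModularCurve Fermat.Agent.T1 Fermat.Agent.T2 Fermat.Agent.TW Fermat.Agent.S05Lib

noncomputable section

namespace Fermat.Agent.T4

local notation "Qb" => AlgebraicClosure ℚ

/-- `tkrTw` (T1) and `t4vSig` (T4) are the same substitution `𝔮 ↦ c 𝔮` -/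
theorem t4vn_tkrTw_eq {R : Type*} [CommRing R] (c : Rˣ) (f : LaurentSeries R) :
    tkrTw c f = t4vSig c f := by
  ext n
  rw [tkrTw_coeff, t4vSig_coeff]

attribute [local instance] t2i_dvr t2i_isAlgClosed t2i_charP t2i_fact t2iAlgebra t2i_isScalarTower

/-- `[F_{N'' p p} : F_{N'' p}] = p` at the inertia level -/
theorem t4vn_hdeg_fix (𝔓 : FFPlace) (N'' : ℕ) [NeZero N''] (h : ¬ 𝔓.p ∣ N'') :
    @Module.finrank ↥(TaF ↥(tbFix 𝔓 (⊤ : Subgroup 𝔓.I)) (N'' * 𝔓.p))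
      ↥(TaF ↥(tbFix 𝔓 (⊤ : Subgroup 𝔓.I)) (N'' * 𝔓.p * 𝔓.p)) _ _
      (@Algebra.toModule _ _ _ _ (t2iAlgebra ↥(tbFix 𝔓 (⊤ : Subgroup 𝔓.I)) (N'' * 𝔓.p) 𝔓.p))
      = 𝔓.p := by
  obtain ⟨ζ, hζ⟩ := t4cy_exists_zeta 𝔓
  exact (t4vInputFix 𝔓 N'' h hζ).finrank_eq

/-- **`T4nProdB` at the level `N'' p`, `p ∤ N''`** -/
theorem t4vn_T4nProdB (𝔓 : FFPlace) (N'' : ℕ) [NeZero N''] (h : ¬ 𝔓.p ∣ N'') :
    T4nProdB 𝔓 ⊤ (N'' * 𝔓.p) := by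
  intro ζ hζ y
  have hp : 𝔓.p.Prime := (t2i_fact 𝔓).out
  have hζq : ζ ^ 𝔓.p = 1 := by
    apply Units.ext
    rw [Units.val_pow_eq_pow_val]
    exact hζ.pow_eq_one
  have hζ1 : ζ ≠ 1 := by
    intro h1
    have h2 : (ζ : Qb) = 1 := by rw [h1]; rfl
    have := hζ.eq_orderOf
    rw [h2, orderOf_one] at this
    exact hp.one_lt.ne' this
  have key := t4vnNormB_eq_prod (L' := Qb) (ζ := ζ) (t4iALFix 𝔓 ⊤ N'' h) (t2iALFix 𝔓 ⊤ N'' h)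
    hp hζq hζ1 (t4vn_hdeg_fix 𝔓 N'' h) y
  rw [coeffMap_qExpand] at key
  have hR : ∀ b ∈ Finset.range 𝔓.p,
      tkrTw (ζ ^ b) (tbPhi 𝔓 ⊤ ((y : ↥(tbLevF 𝔓 (N'' * 𝔓.p * 𝔓.p) ⊤)) :
        LaurentSeries ↥(tbFix 𝔓 (⊤ : Subgroup 𝔓.I))))
      = t4vSig (ζ ^ b) (coeffMap (algebraMap ↥(tbFix 𝔓 (⊤ : Subgroup 𝔓.I)) Qb)
        ((y : ↥(tbLevF 𝔓 (N'' * 𝔓.p * 𝔓.p) ⊤)) :
          LaurentSeries ↥(tbFix 𝔓 (⊤ : Subgroup 𝔓.I)))) :=
    fun b _ => t4vn_tkrTw_eq _ _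
  rw [Finset.prod_congr rfl hR, ← key]
  rfl

end Fermat.Agent.T4
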