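/-
T4-N (helper3), part 1: **reduction of helper4's `T4NewUnrAux t4gWU` to (NEW) inside the level
field** (`T4nCoreAt`, `Lib/T4/New/CoreDefs.lean`).

* `t4n_root_level`: an `m`-th root at level `N1 r` of a function of level `N1` has level `N1`
  (`gcd(m, r) = 1`; cusp `0` + (K2));
* `t4n_heckeU_tbPhiF`: `U_q (tbPhiF f) = tbPhi (N_β f)` from the product formula `T4nProdB`;
* `t4n_normB_eq_of_heckeU`: if `U_q (tbPhiF f)` is an `m`-th power over `ℚ̄` then `N_β f` is a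
  `constant × m`-th power over `L` (helper4's `t4d_root_descend` at the level `N1`);
* `t4n_mem_tWsub_of_cfe`: transport of the Kummer condition from `ℚ̄` to `L` (CFE);
* **`t4n_unrAt_of_core`**, `t4n_unrAux_of_core`.
-/
import Mathlib
import Fermat.Agent.Lib.T4.New.CoreDefs
import Fermat.Agent.Lib.T1.Kron.Pull
import Fermat.Agent.Lib.T1.Kron.HeckeU
import Fermat.Agent.Lib.T1.Dict.CuspDvd

set_option autoImplicit false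
set_option linter.unusedSectionVars false
set_option linter.unusedVariables false
set_option linter.style.haveILetI false

open Fermat.Agent.T1 Fermat.Agent.T2 Fermat.Agent.TW ModularCurve Fermat.Agent.S24Lib
  AlgebraicCurve
open ModularGroup (S T)

noncomputable section

namespace Fermat.Agent.T4

local notation "Qb" => AlgebraicClosure ℚ
local notation "Kbar" => AlgebraicClosure ℚ

/-! ### Root descent `N1 r → N1` -/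

/-- the order at the cusp `0` is multiplied by `e` when the level is multiplied by `e` -/
theorem t4n_ord0_level (N e : ℕ) [NeZero N] [NeZero e] {y : LaurentSeries Kbar}
    (hy : y ∈ modularFunctionFieldBar N) :
    tkrOrd0 (N * e) ⟨y, tkr_bar_mono N e hy⟩ = e * tkrOrd0 N ⟨y, hy⟩ := by
  unfold tkrOrd0
  rw [modIso_tkrLevel N e hy, modRep_tkrLevel, modFieldQL_tkrLevel]
  by_cases hW : modFieldQL N (modRep N S ((modIso N ⟨y, hy⟩ : anField N) : ModField N)) = 0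
  · rw [hW, map_zero, HahnSeries.order_zero, mul_zero]
  · rw [order_qExpand e hW]

/-- **an `m`-th root at level `N1 r` of a function of level `N1` has level `N1`** (`gcd(m,r) = 1`) -/
theorem t4n_root_level (N1 r : ℕ) [NeZero N1] [NeZero r] {m : ℕ} (hm0 : m ≠ 0)
    (hmr : Nat.Coprime m r) {u g : LaurentSeries Kbar} (hu : u ∈ modularFunctionFieldBar N1)
    (hg : g ∈ modularFunctionFieldBar (N1 * r)) (hg0 : g ≠ 0) (hgu : g ^ m = u) :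
    g ∈ modularFunctionFieldBar N1 := by
  refine tkr_root_descend_mul hm0 r (NeZero.ne r) N1 hu hg hgu ?_
  have h1 := t4n_ord0_level N1 r hu
  have hg0' : (⟨g, hg⟩ : ↥(modularFunctionFieldBar (N1 * r))) ≠ 0 := fun h0 =>
    hg0 (congrArg Subtype.val h0)
  have h2 : (m : ℤ) ∣ tkrOrd0 (N1 * r) ⟨u, tkr_bar_mono N1 r hu⟩ := by
    have h3 := tdd_cusp_dvd (N1 * r) m (Units.mk0 _ hg0' ^ m)
      (tkr_pow_mem_tWsub (N1 * r) m (Units.mk0 _ hg0')) S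
    have h4 : (((Units.mk0 _ hg0' ^ m : (↥(modularFunctionFieldBar (N1 * r)))ˣ)) :
        ↥(modularFunctionFieldBar (N1 * r))) = ⟨u, tkr_bar_mono N1 r hu⟩ := by
      apply Subtype.ext
      rw [Units.val_pow_eq_pow_val, Units.val_mk0, SubmonoidClass.coe_pow]
      exact hgu
    rw [h4] at h3
    exact h3
  rw [h1] at h2
  have hcop : IsCoprime (m : ℤ) (r : ℤ) := Nat.isCoprime_iff_coprime.mpr hmr
  exact hcop.dvd_of_dvd_mul_left h2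

/-! ### `U_q` and the norm `N_β` -/

section Level

variable (𝔓 : FFPlace)

/-- **`U_q (tbPhiF f) = tbPhi (N_β f)`**, from the product formula -/
theorem t4n_heckeU_tbPhiF (H : Subgroup 𝔓.I) (N1 : ℕ) [NeZero N1] (hprod : T4nProdB 𝔓 H N1)
    (f : ↥(tbLevF 𝔓 (N1 * 𝔓.p) H)) :
    ((tkrHeckeU (N1 * 𝔓.p) 𝔓.p (tbPhiF 𝔓 (N1 * 𝔓.p) H f) : ↥(modularFunctionFieldBar (N1 * 𝔓.p))) :
        LaurentSeries Qb)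
      = tbPhi 𝔓 H ((t4nNormB ↥(tbFix 𝔓 H) N1 𝔓.p f : ↥(tbLevF 𝔓 N1 H)) :
          LaurentSeries ↥(tbFix 𝔓 H)) := by
  obtain ⟨ζ, hζ, -⟩ := tkr_exists_zeta 𝔓.p
  have hmem1 : tbPhi 𝔓 H ((t4nNormB ↥(tbFix 𝔓 H) N1 𝔓.p f : ↥(tbLevF 𝔓 N1 H)) :
      LaurentSeries ↥(tbFix 𝔓 H)) ∈ modularFunctionFieldBar N1 :=
    tbPhi_mem 𝔓 N1 H (t4nNormB ↥(tbFix 𝔓 H) N1 𝔓.p f).2
  have hmem := tkr_bar_mono N1 𝔓.p hmem1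
  have key := tkrHeckeU_eq_of_spec 𝔓.hp (Dvd.intro_left N1 rfl) hζ (tbPhiF 𝔓 (N1 * 𝔓.p) H f)
    ⟨_, hmem⟩ (by
      show qExpand Kbar 𝔓.p (tbPhi 𝔓 H _) = _
      rw [hprod ζ hζ f, coe_tbPhiF,
        Finset.prod_range (fun b => tkrTw (ζ ^ b) (tbPhi 𝔓 H (f : LaurentSeries ↥(tbFix 𝔓 H))))])
  rw [key]

/-- if `U_q (tbPhiF f)` is an `m`-th power over `ℚ̄` then `N_β f` is a `constant × m`-th power over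
the inertia field -/
theorem t4n_normB_eq_of_heckeU (N1 : ℕ) [NeZero N1] (hprod : T4nProdB 𝔓 ⊤ N1) {m : ℕ}
    (hm0 : m ≠ 0) (hmq : Nat.Coprime m 𝔓.p) (f : ↥(tbLevF 𝔓 (N1 * 𝔓.p) ⊤)) (hf0 : f ≠ 0)
    (hU : ∃ t : ↥(modularFunctionFieldBar (N1 * 𝔓.p)),
      tkrHeckeU (N1 * 𝔓.p) 𝔓.p (tbPhiF 𝔓 (N1 * 𝔓.p) ⊤ f) = t ^ m) :
    ∃ (c : ↥(tbFix 𝔓 ⊤)) (s : ↥(tbLevF 𝔓 N1 ⊤)), c ≠ 0 ∧ s ≠ 0 ∧
      t4nNormB ↥(tbFix 𝔓 ⊤) N1 𝔓.p f = c • s ^ m := by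
  obtain ⟨t, ht⟩ := hU
  have hφf0 : tbPhiF 𝔓 (N1 * 𝔓.p) ⊤ f ≠ 0 := fun h =>
    hf0 (tbPhiF_injective 𝔓 (N1 * 𝔓.p) ⊤ (h.trans (map_zero _).symm))
  have hU0 : tkrHeckeU (N1 * 𝔓.p) 𝔓.p (tbPhiF 𝔓 (N1 * 𝔓.p) ⊤ f) ≠ 0 := by
    rw [Ne, map_eq_zero]
    exact hφf0
  have ht0 : t ≠ 0 := by
    rintro rfl
    rw [zero_pow hm0] at ht
    exact hU0 ht
  have hcoe : (t : LaurentSeries Qb) ^ m
      = tbPhi 𝔓 ⊤ ((t4nNormB ↥(tbFix 𝔓 ⊤) N1 𝔓.p f : ↥(tbLevF 𝔓 N1 ⊤)) :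
          LaurentSeries ↥(tbFix 𝔓 ⊤)) := by
    rw [← t4n_heckeU_tbPhiF 𝔓 ⊤ N1 hprod f, ht, SubmonoidClass.coe_pow]
  have hmem1 : tbPhi 𝔓 ⊤ ((t4nNormB ↥(tbFix 𝔓 ⊤) N1 𝔓.p f : ↥(tbLevF 𝔓 N1 ⊤)) :
      LaurentSeries ↥(tbFix 𝔓 ⊤)) ∈ modularFunctionFieldBar N1 :=
    tbPhi_mem 𝔓 N1 ⊤ (t4nNormB ↥(tbFix 𝔓 ⊤) N1 𝔓.p f).2
  have htc0 : (t : LaurentSeries Qb) ≠ 0 := fun h0 => ht0 (Subtype.ext h0)
  have htN1 : (t : LaurentSeries Qb) ∈ modularFunctionFieldBar N1 :=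
    t4n_root_level N1 𝔓.p hm0 hmq hmem1 t.2 htc0 hcoe
  -- the norm is nonzero
  have hn0 : t4nNormB ↥(tbFix 𝔓 ⊤) N1 𝔓.p f ≠ 0 := by
    intro h0
    rw [h0] at hcoe
    have h1 : (t : LaurentSeries Qb) ^ m = 0 := by
      rw [hcoe]
      show tbPhi 𝔓 ⊤ ((0 : ↥(tbLevF 𝔓 N1 ⊤)) : LaurentSeries ↥(tbFix 𝔓 ⊤)) = 0
      rw [ZeroMemClass.coe_zero, map_zero]
    exact htc0 (pow_eq_zero_iff hm0 |>.mp h1)
  obtain ⟨c, g, hc0, hfg⟩ := t4d_root_descend 𝔓 N1 hm0 (t4nNormB ↥(tbFix 𝔓 ⊤) N1 𝔓.p f) hn0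
    ⟨⟨(t : LaurentSeries Qb), htN1⟩, by
      apply Subtype.ext
      rw [coe_tbPhiF, SubmonoidClass.coe_pow]
      exact hcoe.symm⟩
  refine ⟨c, g, hc0, ?_, hfg⟩
  rintro rfl
  rw [zero_pow hm0, smul_zero] at hfg
  exact hn0 hfg

/-- **transport of the Kummer condition from `ℚ̄` to the level field** (CFE) -/
theorem t4n_mem_tWsub_of_cfe (H : Subgroup 𝔓.I) (N : ℕ) [NeZero N] (hcfe : T4nCFE 𝔓 H N) (m : ℕ)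
    (y : (↥(modularFunctionFieldBar N))ˣ) (hy : y ∈ tWsub Qb N m)
    (f : (↥(tbLevF 𝔓 N H))ˣ)
    (hf : tbPhiF 𝔓 N H (f : ↥(tbLevF 𝔓 N H)) = (y : ↥(modularFunctionFieldBar N))) :
    f ∈ tWsub ↥(tbFix 𝔓 H) N m := by
  intro V
  obtain ⟨P, hP⟩ := hcfe V
  rw [← hP (f : ↥(tbLevF 𝔓 N H)), hf]
  exact hy P

/-- **(NEW) over the inertia field from (NEW) inside the level field**, for a place `𝔓` -/
theorem t4n_new_of_core (N'' : ℕ) [NeZero N''] (h : ¬ 𝔓.p ∣ N'') [NeZero (N'' * 𝔓.p * 𝔓.p)]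
    (hprod : T4nProdB 𝔓 ⊤ (N'' * 𝔓.p)) (hcfe : T4nCFE 𝔓 ⊤ (N'' * 𝔓.p * 𝔓.p))
    (hcore : T4nCoreAt 𝔓 N'' h)
    (hN : N'' * 𝔓.p * 𝔓.p = N'' * (𝔓.p * 𝔓.p)) (hcop : Nat.Coprime (𝔓.p * 𝔓.p) N'')
    {m : ℕ} (hmq : Nat.Coprime m 𝔓.p) (hm0 : m ≠ 0)
    (y : (↥(modularFunctionFieldBar (N'' * 𝔓.p * 𝔓.p)))ˣ)
    (hy : y ∈ tWsub Kbar (N'' * 𝔓.p * 𝔓.p) m)
    (f : ↥(tbLevF 𝔓 (N'' * 𝔓.p * 𝔓.p) ⊤))
    (hf : tbPhiF 𝔓 (N'' * 𝔓.p * 𝔓.p) ⊤ f = (y : ↥(modularFunctionFieldBar (N'' * 𝔓.p * 𝔓.p))))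
    (hU : ∃ t : (↥(modularFunctionFieldBar (N'' * 𝔓.p * 𝔓.p)))ˣ,
      tkrHeckeUUnits (N'' * 𝔓.p * 𝔓.p) 𝔓.p y = t ^ m)
    (hUw : ∃ t : (↥(modularFunctionFieldBar (N'' * 𝔓.p * 𝔓.p)))ˣ,
      tkrHeckeUUnits (N'' * 𝔓.p * 𝔓.p) 𝔓.p
        (t4wU (N'' * 𝔓.p * 𝔓.p) N'' (𝔓.p * 𝔓.p) hN hcop y) = t ^ m) :
    ∃ t : (↥(modularFunctionFieldBar (N'' * 𝔓.p * 𝔓.p)))ˣ, y ^ ((𝔓.p ^ 2 - 1) ^ 2) = t ^ m := by
  have hf0 : f ≠ 0 := by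
    rintro rfl
    rw [map_zero] at hf
    exact y.ne_zero hf.symm
  set fu : (↥(tbLevF 𝔓 (N'' * 𝔓.p * 𝔓.p) ⊤))ˣ := Units.mk0 f hf0 with hfu
  have hfW : fu ∈ tWsub ↥(tbFix 𝔓 ⊤) (N'' * 𝔓.p * 𝔓.p) m :=
    t4n_mem_tWsub_of_cfe 𝔓 ⊤ (N'' * 𝔓.p * 𝔓.p) hcfe m y hy fu hf
  -- the first norm condition
  have h1 : ∃ (c : ↥(tbFix 𝔓 ⊤)) (s : ↥(tbLevF 𝔓 (N'' * 𝔓.p) ⊤)), c ≠ 0 ∧ s ≠ 0 ∧
      t4nNormB ↥(tbFix 𝔓 ⊤) (N'' * 𝔓.p) 𝔓.p f = c • s ^ m := by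
    refine t4n_normB_eq_of_heckeU 𝔓 (N'' * 𝔓.p) hprod hm0 hmq f hf0 ?_
    obtain ⟨t, ht⟩ := hU
    refine ⟨(t : ↥(modularFunctionFieldBar (N'' * 𝔓.p * 𝔓.p))), ?_⟩
    rw [hf, ← tkrHeckeUUnits_coe, ht, Units.val_pow_eq_pow_val]
  -- the second norm condition
  have hwf := t4d_wU_tbPhiF 𝔓 ⊤ N'' h hN hcop y f hf
  have hwf0 : t4wSq 𝔓 ⊤ N'' h f ≠ 0 := by
    rw [Ne, map_eq_zero]
    exact hf0
  have h2 : ∃ (c : ↥(tbFix 𝔓 ⊤)) (s : ↥(tbLevF 𝔓 (N'' * 𝔓.p) ⊤)), c ≠ 0 ∧ s ≠ 0 ∧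
      t4nNormB ↥(tbFix 𝔓 ⊤) (N'' * 𝔓.p) 𝔓.p (t4wSq 𝔓 ⊤ N'' h f) = c • s ^ m := by
    refine t4n_normB_eq_of_heckeU 𝔓 (N'' * 𝔓.p) hprod hm0 hmq (t4wSq 𝔓 ⊤ N'' h f) hwf0 ?_
    obtain ⟨t, ht⟩ := hUw
    refine ⟨(t : ↥(modularFunctionFieldBar (N'' * 𝔓.p * 𝔓.p))), ?_⟩
    rw [hwf, ← tkrHeckeUUnits_coe, ht, Units.val_pow_eq_pow_val]
  have hfQ : ∀ P : Place Qb ↥(modularFunctionFieldBar (N'' * 𝔓.p * 𝔓.p)),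
      (m : ℤ) ∣ P.ord (tbPhiF 𝔓 (N'' * 𝔓.p * 𝔓.p) ⊤
        (fu : ↥(tbLevF 𝔓 (N'' * 𝔓.p * 𝔓.p) ⊤))) := by
    intro P
    rw [hfu, Units.val_mk0, hf]
    exact hy P
  obtain ⟨c, t, hc0, ht0, hct⟩ := hcore m hmq hm0 fu hfW hfQ h1 h2
  obtain ⟨d, hd⟩ := IsAlgClosed.exists_pow_nat_eq ((c : ↥(tbFix 𝔓 ⊤)) : Qb) (Nat.pos_of_ne_zero hm0)
  have hd0 : d ≠ 0 := by
    rintro rfl
    rw [zero_pow hm0] at hd
    exact hc0 (Subtype.ext hd.symm)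
  have hφt0 : tbPhiF 𝔓 (N'' * 𝔓.p * 𝔓.p) ⊤ t ≠ 0 := fun h0 =>
    ht0 (tbPhiF_injective 𝔓 (N'' * 𝔓.p * 𝔓.p) ⊤ (h0.trans (map_zero _).symm))
  have hkey : (y : ↥(modularFunctionFieldBar (N'' * 𝔓.p * 𝔓.p))) ^ ((𝔓.p ^ 2 - 1) ^ 2)
      = (d • tbPhiF 𝔓 (N'' * 𝔓.p * 𝔓.p) ⊤ t) ^ m := by
    have hct' : f ^ ((𝔓.p ^ 2 - 1) ^ 2) = c • t ^ m := hct
    rw [← hf, ← map_pow, hct', tbPhiF_smul, map_pow, smul_pow, hd]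
  have hne : d • tbPhiF 𝔓 (N'' * 𝔓.p * 𝔓.p) ⊤ t ≠ 0 := smul_ne_zero hd0 hφt0
  refine ⟨Units.mk0 _ hne, ?_⟩
  apply Units.ext
  rw [Units.val_pow_eq_pow_val, Units.val_pow_eq_pow_val, Units.val_mk0]
  exact hkey

end Level

/-- **(NEW) over the inertia field from (NEW) inside the level field** -/
theorem t4n_unrAt_of_core (N'' q : ℕ) [NeZero N''] [hq : Fact q.Prime] (h : ¬ q ∣ N'')
    [NeZero (N'' * q * q)]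
    (hprod : ∀ (A : ValuationSubring Kbar) (hA : A.LiesOverPrime q),
      T4nProdB (⟨A, q, hq.out, hA⟩ : FFPlace) ⊤ (N'' * q))
    (hcfe : ∀ (A : ValuationSubring Kbar) (hA : A.LiesOverPrime q),
      T4nCFE (⟨A, q, hq.out, hA⟩ : FFPlace) ⊤ (N'' * q * q))
    (hcore : ∀ (A : ValuationSubring Kbar) (hA : A.LiesOverPrime q),
      T4nCoreAt (⟨A, q, hq.out, hA⟩ : FFPlace) N'' h) :
    T4NewUnrAt t4gWU N'' q h := by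
  intro A hA m hmq hm0 y hy hf hU hUw
  obtain ⟨f, hf⟩ := hf
  exact t4n_new_of_core (⟨A, q, hq.out, hA⟩ : FFPlace) N'' h (hprod A hA) (hcfe A hA) (hcore A hA)
    (t4g_lvl N'' q) (t4g_coprime N'' q h) hmq hm0 y hy f hf hU hUw

/-- **the target of T4-N from (NEW) inside the level fields** -/
theorem t4n_unrAux_of_core
    (hprod : ∀ (𝔓 : FFPlace) (N'' : ℕ) [NeZero N''], ¬ 𝔓.p ∣ N'' → T4nProdB 𝔓 ⊤ (N'' * 𝔓.p))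
    (hcfe : ∀ (𝔓 : FFPlace) (N : ℕ) [NeZero N], T4nCFE 𝔓 ⊤ N)
    (hcore : ∀ (𝔓 : FFPlace) (N'' : ℕ) [NeZero N''] (h : ¬ 𝔓.p ∣ N''), (4 ∣ N'' ∨ 9 ∣ N'') →
      T4nCoreAt 𝔓 N'' h) :
    T4NewUnrAux t4gWU := by
  intro N'' q _ hq h _ h49
  haveI : NeZero q := ⟨hq.out.ne_zero⟩
  exact t4n_unrAt_of_core N'' q h
    (fun A hA => hprod (⟨A, q, hq.out, hA⟩ : FFPlace) N'' h)
    (fun A hA => hcfe (⟨A, q, hq.out, hA⟩ : FFPlace) (N'' * q * q))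
    (fun A hA => hcore (⟨A, q, hq.out, hA⟩ : FFPlace) N'' h h49)

end Fermat.Agent.T4
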