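/-
T4-N (helper3), part 4: **the S36 chain below `T4nCoreAt`**: with `T4nProdB` (helper7's `t4vn_T4nProdB`) and
`T4nCFE` (helper1's `t4ru_T4nCFE`) proved, (NEW) at all levels follows from (NEW) inside the level
fields at the levels without elliptic points.
-/
import Mathlib
import Fermat.Agent.Lib.T4.New.Reduce
import Fermat.Agent.Lib.T4.New.ProdBInst
import Fermat.Agent.Lib.T4.Reg.UnrCfeInst
import Fermat.Agent.Lib.T4.Glue.Level
import Fermat.Agent.Lib.T4.Desc.NewUnr

set_option autoImplicit false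
set_option linter.unusedSectionVars false
set_option linter.unusedVariables false

open Fermat.Agent.T1 Fermat.Agent.TW

namespace Fermat.Agent.T4

/-- **(NEW) at all levels from (NEW) inside the level fields** -/
theorem t4n_new_of_coreAt
    (hcore : ∀ (𝔓 : FFPlace) (N'' : ℕ) [NeZero N''] (h : ¬ 𝔓.p ∣ N''), (4 ∣ N'' ∨ 9 ∣ N'') →
      T4nCoreAt 𝔓 N'' h) : T4New t4gWU :=
  t4g_new_of_aux (t4d_newAux_of_unr t4gWU (t4n_unrAux_of_core
    (fun 𝔓 N'' _ h => t4vn_T4nProdB 𝔓 N'' h) (fun 𝔓 N _ => t4ru_T4nCFE 𝔓 ⊤ N) hcore))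

end Fermat.Agent.T4
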