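/-
T4-N (helper4), step C: **the correcting element `hh`** of `T4nCChart` for constant `ξ`'s.

For unit constants `a, b ∈ O` with `π (a ^ m) = 1 = π (b ^ m)` (the Frobenius-side constants of the
two norm relations) there is `hh ∈ 𝒪`, `hh ≠ 0`, `hh ^ m ≡ 1 (mod q 𝒪)`, with
`hh ≡ a^q b` at `O_inf`, `hh ≡ (a b)^(q+1)` at `O_mid`, `hh ≡ a b^q` at `O_0`; for any presentation
`P` whose vertical rings are among the three, with `a1 = b1 = 1`, `a2 = a`, `b2 = b`, this is the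
field `hh` of `T4nCChart`.
-/
import Fermat.Agent.Lib.T4.Inst.ValElts4
import Fermat.Agent.Lib.T4.Inst.ValRes
import Fermat.Agent.Lib.T4.Core.StepCCore

set_option autoImplicit false
set_option linter.unusedSectionVars false
set_option linter.unusedVariables false
set_option linter.style.haveILetI false

open HahnSeries ModularCurve Fermat.Agent.T1 Fermat.Agent.T2 IntermediateField

noncomputable section

namespace Fermat.Agent.T4

section Inst

variable {L : Type} [Field L] [Algebra ℚ L] (O : ValuationSubring L) {k : Type*} [Field k]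
  (π : ↥O →+* k) [IsDiscreteValuationRing ↥O] (hπ : Function.Surjective π) [IsAlgClosed k]
  {N' q : ℕ} [NeZero N'] [hq : Fact q.Prime] [CharP k q] (hN' : (N' : k) ≠ 0)
  (W1 : T2iAL L N' q) (Fr : T2iFrob k N' q) (W : T4iAL L N' q)
  (hqO : Irreducible ((q : ℕ) : ↥O))
  {L' : Type*} [Field L'] [Algebra L L'] (O' : ValuationSubring L')
  [IsDiscreteValuationRing ↥O'] (π' : ↥O' →+* k) (C : T4iCyc O O' π π' q)
  (M : T4iMid L L' N' q C.ζ) {m : ℕ}

attribute [local instance] t2iAlgebra t2i_isScalarTower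

include hπ hqO in
/-- a constant with `π (c ^ m) = 1` has `c ^ m - 1 ∈ q O` -/
theorem t4nh_const_pow {c : ↥O} (hc : π (c ^ m) = 1) :
    ∃ o : ↥O, (c : L) ^ m - 1 = ((q : ℕ) : L) * (o : L) := by
  have h0 : π (c ^ m - 1) = 0 := by rw [map_sub, hc, map_one, sub_self]
  obtain ⟨o, ho⟩ := (ta_pi_eq_zero_iff hπ hqO _).mp h0
  refine ⟨o, ?_⟩
  have := congrArg (fun x : ↥O => (x : L)) ho
  simpa using this

include hπ hqO in
/-- the same in `F`, at any of the rings containing the constants of `O` -/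
theorem t4nh_const_pow_F {c : ↥O} (hc : π (c ^ m) = 1)
    (V : Subring ↥(TaF L (N' * q * q)))
    (hV : ∀ o : ↥O, algebraMap L ↥(TaF L (N' * q * q)) (o : L) ∈ V) :
    ∃ o ∈ V, algebraMap L ↥(TaF L (N' * q * q)) (c : L) ^ m - 1 = t4vQ L N' q * o := by
  obtain ⟨o, ho⟩ := t4nh_const_pow O π hπ hqO hc
  refine ⟨algebraMap L ↥(TaF L (N' * q * q)) (o : L), hV o, ?_⟩
  rw [t4vQ, ← map_mul, ← ho, map_sub, map_pow, map_one]

include hN' W1 Fr hqO in
/-- constants of `O` lie in the three vertical rings -/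
theorem t4nh_const_mem (o : ↥O) :
    algebraMap L ↥(TaF L (N' * q * q)) (o : L) ∈ t4vOinf (N' := N') (q := q) O π hπ ∧
    algebraMap L ↥(TaF L (N' * q * q)) (o : L) ∈ t4vO0 O π hπ W ∧
    algebraMap L ↥(TaF L (N' * q * q)) (o : L) ∈ t4vOmid O π hπ O' π' C M :=
  (mem_t4vInput_Ov_iff O π hπ hN' W1 Fr W hqO O' π' C M _).mp
    ((t4vInput O π hπ hN' W1 Fr W hqO O' π' C M).algebraMap_mem_Ov o)

/-- **the correcting element** for constants `a, b` -/
theorem t4nh_exists_hh (hm : m ≠ 0) {a b : ↥O} (ha : π (a ^ m) = 1) (hb : π (b ^ m) = 1) :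
    ∃ hh : ↥(TaF L (N' * q * q)), hh ≠ 0 ∧
      (∃ o ∈ (t4vInput O π hπ hN' W1 Fr W hqO O' π' C M).Ov, hh ^ m - 1 = t4vQ L N' q * o) ∧
      (t4vOinf (N' := N') (q := q) O π hπ).valuation
        (hh - algebraMap L ↥(TaF L (N' * q * q)) ((a : L) ^ q * (b : L))) < 1 ∧
      (t4vOmid O π hπ O' π' C M).valuation
        (hh - algebraMap L ↥(TaF L (N' * q * q)) ((a : L) ^ (q + 1) * (b : L) ^ (q + 1))) < 1 ∧
      (t4vO0 O π hπ W).valuation
        (hh - algebraMap L ↥(TaF L (N' * q * q)) ((a : L) * (b : L) ^ q)) < 1 := by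
  have ha' : π a ^ m = 1 := by rw [← map_pow]; exact ha
  have hb' : π b ^ m = 1 := by rw [← map_pow]; exact hb
  have h1c : π ((a ^ q * b) ^ m) = 1 := by
    rw [map_pow, map_mul, map_pow, mul_pow, ← pow_mul, mul_comm q m, pow_mul, ha', hb', one_pow,
      one_mul]
  have h2c : π ((a ^ (q + 1) * b ^ (q + 1)) ^ m) = 1 := by
    rw [map_pow, map_mul, map_pow, map_pow, mul_pow, ← pow_mul, ← pow_mul, mul_comm (q + 1) m,
      pow_mul, pow_mul, ha', hb', one_pow, one_mul]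
  have h3c : π ((a * b ^ q) ^ m) = 1 := by
    rw [map_pow, map_mul, map_pow, mul_pow, ← pow_mul, mul_comm q m, pow_mul, ha', hb', one_pow,
      one_mul]
  set I := t4vInput O π hπ hN' W1 Fr W hqO O' π' C M with hI
  have hc := fun o : ↥O => t4nh_const_mem O π hπ hN' W1 Fr W hqO O' π' C M o
  have e1 := t4nh_const_pow_F O π hπ hqO (N' := N') h1c
    (t4vOinf (N' := N') (q := q) O π hπ).toSubring (fun o => (hc o).1)
  have e2 := t4nh_const_pow_F O π hπ hqO (N' := N') h2c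
    (t4vOmid O π hπ O' π' C M).toSubring (fun o => (hc o).2.2)
  have e3 := t4nh_const_pow_F O π hπ hqO (N' := N') h3c
    (t4vO0 O π hπ W).toSubring (fun o => (hc o).2.1)
  obtain ⟨h, h0, ⟨o1, ho1, q1⟩, ⟨o2, ho2, q2⟩, ⟨o3, ho3, q3⟩, hhm⟩ :=
    t4ve_exists_h O π hπ hN' W1 Fr W hqO O' π' C M hm
      (I.toOv (a ^ q * b)) (I.toOv (a ^ (q + 1) * b ^ (q + 1))) (I.toOv (a * b ^ q))
      (by rw [I.coe_toOv]; exact e1) (by rw [I.coe_toOv]; exact e2) (by rw [I.coe_toOv]; exact e3)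
  rw [I.coe_toOv] at q1 q2 q3
  refine ⟨(h : ↥(TaF L (N' * q * q))), h0, hhm, ?_, ?_, ?_⟩
  · refine lt_of_le_of_lt (t4ve_valuation_le_of_eq ⟨o1, ho1, ?_⟩)
      (t4ve_valuation_Q_inf O π hπ hqO)
    rw [← q1]
    simp
  · refine lt_of_le_of_lt (t4ve_valuation_le_of_eq ⟨o2, ho2, ?_⟩)
      (t4ve_valuation_Q_mid O π hπ O' π' C M)
    rw [← q2]
    simp
  · refine lt_of_le_of_lt (t4ve_valuation_le_of_eq ⟨o3, ho3, ?_⟩)
      (t4ve_valuation_Q_zero O π hπ W hqO)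
    rw [← q3]
    simp

include hN' W1 Fr hqO in
/-- **the field `hh` of `T4nCChart`** for `a1 = b1 = 1` and constants `a2 = a`, `b2 = b` -/
theorem t4nh_hh_field (P : T4Pres ↥(TaF L (N' * q * q)))
    (hvert : ∀ V ∈ P.vert (t4vQ L N' q), V = t4vOinf (N' := N') (q := q) O π hπ ∨
      V = t4vOmid O π hπ O' π' C M ∨ V = t4vO0 O π hπ W)
    {a b : ↥O} {a2 b2 : ↥P.B}
    (ha2 : (a2 : ↥(TaF L (N' * q * q))) = algebraMap L ↥(TaF L (N' * q * q)) (a : L))
    (hb2 : (b2 : ↥(TaF L (N' * q * q))) = algebraMap L ↥(TaF L (N' * q * q)) (b : L))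
    {hh : ↥(TaF L (N' * q * q))}
    (h1 : (t4vOinf (N' := N') (q := q) O π hπ).valuation
      (hh - algebraMap L ↥(TaF L (N' * q * q)) ((a : L) ^ q * (b : L))) < 1)
    (h2 : (t4vOmid O π hπ O' π' C M).valuation
      (hh - algebraMap L ↥(TaF L (N' * q * q)) ((a : L) ^ (q + 1) * (b : L) ^ (q + 1))) < 1)
    (h3 : (t4vO0 O π hπ W).valuation
      (hh - algebraMap L ↥(TaF L (N' * q * q)) ((a : L) * (b : L) ^ q)) < 1) :
    ∀ V ∈ P.vert (t4vQ L N' q),
      V.valuation (hh - ((P.xiConst (t4vOinf (N' := N') (q := q) O π hπ) (t4vO0 O π hπ W)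
        1 a2 1 b2 q V : ↥P.B) : ↥(TaF L (N' * q * q)))) < 1 := by
  have hmi := t4vOmid_ne_inf O π hπ hN' W1 Fr W hqO O' π' C M
  have hm0 := t4vOmid_ne_zero O π hπ hN' W1 Fr W hqO O' π' C M
  have h0i := t4vO0_ne_inf O π hπ hN' W1 Fr W hqO O' π' C M
  intro V hV
  rcases hvert V hV with rfl | rfl | rfl
  · rw [P.xiConst_inf]
    have e : (((a2 ^ q * b2 * (1 * 1 ^ q) : ↥P.B)) : ↥(TaF L (N' * q * q))) =
        algebraMap L ↥(TaF L (N' * q * q)) ((a : L) ^ q * (b : L)) := by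
      rw [one_pow, mul_one, mul_one, map_mul, map_pow, ← ha2, ← hb2]
      rfl
    rw [e]
    exact h1
  · rw [P.xiConst_mid hmi hm0]
    have e : (((a2 ^ (q + 1) * b2 ^ (q + 1) : ↥P.B)) : ↥(TaF L (N' * q * q))) =
        algebraMap L ↥(TaF L (N' * q * q)) ((a : L) ^ (q + 1) * (b : L) ^ (q + 1)) := by
      rw [map_mul, map_pow, map_pow, ← ha2, ← hb2]
      rfl
    rw [e]
    exact h2
  · rw [P.xiConst_zero h0i]
    have e : (((a2 * b2 ^ q * (1 ^ q * 1) : ↥P.B)) : ↥(TaF L (N' * q * q))) =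
        algebraMap L ↥(TaF L (N' * q * q)) ((a : L) * (b : L) ^ q) := by
      rw [one_pow, mul_one, mul_one, map_mul, map_pow, ← ha2, ← hb2]
      rfl
    rw [e]
    exact h3

/-! ### The trivial fields of `T4nCChart` for constants -/

include hπ hqO in
/-- an element of `O` with nonzero residue is a unit -/
theorem t4nh_inv_mem_of_pi_ne {c : ↥O} (hc : π c ≠ 0) : ((c : L))⁻¹ ∈ O := by
  have hcu : IsUnit c := by
    by_contra hnu
    have hmem : c ∈ IsLocalRing.maximalIdeal ↥O := (IsLocalRing.mem_maximalIdeal c).mpr hnu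
    rw [hqO.maximalIdeal_eq, Ideal.mem_span_singleton] at hmem
    exact hc ((ta_pi_eq_zero_iff hπ hqO c).mpr hmem)
  obtain ⟨u, hu⟩ := hcu
  have h1 : (c : L) * (((u⁻¹ : (↥O)ˣ) : ↥O) : L) = 1 := by
    rw [← hu]
    exact_mod_cast congrArg (fun x : ↥O => (x : L)) u.mul_inv
  rw [inv_eq_of_mul_eq_one_right h1]
  exact ((u⁻¹ : (↥O)ˣ) : ↥O).2

include hπ hqO in
/-- a constant of `O` with nonzero residue is a unit at every maximal ideal of a presentation ring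
containing the constants -/
theorem t4nh_const_notMem (P : T4Pres ↥(TaF L (N' * q * q)))
    (hconst : ∀ c : ↥O, algebraMap L ↥(TaF L (N' * q * q)) (c : L) ∈ P.B) {a : ↥O}
    (ha : π a ≠ 0) (𝔫 : Ideal ↥P.B) (h𝔫 : 𝔫.IsMaximal) :
    (⟨algebraMap L ↥(TaF L (N' * q * q)) (a : L), hconst a⟩ : ↥P.B) ∉ 𝔫 := by
  intro hmem
  have hinv := t4nh_inv_mem_of_pi_ne O π hπ hqO ha
  have ha0 : (a : L) ≠ 0 := by
    intro h0
    apply ha
    have : a = 0 := Subtype.ext h0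
    rw [this, map_zero]
  have h1 : (⟨algebraMap L ↥(TaF L (N' * q * q)) (a : L), hconst a⟩ : ↥P.B) *
      ⟨algebraMap L ↥(TaF L (N' * q * q)) (((⟨(a : L)⁻¹, hinv⟩ : ↥O)) : L),
        hconst ⟨(a : L)⁻¹, hinv⟩⟩ = 1 := by
    apply Subtype.ext
    show algebraMap L ↥(TaF L (N' * q * q)) (a : L) *
      algebraMap L ↥(TaF L (N' * q * q)) ((a : L)⁻¹) = 1
    rw [← map_mul, mul_inv_cancel₀ ha0, map_one]
  exact h𝔫.ne_top ((Ideal.eq_top_iff_one 𝔫).mpr (h1 ▸ 𝔫.mul_mem_right _ hmem))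

include hπ hqO in
/-- `π (a ^ m) = 1` gives `π a ≠ 0` -/
theorem t4nh_pi_ne_zero (hm : m ≠ 0) {a : ↥O} (ha : π (a ^ m) = 1) : π a ≠ 0 := by
  intro h0
  rw [map_pow, h0, zero_pow hm] at ha
  exact zero_ne_one ha

include hπ hqO in
/-- `m⁻¹` lies in every presentation ring containing the constants, `m` prime to `q` -/
theorem t4nh_m_inv_mem (P : T4Pres ↥(TaF L (N' * q * q)))
    (hconst : ∀ c : ↥O, algebraMap L ↥(TaF L (N' * q * q)) (c : L) ∈ P.B)
    (hqm : Nat.Coprime m q) : ((m : ℕ) : ↥(TaF L (N' * q * q)))⁻¹ ∈ P.B := by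
  have hm : π ((m : ℕ) : ↥O) ≠ 0 := by
    rw [map_natCast]
    intro h0
    have hdvd := (CharP.cast_eq_zero_iff k q m).mp h0
    have h1 : q ∣ Nat.gcd m q := Nat.dvd_gcd hdvd dvd_rfl
    rw [hqm] at h1
    exact hq.out.one_lt.ne' (Nat.dvd_one.mp h1)
  have hinv := t4nh_inv_mem_of_pi_ne O π hπ hqO hm
  have := hconst ⟨((((m : ℕ) : ↥O)) : L)⁻¹, hinv⟩
  have e : algebraMap L ↥(TaF L (N' * q * q)) (((⟨((((m : ℕ) : ↥O)) : L)⁻¹, hinv⟩ : ↥O)) : L) =
      ((m : ℕ) : ↥(TaF L (N' * q * q)))⁻¹ := by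
    show algebraMap L ↥(TaF L (N' * q * q)) (((((m : ℕ) : ↥O)) : L)⁻¹) = _
    rw [map_inv₀]
    congr 1
    rw [show ((((m : ℕ) : ↥O)) : L) = ((m : ℕ) : L) from by push_cast; rfl, map_natCast]
  rw [← e]
  exact this

end Inst

end Fermat.Agent.T4
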