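/-
T4-N (helper4), step C: **the chart hypotheses `T4nCChart` on chart 2** (`X⁻¹` finite), assembled
from: helper8's `hreg_chart2`, helper5's smoothness of the vertical branches (`ChartSm.lean`, with
the local statement K2 as a hypothesis), the separation `hone` (helper9's SEP2: at most one
vertical branch through a point, so the left alternative of `hcase`), constants `a, b` for
`a2, b2` (`a1 = b1 = 1`) and the correcting element `hh` of `HhPack.lean`.  Noetherianity and the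
horizontal roots `hroot` are hypotheses (helper2).
-/
import Fermat.Agent.Lib.T4.New.HhPack
import Fermat.Agent.Lib.T4.Reg.TopChart2
import Fermat.Agent.Lib.T4.Inst.ChartSm
import Fermat.Agent.Lib.T4.Inst.ValChart

set_option autoImplicit false
set_option linter.unusedSectionVars false
set_option linter.unusedVariables false
set_option linter.style.haveILetI false

open HahnSeries ModularCurve Fermat.Agent.T1 Fermat.Agent.T2 IntermediateField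

noncomputable section

namespace Fermat.Agent.T4

section Inst

variable {L : Type} [Field L] [Algebra ℚ L] (O : ValuationSubring L) {k : Type*} [Field k]
  (π : ↥O →+* k) [IsDiscreteValuationRing ↥O] (hπ : Function.Surjective π) [IsAlgClosed k]
  {N' q : ℕ} [NeZero N'] [hq : Fact q.Prime] [CharP k q] (hN' : (N' : k) ≠ 0)
  (W1 : T2iAL L N' q) (Fr : T2iFrob k N' q) (W : T4iAL L N' q)
  (hqO : Irreducible ((q : ℕ) : ↥O))
  {L' : Type*} [Field L'] [Algebra L L'] (O' : ValuationSubring L')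
  [IsDiscreteValuationRing ↥O'] (π' : ↥O' →+* k) (C : T4iCyc O O' π π' q)
  (M : T4iMid L L' N' q C.ζ) {m : ℕ}

attribute [local instance] t2iAlgebra t2i_isScalarTower

/-- the chart `X⁻¹` at level `N' q²` is `a0` of the chart `X'⁻¹` of level `N'` -/
theorem t4nc2_A0_X_inv (Q : ℕ) :
    t4vA0 L N' q ((t4vX' L N' Q)⁻¹) = (t4vX L N' q Q)⁻¹ := by
  rw [map_inv₀, t4vX_eq]

include hqO in
/-- the vertical rings of a chart presentation are among the three -/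
theorem t4nc2_vert {y : ↥(TaF L (N' * q * q))} {P : T4Pres ↥(TaF L (N' * q * q))}
    (hvals : P.vals = t4vpHor L y ∪ t4vwVer O π hπ W O' π' C M) :
    ∀ V ∈ P.vert (t4vQ L N' q), V = t4vOinf (N' := N') (q := q) O π hπ ∨
      V = t4vOmid O π hπ O' π' C M ∨ V = t4vO0 O π hπ W := by
  intro V hV
  rw [t4rt_vert hqO hvals] at hV
  exact (mem_t4vwVer O π hπ W O' π' C M V).mp hV

/-- **smoothness of the vertical branches on a chart** (`y₀` the chart at level `N'`), given the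
local statement K2 at the points of `O_0` -/
theorem t4nc2_hsm {y0 : ↥(TaF L N')} (G : T4vmGood O π hπ hN' Fr y0)
    [IsDedekindDomain ↥(t2R (k := k) G.yb)] (P : T4Pres ↥(TaF L (N' * q * q)))
    (hB : ∀ f, f ∈ P.B ↔ f ∈ t2Int (K := L) (t4vA0 L N' q y0) ∧
      f ∈ (t4vInput O π hπ hN' W1 Fr W hqO O' π' C M).Ov)
    (hvert : ∀ V ∈ P.vert (t4vQ L N' q), V = t4vOinf (N' := N') (q := q) O π hπ ∨
      V = t4vOmid O π hπ O' π' C M ∨ V = t4vO0 O π hπ W)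
    (𝔫 : Ideal ↥P.B) [h𝔫 : 𝔫.IsMaximal]
    (hK2 : t4vO0 O π hπ W ∈ P.through 𝔫 → ∀ f0 : ↥(taOv O π hπ N'),
      (f0 : ↥(TaF L N')) ∈ t2Int (K := L) y0 → t4vA2 L N' q (f0 : ↥(TaF L N')) ∈ P.loc 𝔫)
    (V : ValuationSubring ↥(TaF L (N' * q * q))) (hV : V ∈ P.through 𝔫)
    (hVq : V ∈ P.vert (t4vQ L N' q)) : P.SmoothAt 𝔫 V hV := by
  rcases hvert V hVq with rfl | rfl | rfl
  · exact t4vm_smoothAt_inf W1 W hqO O' π' C M G P hB hV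
  · exact t4vm_smoothAt_mid W1 W hqO O' π' C M G P hB hV
  · exact t4vm_smoothAt_zero W1 W hqO O' π' C M G P hB hV (hK2 hV)

include hN' W1 Fr hqO in
/-- **the chart hypotheses of step C on a chart where at most one vertical branch passes through
every point** (chart 2), with constants `a1 = b1 = 1`, `a2 = a`, `b2 = b` -/
theorem t4nc2_chart {y : ↥(TaF L (N' * q * q))} (P : T4Pres ↥(TaF L (N' * q * q)))
    (hvals : P.vals = t4vpHor L y ∪ t4vwVer O π hπ W O' π' C M)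
    (noeth : IsNoetherianRing ↥P.B) (hm : m ≠ 0) (hqm : Nat.Coprime m q)
    {z : ↥(TaF L (N' * q * q))}
    (hroot : ∀ V ∈ P.vals, V ∉ P.vert (t4vQ L N' q) → ∃ t : ↥(TaF L (N' * q * q)),
      V.valuation (t ^ m * z) = 1)
    (hreg : ∀ 𝔫 : Ideal ↥P.B, 𝔫.IsMaximal →
      (⟨t4vQ L N' q, t4rt_Q_mem_B hvals⟩ : ↥P.B) ∈ 𝔫 → P.RegAt 𝔫)
    (hsm : ∀ 𝔫 : Ideal ↥P.B, 𝔫.IsMaximal →
      ∀ (V : ValuationSubring ↥(TaF L (N' * q * q))) (hV : V ∈ P.through 𝔫),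
        V ∈ P.vert (t4vQ L N' q) → P.SmoothAt 𝔫 V hV)
    (hone : ∀ 𝔫 : Ideal ↥P.B, 𝔫 ≠ ⊤ → ∀ V ∈ P.through 𝔫, V ∈ P.vert (t4vQ L N' q) →
      ∀ V' ∈ P.through 𝔫, V' ∈ P.vert (t4vQ L N' q) → V = V')
    {a b : ↥O} (ha : π (a ^ m) = 1) (hb : π (b ^ m) = 1) {hh : ↥(TaF L (N' * q * q))}
    (h1 : (t4vOinf (N' := N') (q := q) O π hπ).valuation
      (hh - algebraMap L ↥(TaF L (N' * q * q)) ((a : L) ^ q * (b : L))) < 1)
    (h2 : (t4vOmid O π hπ O' π' C M).valuation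
      (hh - algebraMap L ↥(TaF L (N' * q * q)) ((a : L) ^ (q + 1) * (b : L) ^ (q + 1))) < 1)
    (h3 : (t4vO0 O π hπ W).valuation
      (hh - algebraMap L ↥(TaF L (N' * q * q)) ((a : L) * (b : L) ^ q)) < 1) :
    T4nCChart P (t4vQ L N' q) m z q (t4vOinf (N' := N') (q := q) O π hπ)
      (t4vOmid O π hπ O' π' C M) (t4vO0 O π hπ W) 1
      ⟨algebraMap L ↥(TaF L (N' * q * q)) (a : L),
        t4rt_const_mem_B O π hπ hN' W1 Fr W hqO O' π' C M hvals a⟩ 1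
      ⟨algebraMap L ↥(TaF L (N' * q * q)) (b : L),
        t4rt_const_mem_B O π hπ hN' W1 Fr W hqO O' π' C M hvals b⟩ hh where
  noeth := noeth
  hq := t4rt_Q_mem_B hvals
  hm := t4nh_m_inv_mem O π hπ hqO P
    (t4rt_const_mem_B O π hπ hN' W1 Fr W hqO O' π' C M hvals) hqm
  hreg := hreg
  hsm := fun 𝔫 h𝔫 _ => hsm 𝔫 h𝔫
  hroot := hroot
  ha1 := fun 𝔫 h𝔫 h1 => h𝔫.ne_top ((Ideal.eq_top_iff_one 𝔫).mpr h1)
  ha2 := t4nh_const_notMem O π hπ hqO P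
    (t4rt_const_mem_B O π hπ hN' W1 Fr W hqO O' π' C M hvals) (t4nh_pi_ne_zero O π hπ hqO hm ha)
  hb1 := fun 𝔫 h𝔫 h1 => h𝔫.ne_top ((Ideal.eq_top_iff_one 𝔫).mpr h1)
  hb2 := t4nh_const_notMem O π hπ hqO P
    (t4rt_const_mem_B O π hπ hN' W1 Fr W hqO O' π' C M hvals) (t4nh_pi_ne_zero O π hπ hqO hm hb)
  hcase := fun 𝔫 h𝔫 _ s _ => Or.inl (hone 𝔫 h𝔫.ne_top)
  hh := t4nh_hh_field O π hπ hN' W1 Fr W hqO O' π' C M P (t4nc2_vert O π hπ W hqO O' π' C M hvals)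
    rfl rfl h1 h2 h3

include hN' Fr hqO in
/-- **`hreg` on chart 2**, helper8's `T4rtTop.hreg_chart2` with the residue-field hypothesis in the
form "the residue field of every closed point over `q` is `k`" -/
theorem t4nc2_hreg {x1 : ↥(TaF L (N' * q))} {x : ↥(TaF L (N' * q * q))}
    {P1 : T4Pres ↥(TaF L (N' * q))} {P P₂ : T4Pres ↥(TaF L (N' * q * q))}
    {x' : ↥(TaF L N')} {P' : T4Pres ↥(TaF L N')}
    (T : T4rtTop O π hπ W1 W O' π' C M x1 x P1 P)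
    (T' : T4rmLow O π hπ x' P' P1) (hG : T4rtRegG O π hπ W1 P1)
    (hM : T4rmRegM O π hπ W1 P' P1 T'.overA') (hx0 : x ≠ 0)
    (hxver : ∀ V ∈ t4vwVer O π hπ W O' π' C M, x ∈ V ∧ x⁻¹ ∈ V)
    (hvals₂ : P₂.vals = t4vpHor L x⁻¹ ∪ t4vwVer O π hπ W O' π' C M)
    (hone : ∀ 𝔫 : Ideal ↥P₂.B, 𝔫 ≠ ⊤ → ∀ V ∈ P₂.through 𝔫, V ∈ P₂.vert (t4vQ L N' q) →
      ∀ V' ∈ P₂.through 𝔫, V' ∈ P₂.vert (t4vQ L N' q) → V = V')
    (hsm : ∀ 𝔫 : Ideal ↥P₂.B, 𝔫.IsMaximal →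
      ∀ (V : ValuationSubring ↥(TaF L (N' * q * q))) (hV : V ∈ P₂.through 𝔫),
        V ∈ P₂.vert (t4vQ L N' q) → P₂.SmoothAt 𝔫 V hV)
    (hres : ∀ 𝔫 : Ideal ↥P₂.B, 𝔫.IsMaximal →
      (⟨t4vQ L N' q, t4rt_Q_mem_B hvals₂⟩ : ↥P₂.B) ∈ 𝔫 → ∀ b : ↥P₂.B, ∃ c : ↥O,
        b - ⟨algebraMap L ↥(TaF L (N' * q * q)) (c : L),
          t4rt_const_mem_B O π hπ hN' W1 Fr W hqO O' π' C M hvals₂ c⟩ ∈ 𝔫)
    (hcusp : ∀ 𝔫 : Ideal ↥P₂.B, 𝔫.IsMaximal →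
      (∃ hx2 : x⁻¹ ∈ P₂.B, (⟨x⁻¹, hx2⟩ : ↥P₂.B) ∈ 𝔫) →
      t4vOmid O π hπ O' π' C M ∈ P₂.through 𝔫 →
      (∀ V ∈ P₂.through 𝔫, V ∈ P₂.vert (t4vQ L N' q) → V = t4vOmid O π hπ O' π' C M) →
      P₂.RegAt 𝔫) :
    ∀ 𝔫 : Ideal ↥P₂.B, 𝔫.IsMaximal →
      (⟨t4vQ L N' q, t4rt_Q_mem_B hvals₂⟩ : ↥P₂.B) ∈ 𝔫 → P₂.RegAt 𝔫 := by
  intro 𝔫 h𝔫 hQ
  haveI := h𝔫
  exact T.hreg_chart2 hN' Fr hqO T' hG hM hx0 hxver hvals₂ 𝔫 hQ (hone 𝔫 h𝔫.ne_top) (hsm 𝔫 h𝔫)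
    (fun _ => t4rt_hk_of_res O π hπ hN' W1 Fr W hqO O' π' C M T.vals hvals₂ 𝔫 hQ (hres 𝔫 h𝔫 hQ))
    (hcusp 𝔫 h𝔫)

end Inst

end Fermat.Agent.T4
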