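/-
T4-N (helper4), step C, chart 2, part 2: the combination of `ChartTwo.lean` with helper5's residue
field export (`ChartPt.lean`), and the discharge at the inertia level (helper9's SEP2 `hone`,
`T4vmGood` for `X'⁻¹` + Dedekind, helper1's cusps on `C_mid`).  Remaining hypotheses: the chart-1
data `T, T', hG, hM` (used by helper8's transfer at the non-cuspidal `C_mid`-only points), the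
presentation `P₂` with its dictionaries, Noetherianity, the horizontal roots, and K2.
-/
import Fermat.Agent.Lib.T4.New.ChartTwo
import Fermat.Agent.Lib.T4.Inst.ChartPt
import Fermat.Agent.Lib.T4.Inst.GoodFix
import Fermat.Agent.Lib.T4.Inst.Sep2One
import Fermat.Agent.Lib.T4.Reg.CuspFix

set_option autoImplicit false
set_option linter.unusedSectionVars false
set_option linter.unusedVariables false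
set_option linter.style.haveILetI false

open HahnSeries ModularCurve Fermat.Agent.T1 Fermat.Agent.T2 Fermat.Agent.TW Fermat.Agent.S05Lib
  IntermediateField

noncomputable section

namespace Fermat.Agent.T4

section Inst

variable {L : Type} [Field L] [Algebra ℚ L] (O : ValuationSubring L) {k : Type*} [Field k]
  (π : ↥O →+* k) [IsDiscreteValuationRing ↥O] (hπ : Function.Surjective π) [IsAlgClosed k]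
  {N' q : ℕ} [NeZero N'] [hq : Fact q.Prime] [CharP k q] (hN' : (N' : k) ≠ 0)
  (W1 : T2iAL L N' q) (Fr : T2iFrob k N' q) (W : T4iAL L N' q)
  (hqO : Irreducible ((q : ℕ) : ↥O))
  {L' : Type*} [Field L'] [Algebra L L'] (O' : ValuationSubring L')
  [IsDiscreteValuationRing ↥O'] (π' : ↥O' →+* k) (C : T4iCyc O O' π π' q)
  (M : T4iMid L L' N' q C.ζ) {m : ℕ}

attribute [local instance] t2iAlgebra t2i_isScalarTower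

include hN' W1 Fr hqO in
/-- **chart 2, generic form**: `T4nCChart` on the chart `x⁻¹` from the chart-1 data, the good
reduction `G` of the level-`N'` chart `y₀` (`a0 y₀ = x⁻¹`), `hone`, K2 and the cusps on `C_mid` -/
theorem t4nc2_chart2 {x1 : ↥(TaF L (N' * q))} {x : ↥(TaF L (N' * q * q))}
    {P1 : T4Pres ↥(TaF L (N' * q))} {P P₂ : T4Pres ↥(TaF L (N' * q * q))}
    {x' : ↥(TaF L N')} {P' : T4Pres ↥(TaF L N')} {y0 : ↥(TaF L N')}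
    (G : T4vmGood O π hπ hN' Fr y0) [IsDedekindDomain ↥(t2R (k := k) G.yb)]
    (T : T4rtTop O π hπ W1 W O' π' C M x1 x P1 P)
    (T' : T4rmLow O π hπ x' P' P1) (hG : T4rtRegG O π hπ W1 P1)
    (hM : T4rmRegM O π hπ W1 P' P1 T'.overA') (hx0 : x ≠ 0)
    (hxver : ∀ V ∈ t4vwVer O π hπ W O' π' C M, x ∈ V ∧ x⁻¹ ∈ V)
    (hvals₂ : P₂.vals = t4vpHor L x⁻¹ ∪ t4vwVer O π hπ W O' π' C M)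
    (hB₂ : ∀ f, f ∈ P₂.B ↔ f ∈ t2Int (K := L) (t4vA0 L N' q y0) ∧
      f ∈ (t4vInput O π hπ hN' W1 Fr W hqO O' π' C M).Ov)
    (noeth : IsNoetherianRing ↥P₂.B) (hm : m ≠ 0) (hqm : Nat.Coprime m q)
    {z : ↥(TaF L (N' * q * q))}
    (hroot : ∀ V ∈ P₂.vals, V ∉ P₂.vert (t4vQ L N' q) → ∃ t : ↥(TaF L (N' * q * q)),
      V.valuation (t ^ m * z) = 1)
    (hone : ∀ 𝔫 : Ideal ↥P₂.B, 𝔫 ≠ ⊤ → ∀ V ∈ P₂.through 𝔫, V ∈ P₂.vert (t4vQ L N' q) →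
      ∀ V' ∈ P₂.through 𝔫, V' ∈ P₂.vert (t4vQ L N' q) → V = V')
    (hK2 : ∀ 𝔫 : Ideal ↥P₂.B, 𝔫.IsMaximal → t4vO0 O π hπ W ∈ P₂.through 𝔫 →
      ∀ f0 : ↥(taOv O π hπ N'), (f0 : ↥(TaF L N')) ∈ t2Int (K := L) y0 →
        t4vA2 L N' q (f0 : ↥(TaF L N')) ∈ P₂.loc 𝔫)
    (hcusp : ∀ 𝔫 : Ideal ↥P₂.B, 𝔫.IsMaximal →
      (∃ hx2 : x⁻¹ ∈ P₂.B, (⟨x⁻¹, hx2⟩ : ↥P₂.B) ∈ 𝔫) →
      t4vOmid O π hπ O' π' C M ∈ P₂.through 𝔫 →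
      (∀ V ∈ P₂.through 𝔫, V ∈ P₂.vert (t4vQ L N' q) → V = t4vOmid O π hπ O' π' C M) →
      P₂.RegAt 𝔫)
    {a b : ↥O} (ha : π (a ^ m) = 1) (hb : π (b ^ m) = 1) {hh : ↥(TaF L (N' * q * q))}
    (h1 : (t4vOinf (N' := N') (q := q) O π hπ).valuation
      (hh - algebraMap L ↥(TaF L (N' * q * q)) ((a : L) ^ q * (b : L))) < 1)
    (h2 : (t4vOmid O π hπ O' π' C M).valuation
      (hh - algebraMap L ↥(TaF L (N' * q * q)) ((a : L) ^ (q + 1) * (b : L) ^ (q + 1))) < 1)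
    (h3 : (t4vO0 O π hπ W).valuation
      (hh - algebraMap L ↥(TaF L (N' * q * q)) ((a : L) * (b : L) ^ q)) < 1) :
    T4nCChart P₂ (t4vQ L N' q) m z q (t4vOinf (N' := N') (q := q) O π hπ)
      (t4vOmid O π hπ O' π' C M) (t4vO0 O π hπ W) 1
      ⟨algebraMap L ↥(TaF L (N' * q * q)) (a : L),
        t4rt_const_mem_B O π hπ hN' W1 Fr W hqO O' π' C M hvals₂ a⟩ 1
      ⟨algebraMap L ↥(TaF L (N' * q * q)) (b : L),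
        t4rt_const_mem_B O π hπ hN' W1 Fr W hqO O' π' C M hvals₂ b⟩ hh := by
  have hsm : ∀ 𝔫 : Ideal ↥P₂.B, 𝔫.IsMaximal →
      ∀ (V : ValuationSubring ↥(TaF L (N' * q * q))) (hV : V ∈ P₂.through 𝔫),
        V ∈ P₂.vert (t4vQ L N' q) → P₂.SmoothAt 𝔫 V hV := fun 𝔫 h𝔫 =>
    haveI := h𝔫
    t4nc2_hsm O π hπ hN' W1 Fr W hqO O' π' C M G P₂ hB₂
      (t4nc2_vert O π hπ W hqO O' π' C M hvals₂) 𝔫 (hK2 𝔫 h𝔫)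
  refine t4nc2_chart O π hπ hN' W1 Fr W hqO O' π' C M P₂ hvals₂ noeth hm hqm hroot
    (t4nc2_hreg O π hπ hN' W1 Fr W hqO O' π' C M T T' hG hM hx0 hxver hvals₂ hone hsm ?_ hcusp)
    hsm hone ha hb h1 h2 h3
  intro 𝔫 h𝔫 hQ b
  haveI := h𝔫
  obtain ⟨c, hc⟩ := t4vk_resField W1 W hqO O' π' C M G P₂ hB₂ hvals₂ 𝔫 hQ b
  exact ⟨c, hc _⟩

include hN' W1 Fr hqO in
/-- **chart 2 for the chart `X = j^Q - j`**: `x = t4vX L N' q Q`, `y₀ = X'⁻¹`, dictionary of `P₂` in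
the form of the contract `T4niStepC` -/
theorem t4nc2_chart2_X {Q : ℕ} (hQ : 2 ≤ Q) {x1 : ↥(TaF L (N' * q))}
    {P1 : T4Pres ↥(TaF L (N' * q))} {P P₂ : T4Pres ↥(TaF L (N' * q * q))}
    {x' : ↥(TaF L N')} {P' : T4Pres ↥(TaF L N')}
    (G : T4vmGood O π hπ hN' Fr (t4vX' L N' Q)⁻¹) [IsDedekindDomain ↥(t2R (k := k) G.yb)]
    (T : T4rtTop O π hπ W1 W O' π' C M x1 (t4vX L N' q Q) P1 P)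
    (T' : T4rmLow O π hπ x' P' P1) (hG : T4rtRegG O π hπ W1 P1)
    (hM : T4rmRegM O π hπ W1 P' P1 T'.overA') (hx0 : t4vX L N' q Q ≠ 0)
    (hvals₂ : P₂.vals = t4vpHor L (t4vX L N' q Q)⁻¹ ∪ t4vwVer O π hπ W O' π' C M)
    (hB₂ : ∀ f, f ∈ P₂.B ↔ f ∈ t2Int (K := L) (t4vX L N' q Q)⁻¹ ∧
      f ∈ (t4vInput O π hπ hN' W1 Fr W hqO O' π' C M).Ov)
    (noeth : IsNoetherianRing ↥P₂.B) (hm : m ≠ 0) (hqm : Nat.Coprime m q)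
    {z : ↥(TaF L (N' * q * q))}
    (hroot : ∀ V ∈ P₂.vals, V ∉ P₂.vert (t4vQ L N' q) → ∃ t : ↥(TaF L (N' * q * q)),
      V.valuation (t ^ m * z) = 1)
    (hone : ∀ 𝔫 : Ideal ↥P₂.B, 𝔫 ≠ ⊤ → ∀ V ∈ P₂.through 𝔫, V ∈ P₂.vert (t4vQ L N' q) →
      ∀ V' ∈ P₂.through 𝔫, V' ∈ P₂.vert (t4vQ L N' q) → V = V')
    (hK2 : ∀ 𝔫 : Ideal ↥P₂.B, 𝔫.IsMaximal → t4vO0 O π hπ W ∈ P₂.through 𝔫 →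
      ∀ f0 : ↥(taOv O π hπ N'), (f0 : ↥(TaF L N')) ∈ t2Int (K := L) (t4vX' L N' Q)⁻¹ →
        t4vA2 L N' q (f0 : ↥(TaF L N')) ∈ P₂.loc 𝔫)
    (hcusp : ∀ 𝔫 : Ideal ↥P₂.B, 𝔫.IsMaximal →
      (∃ hx2 : (t4vX L N' q Q)⁻¹ ∈ P₂.B, (⟨(t4vX L N' q Q)⁻¹, hx2⟩ : ↥P₂.B) ∈ 𝔫) →
      t4vOmid O π hπ O' π' C M ∈ P₂.through 𝔫 →
      (∀ V ∈ P₂.through 𝔫, V ∈ P₂.vert (t4vQ L N' q) → V = t4vOmid O π hπ O' π' C M) →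
      P₂.RegAt 𝔫)
    {a b : ↥O} (ha : π (a ^ m) = 1) (hb : π (b ^ m) = 1) {hh : ↥(TaF L (N' * q * q))}
    (h1 : (t4vOinf (N' := N') (q := q) O π hπ).valuation
      (hh - algebraMap L ↥(TaF L (N' * q * q)) ((a : L) ^ q * (b : L))) < 1)
    (h2 : (t4vOmid O π hπ O' π' C M).valuation
      (hh - algebraMap L ↥(TaF L (N' * q * q)) ((a : L) ^ (q + 1) * (b : L) ^ (q + 1))) < 1)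
    (h3 : (t4vO0 O π hπ W).valuation
      (hh - algebraMap L ↥(TaF L (N' * q * q)) ((a : L) * (b : L) ^ q)) < 1) :
    T4nCChart P₂ (t4vQ L N' q) m z q (t4vOinf (N' := N') (q := q) O π hπ)
      (t4vOmid O π hπ O' π' C M) (t4vO0 O π hπ W) 1
      ⟨algebraMap L ↥(TaF L (N' * q * q)) (a : L),
        t4rt_const_mem_B O π hπ hN' W1 Fr W hqO O' π' C M hvals₂ a⟩ 1
      ⟨algebraMap L ↥(TaF L (N' * q * q)) (b : L),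
        t4rt_const_mem_B O π hπ hN' W1 Fr W hqO O' π' C M hvals₂ b⟩ hh := by
  have hxver : ∀ V ∈ t4vwVer O π hπ W O' π' C M,
      t4vX L N' q Q ∈ V ∧ (t4vX L N' q Q)⁻¹ ∈ V := by
    intro V hV
    have a1 := (mem_t4vInput_Ov_iff O π hπ hN' W1 Fr W hqO O' π' C M _).mp
      (t4vX_mem (Q := Q) O π hπ hN' W1 Fr W hqO O' π' C M)
    have a2 := (mem_t4vInput_Ov_iff O π hπ hN' W1 Fr W hqO O' π' C M _).mp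
      (t4vX_inv_mem O π hπ hN' W1 Fr W hqO O' π' C M hQ)
    rcases (mem_t4vwVer O π hπ W O' π' C M V).mp hV with rfl | rfl | rfl
    · exact ⟨a1.1, a2.1⟩
    · exact ⟨a1.2.2, a2.2.2⟩
    · exact ⟨a1.2.1, a2.2.1⟩
  have hB₂' : ∀ f, f ∈ P₂.B ↔ f ∈ t2Int (K := L) (t4vA0 L N' q (t4vX' L N' Q)⁻¹) ∧
      f ∈ (t4vInput O π hπ hN' W1 Fr W hqO O' π' C M).Ov := by
    intro f
    rw [t4nc2_A0_X_inv]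
    exact hB₂ f
  exact t4nc2_chart2 O π hπ hN' W1 Fr W hqO O' π' C M G T T' hG hM hx0 hxver hvals₂ hB₂' noeth hm
    hqm hroot hone hK2 hcusp ha hb h1 h2 h3

end Inst

/-! ### The inertia level -/

section Fix

local notation "Qb" => AlgebraicClosure ℚ

attribute [local instance] t2i_dvr t2i_isAlgClosed t2i_charP t2i_fact t2iAlgebra t2i_isScalarTower

variable (𝔓 : FFPlace) (N' : ℕ) [NeZero N'] (h : ¬ 𝔓.p ∣ N') (h49 : 4 ∣ N' ∨ 9 ∣ N') {ζ : Qb}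
  (hζ : IsPrimitiveRoot ζ 𝔓.p) {m : ℕ}

/-- `2 ≤ p * p` -/
theorem t4nc2_two_le : 2 ≤ 𝔓.p * 𝔓.p := by
  have := 𝔓.hp.two_le
  nlinarith

include h49 in
/-- **chart 2 at the inertia level**, chart `X⁻¹`, `X = j^(p·p) - j`: remaining hypotheses = the
chart-1 data `T, T', hG, hM`, the presentation `P₂` with its two dictionaries, Noetherianity, the
horizontal roots and K2 -/
theorem t4nc2_chart2_fix {x1 : ↥(tbLevF 𝔓 (N' * 𝔓.p) ⊤)}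
    {P1 : T4Pres ↥(tbLevF 𝔓 (N' * 𝔓.p) ⊤)} {P P₂ : T4Pres ↥(tbLevF 𝔓 (N' * 𝔓.p * 𝔓.p) ⊤)}
    {x' : ↥(tbLevF 𝔓 N' ⊤)} {P' : T4Pres ↥(tbLevF 𝔓 N' ⊤)}
    (T : letI := t4cyAlgebra 𝔓 (le_top : t4cyH 𝔓 ζ ≤ ⊤)
      T4rtTop (tbFixO 𝔓 ⊤) (tbFixRes 𝔓 ⊤) (tbFixRes_surjective 𝔓 ⊤) (t2iALFix 𝔓 ⊤ N' h)
        (t4iALFix 𝔓 ⊤ N' h) (tbFixO 𝔓 (t4cyH 𝔓 ζ)) (tbFixRes 𝔓 (t4cyH 𝔓 ζ)) (t4iCycFix 𝔓 hζ)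
        (t4vMidFix 𝔓 N' h hζ) x1
        (t4vX ↥(tbFix 𝔓 (⊤ : Subgroup 𝔓.I)) N' 𝔓.p (𝔓.p * 𝔓.p)) P1 P)
    (T' : T4rmLow (tbFixO 𝔓 ⊤) (tbFixRes 𝔓 ⊤) (tbFixRes_surjective 𝔓 ⊤) x' P' P1)
    (hG : T4rtRegG (tbFixO 𝔓 ⊤) (tbFixRes 𝔓 ⊤) (tbFixRes_surjective 𝔓 ⊤) (t2iALFix 𝔓 ⊤ N' h) P1)
    (hM : T4rmRegM (tbFixO 𝔓 ⊤) (tbFixRes 𝔓 ⊤) (tbFixRes_surjective 𝔓 ⊤) (t2iALFix 𝔓 ⊤ N' h)
      P' P1 T'.overA')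
    (hvals₂ : letI := t4cyAlgebra 𝔓 (le_top : t4cyH 𝔓 ζ ≤ ⊤)
      P₂.vals = t4vpHor ↥(tbFix 𝔓 (⊤ : Subgroup 𝔓.I))
          (t4vX ↥(tbFix 𝔓 (⊤ : Subgroup 𝔓.I)) N' 𝔓.p (𝔓.p * 𝔓.p))⁻¹ ∪
        t4vwVer (tbFixO 𝔓 ⊤) (tbFixRes 𝔓 ⊤) (tbFixRes_surjective 𝔓 ⊤) (t4iALFix 𝔓 ⊤ N' h)
          (tbFixO 𝔓 (t4cyH 𝔓 ζ)) (tbFixRes 𝔓 (t4cyH 𝔓 ζ)) (t4iCycFix 𝔓 hζ)
          (t4vMidFix 𝔓 N' h hζ))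
    (hB₂ : ∀ f : ↥(tbLevF 𝔓 (N' * 𝔓.p * 𝔓.p) ⊤), f ∈ P₂.B ↔
      f ∈ t2Int (K := ↥(tbFix 𝔓 (⊤ : Subgroup 𝔓.I)))
        (t4vcX 𝔓 (N' * 𝔓.p * 𝔓.p) ⊤ (𝔓.p * 𝔓.p))⁻¹ ∧ f ∈ (t4vBaseFix 𝔓 N' h hζ).Ov)
    (noeth : IsNoetherianRing ↥P₂.B) (hm : m ≠ 0) (hqm : Nat.Coprime m 𝔓.p)
    {z : ↥(tbLevF 𝔓 (N' * 𝔓.p * 𝔓.p) ⊤)}
    (hroot : ∀ V ∈ P₂.vals, V ∉ P₂.vert (t4vQFix 𝔓 N') →
      ∃ t : ↥(tbLevF 𝔓 (N' * 𝔓.p * 𝔓.p) ⊤), V.valuation (t ^ m * z) = 1)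
    (hK2 : ∀ 𝔫 : Ideal ↥P₂.B, 𝔫.IsMaximal → t4vO0Fix 𝔓 N' h ∈ P₂.through 𝔫 →
      ∀ f0 : ↥(taOv (tbFixO 𝔓 ⊤) (tbFixRes 𝔓 ⊤) (tbFixRes_surjective 𝔓 ⊤) N'),
        (f0 : ↥(tbLevF 𝔓 N' ⊤)) ∈ t2Int (K := ↥(tbFix 𝔓 (⊤ : Subgroup 𝔓.I)))
          (t4vX' ↥(tbFix 𝔓 (⊤ : Subgroup 𝔓.I)) N' (𝔓.p * 𝔓.p))⁻¹ →
        t4vA2 ↥(tbFix 𝔓 (⊤ : Subgroup 𝔓.I)) N' 𝔓.p (f0 : ↥(tbLevF 𝔓 N' ⊤)) ∈ P₂.loc 𝔫)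
    {a b : ↥(tbFixO 𝔓 ⊤)} (ha : tbFixRes 𝔓 ⊤ (a ^ m) = 1) (hb : tbFixRes 𝔓 ⊤ (b ^ m) = 1)
    {hh : ↥(tbLevF 𝔓 (N' * 𝔓.p * 𝔓.p) ⊤)}
    (h1 : (t4vOinfFix 𝔓 N').valuation
      (hh - algebraMap ↥(tbFix 𝔓 (⊤ : Subgroup 𝔓.I)) ↥(tbLevF 𝔓 (N' * 𝔓.p * 𝔓.p) ⊤)
        ((a : ↥(tbFix 𝔓 (⊤ : Subgroup 𝔓.I))) ^ 𝔓.p * (b : ↥(tbFix 𝔓 (⊤ : Subgroup 𝔓.I))))) < 1)
    (h2 : (t4vOmidFix 𝔓 N' h hζ).valuation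
      (hh - algebraMap ↥(tbFix 𝔓 (⊤ : Subgroup 𝔓.I)) ↥(tbLevF 𝔓 (N' * 𝔓.p * 𝔓.p) ⊤)
        ((a : ↥(tbFix 𝔓 (⊤ : Subgroup 𝔓.I))) ^ (𝔓.p + 1) *
          (b : ↥(tbFix 𝔓 (⊤ : Subgroup 𝔓.I))) ^ (𝔓.p + 1))) < 1)
    (h3 : (t4vO0Fix 𝔓 N' h).valuation
      (hh - algebraMap ↥(tbFix 𝔓 (⊤ : Subgroup 𝔓.I)) ↥(tbLevF 𝔓 (N' * 𝔓.p * 𝔓.p) ⊤)
        ((a : ↥(tbFix 𝔓 (⊤ : Subgroup 𝔓.I))) * (b : ↥(tbFix 𝔓 (⊤ : Subgroup 𝔓.I))) ^ 𝔓.p)) < 1) :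
    ∃ a2 b2 : ↥P₂.B,
      (a2 : ↥(tbLevF 𝔓 (N' * 𝔓.p * 𝔓.p) ⊤)) =
        algebraMap ↥(tbFix 𝔓 (⊤ : Subgroup 𝔓.I)) ↥(tbLevF 𝔓 (N' * 𝔓.p * 𝔓.p) ⊤)
          (a : ↥(tbFix 𝔓 (⊤ : Subgroup 𝔓.I))) ∧
      (b2 : ↥(tbLevF 𝔓 (N' * 𝔓.p * 𝔓.p) ⊤)) =
        algebraMap ↥(tbFix 𝔓 (⊤ : Subgroup 𝔓.I)) ↥(tbLevF 𝔓 (N' * 𝔓.p * 𝔓.p) ⊤)
          (b : ↥(tbFix 𝔓 (⊤ : Subgroup 𝔓.I))) ∧
      T4nCChart P₂ (t4vQFix 𝔓 N') m z 𝔓.p (t4vOinfFix 𝔓 N') (t4vOmidFix 𝔓 N' h hζ)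
        (t4vO0Fix 𝔓 N' h) 1 a2 1 b2 hh := by
  letI := t4cyAlgebra 𝔓 (le_top : t4cyH 𝔓 ζ ≤ ⊤)
  have hQ := t4nc2_two_le 𝔓
  have hpQ : 𝔓.p ∣ 𝔓.p * 𝔓.p := dvd_mul_right _ _
  have G := t4vg_good_X_inv 𝔓 ⊤ N' h h49 hQ hpQ
  haveI := t4vg_dedekind_X_inv 𝔓 ⊤ N' h hQ hpQ G
  have hB₂' : ∀ f, f ∈ P₂.B ↔
      f ∈ t2Int (K := ↥(tbFix 𝔓 (⊤ : Subgroup 𝔓.I)))
        (t4vA0 ↥(tbFix 𝔓 (⊤ : Subgroup 𝔓.I)) N' 𝔓.p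
          (t4vX' ↥(tbFix 𝔓 (⊤ : Subgroup 𝔓.I)) N' (𝔓.p * 𝔓.p))⁻¹) ∧
        f ∈ (t4vInputFix 𝔓 N' h hζ).Ov := by
    intro f
    rw [t4nc2_A0_X_inv]
    exact hB₂ f
  refine ⟨_, _, rfl, rfl, t4nc2_chart2_X (tbFixO 𝔓 ⊤) (tbFixRes 𝔓 ⊤) (tbFixRes_surjective 𝔓 ⊤)
    (t2i_natCast_ne_zero 𝔓 h) (t2iALFix 𝔓 ⊤ N' h) (t2iFrobFix 𝔓 N') (t4iALFix 𝔓 ⊤ N' h)
    (t4cy_irreducible_p 𝔓) (tbFixO 𝔓 (t4cyH 𝔓 ζ)) (tbFixRes 𝔓 (t4cyH 𝔓 ζ)) (t4iCycFix 𝔓 hζ)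
    (t4vMidFix 𝔓 N' h hζ) hQ G T T' hG hM (t4vcX_ne_zero 𝔓 (N' * 𝔓.p * 𝔓.p) ⊤ hQ) hvals₂ hB₂ noeth
    hm hqm hroot ?_ hK2 ?_ ha hb h1 h2 h3⟩
  · intro 𝔫 h𝔫
    exact t4vs2_hone_fix 𝔓 N' h hζ P₂ hB₂
      (t4nc2_vert (tbFixO 𝔓 ⊤) (tbFixRes 𝔓 ⊤) (tbFixRes_surjective 𝔓 ⊤) (t4iALFix 𝔓 ⊤ N' h)
        (t4cy_irreducible_p 𝔓) (tbFixO 𝔓 (t4cyH 𝔓 ζ)) (tbFixRes 𝔓 (t4cyH 𝔓 ζ)) (t4iCycFix 𝔓 hζ)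
        (t4vMidFix 𝔓 N' h hζ) hvals₂) h𝔫
  · intro 𝔫 h𝔫 hx2 hmid honly
    haveI := h𝔫
    haveI := h𝔫.isPrime
    obtain ⟨hx2m, hx2n⟩ := hx2
    exact t4rc_regAt_cusp_fix 𝔓 N' h hζ hQ P₂ hvals₂ hB₂ rfl 𝔫 hmid honly
      (t4vm_smoothAt_mid (t2iALFix 𝔓 ⊤ N' h) (t4iALFix 𝔓 ⊤ N' h) (t4cy_irreducible_p 𝔓)
        (tbFixO 𝔓 (t4cyH 𝔓 ζ)) (tbFixRes 𝔓 (t4cyH 𝔓 ζ)) (t4iCycFix 𝔓 hζ) (t4vMidFix 𝔓 N' h hζ)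
        G P₂ hB₂' hmid) (fun _ => hx2n)

end Fix

end Fermat.Agent.T4
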