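/-
T4-N (helper4), step C, chart 2, part 3: `hroot` discharged from the `L`-Kummer condition
(helper2's `t4vq_hroot_chart`).
-/
import Fermat.Agent.Lib.T4.New.ChartTwoFix
import Fermat.Agent.Lib.T4.Inst.PresRoot
import Fermat.Agent.Lib.T4.Reg.CuspK2Fix

set_option autoImplicit false
set_option linter.unusedSectionVars false
set_option linter.unusedVariables false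
set_option linter.style.haveILetI false

open HahnSeries ModularCurve Fermat.Agent.T1 Fermat.Agent.T2 Fermat.Agent.TW Fermat.Agent.S05Lib
  IntermediateField AlgebraicCurve

noncomputable section

namespace Fermat.Agent.T4

section Inst

variable {L : Type} [Field L] [Algebra ℚ L] (O : ValuationSubring L)
  {k : Type*} [Field k] (π : ↥O →+* k) [IsDiscreteValuationRing ↥O]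
  (hπ : Function.Surjective π) [IsAlgClosed k]
  {N' q : ℕ} [NeZero N'] [hq : Fact q.Prime] [CharP k q] (hN' : (N' : k) ≠ 0)
  (W1 : T2iAL L N' q) (Fr : T2iFrob k N' q) (W : T4iAL L N' q)
  (hqO : Irreducible ((q : ℕ) : ↥O))
  {L' : Type*} [Field L'] [Algebra L L'] (O' : ValuationSubring L')
  [IsDiscreteValuationRing ↥O'] (π' : ↥O' →+* k) (C : T4iCyc O O' π π' q)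
  (M : T4iMid L L' N' q C.ζ)

attribute [local instance] t2iAlgebra t2i_isScalarTower

include hqO in
/-- `hroot` on a chart from the `L`-Kummer condition -/
theorem t4nc2_hroot {y : ↥(TaF L (N' * q * q))} {P : T4Pres ↥(TaF L (N' * q * q))}
    (hvals : P.vals = t4vpHor L y ∪ t4vwVer O π hπ W O' π' C M)
    {z : ↥(TaF L (N' * q * q))} (hz : z ≠ 0) {m : ℕ}
    (hdiv : ∀ v : Place L ↥(TaF L (N' * q * q)), (m : ℤ) ∣ v.ord z) :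
    ∀ V ∈ P.vals, V ∉ P.vert (t4vQ L N' q) →
      ∃ t : ↥(TaF L (N' * q * q)), V.valuation (t ^ m * z) = 1 :=
  t4vq_hroot_chart P y (t4vQ L N' q) _ hvals (t4rt_vert hqO hvals) hz hdiv

end Inst

/-! ### The inertia level -/

section Fix

local notation "Qb" => AlgebraicClosure ℚ

attribute [local instance] t2i_dvr t2i_isAlgClosed t2i_charP t2i_fact t2iAlgebra t2i_isScalarTower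

variable (𝔓 : FFPlace) (N' : ℕ) [NeZero N'] (h : ¬ 𝔓.p ∣ N') (h49 : 4 ∣ N' ∨ 9 ∣ N') {ζ : Qb}
  (hζ : IsPrimitiveRoot ζ 𝔓.p) {m : ℕ}

include h49 in
/-- **chart 2 at the inertia level, K2 and the horizontal roots discharged**: remaining
hypotheses = the chart-1 data `T, T', hG, hM`, the presentation `P₂` with its two dictionaries and
Noetherianity -/
theorem t4nc2_chart2_fix_K2 {x1 : ↥(tbLevF 𝔓 (N' * 𝔓.p) ⊤)}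
    {P1 : T4Pres ↥(tbLevF 𝔓 (N' * 𝔓.p) ⊤)} {P P₂ : T4Pres ↥(tbLevF 𝔓 (N' * 𝔓.p * 𝔓.p) ⊤)}
    {x' : ↥(tbLevF 𝔓 N' ⊤)} {P' : T4Pres ↥(tbLevF 𝔓 N' ⊤)}
    (T : letI := t4cyAlgebra 𝔓 (le_top : t4cyH 𝔓 ζ ≤ ⊤)
      T4rtTop (tbFixO 𝔓 ⊤) (tbFixRes 𝔓 ⊤) (tbFixRes_surjective 𝔓 ⊤) (t2iALFix 𝔓 ⊤ N' h)
        (t4iALFix 𝔓 ⊤ N' h) (tbFixO 𝔓 (t4cyH 𝔓 ζ)) (tbFixRes 𝔓 (t4cyH 𝔓 ζ)) (t4iCycFix 𝔓 hζ)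
        (t4vMidFix 𝔓 N' h hζ) x1
        (t4vX ↥(tbFix 𝔓 (⊤ : Subgroup 𝔓.I)) N' 𝔓.p (𝔓.p * 𝔓.p)) P1 P)
    (T' : T4rmLow (tbFixO 𝔓 ⊤) (tbFixRes 𝔓 ⊤) (tbFixRes_surjective 𝔓 ⊤) x' P' P1)
    (hG : T4rtRegG (tbFixO 𝔓 ⊤) (tbFixRes 𝔓 ⊤) (tbFixRes_surjective 𝔓 ⊤) (t2iALFix 𝔓 ⊤ N' h) P1)
    (hM : T4rmRegM (tbFixO 𝔓 ⊤) (tbFixRes 𝔓 ⊤) (tbFixRes_surjective 𝔓 ⊤) (t2iALFix 𝔓 ⊤ N' h)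
      P' P1 T'.overA')
    (hvals₂ : letI := t4cyAlgebra 𝔓 (le_top : t4cyH 𝔓 ζ ≤ ⊤)
      P₂.vals = t4vpHor ↥(tbFix 𝔓 (⊤ : Subgroup 𝔓.I))
          (t4vX ↥(tbFix 𝔓 (⊤ : Subgroup 𝔓.I)) N' 𝔓.p (𝔓.p * 𝔓.p))⁻¹ ∪
        t4vwVer (tbFixO 𝔓 ⊤) (tbFixRes 𝔓 ⊤) (tbFixRes_surjective 𝔓 ⊤) (t4iALFix 𝔓 ⊤ N' h)
          (tbFixO 𝔓 (t4cyH 𝔓 ζ)) (tbFixRes 𝔓 (t4cyH 𝔓 ζ)) (t4iCycFix 𝔓 hζ)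
          (t4vMidFix 𝔓 N' h hζ))
    (hB₂ : ∀ f : ↥(tbLevF 𝔓 (N' * 𝔓.p * 𝔓.p) ⊤), f ∈ P₂.B ↔
      f ∈ t2Int (K := ↥(tbFix 𝔓 (⊤ : Subgroup 𝔓.I)))
        (t4vcX 𝔓 (N' * 𝔓.p * 𝔓.p) ⊤ (𝔓.p * 𝔓.p))⁻¹ ∧ f ∈ (t4vBaseFix 𝔓 N' h hζ).Ov)
    (noeth : IsNoetherianRing ↥P₂.B) (hm : m ≠ 0) (hqm : Nat.Coprime m 𝔓.p)
    {z : ↥(tbLevF 𝔓 (N' * 𝔓.p * 𝔓.p) ⊤)} (hz : z ≠ 0)
    (hdiv : ∀ v : Place ↥(tbFix 𝔓 (⊤ : Subgroup 𝔓.I))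
      ↥(TaF ↥(tbFix 𝔓 (⊤ : Subgroup 𝔓.I)) (N' * 𝔓.p * 𝔓.p)), (m : ℤ) ∣ v.ord z)
    {a b : ↥(tbFixO 𝔓 ⊤)} (ha : tbFixRes 𝔓 ⊤ (a ^ m) = 1) (hb : tbFixRes 𝔓 ⊤ (b ^ m) = 1)
    {hh : ↥(tbLevF 𝔓 (N' * 𝔓.p * 𝔓.p) ⊤)}
    (h1 : (t4vOinfFix 𝔓 N').valuation
      (hh - algebraMap ↥(tbFix 𝔓 (⊤ : Subgroup 𝔓.I)) ↥(tbLevF 𝔓 (N' * 𝔓.p * 𝔓.p) ⊤)
        ((a : ↥(tbFix 𝔓 (⊤ : Subgroup 𝔓.I))) ^ 𝔓.p * (b : ↥(tbFix 𝔓 (⊤ : Subgroup 𝔓.I))))) < 1)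
    (h2 : (t4vOmidFix 𝔓 N' h hζ).valuation
      (hh - algebraMap ↥(tbFix 𝔓 (⊤ : Subgroup 𝔓.I)) ↥(tbLevF 𝔓 (N' * 𝔓.p * 𝔓.p) ⊤)
        ((a : ↥(tbFix 𝔓 (⊤ : Subgroup 𝔓.I))) ^ (𝔓.p + 1) *
          (b : ↥(tbFix 𝔓 (⊤ : Subgroup 𝔓.I))) ^ (𝔓.p + 1))) < 1)
    (h3 : (t4vO0Fix 𝔓 N' h).valuation
      (hh - algebraMap ↥(tbFix 𝔓 (⊤ : Subgroup 𝔓.I)) ↥(tbLevF 𝔓 (N' * 𝔓.p * 𝔓.p) ⊤)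
        ((a : ↥(tbFix 𝔓 (⊤ : Subgroup 𝔓.I))) * (b : ↥(tbFix 𝔓 (⊤ : Subgroup 𝔓.I))) ^ 𝔓.p)) < 1) :
    ∃ a2 b2 : ↥P₂.B,
      (a2 : ↥(tbLevF 𝔓 (N' * 𝔓.p * 𝔓.p) ⊤)) =
        algebraMap ↥(tbFix 𝔓 (⊤ : Subgroup 𝔓.I)) ↥(tbLevF 𝔓 (N' * 𝔓.p * 𝔓.p) ⊤)
          (a : ↥(tbFix 𝔓 (⊤ : Subgroup 𝔓.I))) ∧
      (b2 : ↥(tbLevF 𝔓 (N' * 𝔓.p * 𝔓.p) ⊤)) =
        algebraMap ↥(tbFix 𝔓 (⊤ : Subgroup 𝔓.I)) ↥(tbLevF 𝔓 (N' * 𝔓.p * 𝔓.p) ⊤)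
          (b : ↥(tbFix 𝔓 (⊤ : Subgroup 𝔓.I))) ∧
      T4nCChart P₂ (t4vQFix 𝔓 N') m z 𝔓.p (t4vOinfFix 𝔓 N') (t4vOmidFix 𝔓 N' h hζ)
        (t4vO0Fix 𝔓 N' h) 1 a2 1 b2 hh := by
  letI := t4cyAlgebra 𝔓 (le_top : t4cyH 𝔓 ζ ≤ ⊤)
  refine t4nc2_chart2_fix 𝔓 N' h h49 hζ T T' hG hM hvals₂ hB₂ noeth hm hqm
    (t4nc2_hroot (tbFixO 𝔓 ⊤) (tbFixRes 𝔓 ⊤) (tbFixRes_surjective 𝔓 ⊤) (t4iALFix 𝔓 ⊤ N' h)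
      (t4cy_irreducible_p 𝔓) (tbFixO 𝔓 (t4cyH 𝔓 ζ)) (tbFixRes 𝔓 (t4cyH 𝔓 ζ)) (t4iCycFix 𝔓 hζ)
      (t4vMidFix 𝔓 N' h hζ) hvals₂ hz hdiv) ?_ ha hb h1 h2 h3
  intro 𝔫 h𝔫 h0 f0 hf0
  haveI := h𝔫.isPrime
  exact t4rck_K2_fix 𝔓 N' h hζ (t4nc2_two_le 𝔓) P₂ hvals₂ hB₂ rfl 𝔫 h0 f0 hf0

end Fix

end Fermat.Agent.T4
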