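/-
T4-N (helper4), steps A + B, part 4: the `q`-group step (`T4nB.qgrp`) from ring-level data.

`Ov ⊂ F` a subring, `π ∈ Ov` with `q ∈ π · Ov` (`q` a prime number).  `t4nU1q Ov π` is the group of
units of `Ov` congruent to `1` modulo `π · Ov`.  If `z` is a unit of `Ov` with `(z - 1) ^ q ∈ π · Ov`
(e.g. `z - 1` in the radical of `π · Ov = 𝔓_inf 𝔓_mid^(q-1) 𝔓_0`), then `z ^ q ∈ t4nU1q Ov π`, and for
`m` coprime to `q`, `z = (z ^ a) ^ m * (z ^ q) ^ b` is an `m`-th power modulo `t4nU1q Ov π`.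
-/
import Mathlib

set_option autoImplicit false

namespace Fermat.Agent.T4

/-- `x ^ q ∈ I` and `q ∈ I` imply `(1 + x) ^ q - 1 ∈ I` -/
theorem t4n_one_add_pow_sub_one_mem {R : Type*} [CommRing R] {q : ℕ} (hq : q.Prime)
    {I : Ideal R} (hqI : (q : R) ∈ I) {x : R} (hx : x ^ q ∈ I) : (1 + x) ^ q - 1 ∈ I := by
  obtain ⟨r, hr⟩ := exists_add_pow_prime_eq hq 1 x
  have : (1 + x) ^ q - 1 = x ^ q + (q : R) * (1 * x * r) := by
    rw [hr]; ring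
  rw [this]
  exact I.add_mem hx (I.mul_mem_right _ hqI)

/-- in a commutative group: if `z ^ q ∈ H` and `m` is coprime to `q`, then `z` is an `m`-th power
(of a power of `z`) modulo `H` -/
theorem t4n_exists_zpow_of_coprime {G : Type*} [CommGroup G] {m q : ℕ} (hqm : Nat.Coprime m q)
    (H : Subgroup G) {z : G} (hz : z ^ q ∈ H) : ∃ a : ℤ, z * ((z ^ a) ^ m)⁻¹ ∈ H := by
  refine ⟨Nat.gcdA m q, ?_⟩
  have hb : (m : ℤ) * Nat.gcdA m q + (q : ℤ) * Nat.gcdB m q = 1 := by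
    have := Nat.gcd_eq_gcd_ab m q
    rw [hqm] at this
    simpa using this.symm
  have h1 : z * ((z ^ Nat.gcdA m q) ^ m)⁻¹ = (z ^ q) ^ Nat.gcdB m q := by
    rw [eq_comm, ← zpow_natCast (z ^ Nat.gcdA m q) m, ← zpow_mul, ← zpow_natCast z q, ← zpow_mul,
      eq_mul_inv_iff_mul_eq, ← zpow_add]
    conv_rhs => rw [← zpow_one z]
    congr 1
    linarith
  rw [h1]
  exact H.zpow_mem hz _

section Field

variable {F : Type*} [Field F]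

/-- the units of `Ov` congruent to `1` modulo `π · Ov` -/
def t4nU1q (Ov : Subring F) (π : F) : Subgroup Fˣ where
  carrier := {z | (z : F) ∈ Ov ∧ ((z⁻¹ : Fˣ) : F) ∈ Ov ∧ ∃ o ∈ Ov, (z : F) - 1 = π * o}
  one_mem' := ⟨by simp, by simp, 0, Ov.zero_mem, by simp⟩
  mul_mem' := by
    rintro a b ⟨ha, ha', oa, hoa, hao⟩ ⟨hb, hb', ob, hob, hbo⟩
    refine ⟨by simpa using Ov.mul_mem ha hb, ?_, oa * b + ob,
      Ov.add_mem (Ov.mul_mem hoa hb) hob, ?_⟩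
    · rw [mul_inv, Units.val_mul]
      exact Ov.mul_mem ha' hb'
    · rw [Units.val_mul, mul_add, ← mul_assoc, ← hao, ← hbo]
      ring
  inv_mem' := by
    rintro a ⟨ha, ha', oa, hoa, hao⟩
    refine ⟨ha', by simpa using ha, -(oa * ((a⁻¹ : Fˣ) : F)),
      Ov.neg_mem (Ov.mul_mem hoa ha'), ?_⟩
    rw [mul_neg, ← mul_assoc, ← hao, sub_mul, one_mul, ← Units.val_mul, mul_inv_cancel]
    simp

theorem mem_t4nU1q {Ov : Subring F} {π : F} {z : Fˣ} : z ∈ t4nU1q Ov π ↔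
    (z : F) ∈ Ov ∧ ((z⁻¹ : Fˣ) : F) ∈ Ov ∧ ∃ o ∈ Ov, (z : F) - 1 = π * o := Iff.rfl

/-- **the `q`-group step**: a unit `z` of `Ov` with `(z - 1) ^ q ∈ π · Ov` (where `q ∈ π · Ov`) has
`z ^ q ≡ 1` modulo `π · Ov` -/
theorem t4n_pow_mem_U1q (Ov : Subring F) {π : F} (hπ : π ∈ Ov) {q : ℕ} (hq : q.Prime)
    (hqπ : ∃ o ∈ Ov, (q : F) = π * o) {z : Fˣ} (hz : (z : F) ∈ Ov)
    (hz' : ((z⁻¹ : Fˣ) : F) ∈ Ov) (hx : ∃ o ∈ Ov, ((z : F) - 1) ^ q = π * o) :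
    z ^ q ∈ t4nU1q Ov π := by
  refine ⟨by simpa using Ov.pow_mem hz q, by simpa using Ov.pow_mem hz' q, ?_⟩
  -- work in the ring `Ov` with the ideal `(π)`
  set πO : ↥Ov := ⟨π, hπ⟩
  set zO : ↥Ov := ⟨(z : F), hz⟩
  obtain ⟨o1, ho1, h1⟩ := hqπ
  obtain ⟨o2, ho2, h2⟩ := hx
  have hqI : ((q : ℕ) : ↥Ov) ∈ Ideal.span {πO} := by
    rw [Ideal.mem_span_singleton]
    refine ⟨⟨o1, ho1⟩, ?_⟩
    apply Subtype.ext
    simpa using h1
  have hxI : (zO - 1) ^ q ∈ Ideal.span {πO} := by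
    rw [Ideal.mem_span_singleton]
    refine ⟨⟨o2, ho2⟩, ?_⟩
    apply Subtype.ext
    simpa using h2
  have h3 := t4n_one_add_pow_sub_one_mem hq hqI hxI
  rw [add_sub_cancel, Ideal.mem_span_singleton] at h3
  obtain ⟨o3, h3⟩ := h3
  refine ⟨(o3 : F), o3.2, ?_⟩
  have := congrArg (Subtype.val) h3
  simpa using this

/-- **`T4nB.qgrp` from ring-level data**: a unit `z` of `Ov` with `(z - 1) ^ q ∈ π · Ov` is an `m`-th
power of a power of `z`, modulo the units `≡ 1` modulo `π · Ov` -/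
theorem t4n_qgrp_of_pow (Ov : Subring F) {π : F} (hπ : π ∈ Ov) {q m : ℕ} (hq : q.Prime)
    (hqm : Nat.Coprime m q) (hqπ : ∃ o ∈ Ov, (q : F) = π * o) {z : Fˣ} (hz : (z : F) ∈ Ov)
    (hz' : ((z⁻¹ : Fˣ) : F) ∈ Ov) (hx : ∃ o ∈ Ov, ((z : F) - 1) ^ q = π * o) :
    ∃ a : ℤ, z * ((z ^ a) ^ m)⁻¹ ∈ t4nU1q Ov π :=
  t4n_exists_zpow_of_coprime hqm _ (t4n_pow_mem_U1q Ov hπ hq hqπ hz hz' hx)

end Field

end Fermat.Agent.T4
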