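/-
T4-N (helper4), steps A + B, part 1: **the abstract interface** (no modular curves).

`F1 ⊂ F` (two embeddings `α`, `β`) function fields over a discretely valued field `L` (uniformiser
`π`, think `π = q`); three discrete valuations `v_inf, v_mid, v_0` of `F` with
`(v_inf, v_mid, v_0)(π) = (1, q - 1, 1)`, two `v¹_inf, v¹_0` of `F1`; the two norms
`N_α, N_β : Fˣ → F1ˣ`; the norm formulas for valuations (V5) and weak approximation (V4).
`T4nA` collects this (enough for step A); `T4nB D` adds the residue maps on the units, the norm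
formulas for residues, CRT for residues and the `q`-group step (enough for step B).
-/
import Mathlib

set_option autoImplicit false
set_option linter.unusedSectionVars false
set_option linter.unusedVariables false
set_option linter.style.haveILetI false

namespace Fermat.Agent.T4

/-- **interface of step A**: constants, norms, the five valuations, the norm formulas for
valuations, weak approximation -/
structure T4nA (L F1 F : Type) [Field L] [Field F1] [Field F] (q m : ℕ) where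
  /-- the valuation of the constant field -/
  vL : Additive Lˣ →+ ℤ
  /-- a uniformiser of the constant field -/
  π : Lˣ
  vL_π : vL (Additive.ofMul π) = 1
  /-- the constants of `F1` -/
  cF1 : Lˣ →* F1ˣ
  /-- the constants of `F` -/
  cF : Lˣ →* Fˣ
  /-- the norm for the `α`-structure -/
  Nα : Fˣ →* F1ˣ
  /-- the norm for the `β`-structure -/
  Nβ : Fˣ →* F1ˣ
  Nα_c : ∀ c, Nα (cF c) = cF1 c ^ q
  Nβ_c : ∀ c, Nβ (cF c) = cF1 c ^ q
  /-- the valuation of the component `∞` -/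
  vinf : Additive Fˣ →+ ℤ
  /-- the valuation of the middle component -/
  vmid : Additive Fˣ →+ ℤ
  /-- the valuation of the component `0` -/
  v0 : Additive Fˣ →+ ℤ
  /-- the valuation of the component `∞` at the lower level -/
  v1inf : Additive F1ˣ →+ ℤ
  /-- the valuation of the component `0` at the lower level -/
  v10 : Additive F1ˣ →+ ℤ
  vinf_c : ∀ c, vinf (Additive.ofMul (cF c)) = vL (Additive.ofMul c)
  vmid_c : ∀ c, vmid (Additive.ofMul (cF c)) = ((q : ℤ) - 1) * vL (Additive.ofMul c)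
  v0_c : ∀ c, v0 (Additive.ofMul (cF c)) = vL (Additive.ofMul c)
  v1inf_c : ∀ c, v1inf (Additive.ofMul (cF1 c)) = vL (Additive.ofMul c)
  v10_c : ∀ c, v10 (Additive.ofMul (cF1 c)) = vL (Additive.ofMul c)
  v1inf_Nα : ∀ y, v1inf (Additive.ofMul (Nα y)) = vinf (Additive.ofMul y) + vmid (Additive.ofMul y)
  v10_Nα : ∀ y, v10 (Additive.ofMul (Nα y)) = (q : ℤ) * v0 (Additive.ofMul y)
  v1inf_Nβ : ∀ y, v1inf (Additive.ofMul (Nβ y)) = (q : ℤ) * vinf (Additive.ofMul y)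
  v10_Nβ : ∀ y, v10 (Additive.ofMul (Nβ y)) = vmid (Additive.ofMul y) + v0 (Additive.ofMul y)
  approx_v : ∀ a b c : ℤ, ∃ g : Fˣ, vinf (Additive.ofMul g) = a ∧ vmid (Additive.ofMul g) = b ∧
    v0 (Additive.ofMul g) = c

namespace T4nA

variable {L F1 F : Type} [Field L] [Field F1] [Field F] {q m : ℕ} (D : T4nA L F1 F q m)

/-- the units at the three valuations -/
def U : Subgroup Fˣ where
  carrier := {y | D.vinf (Additive.ofMul y) = 0 ∧ D.vmid (Additive.ofMul y) = 0 ∧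
    D.v0 (Additive.ofMul y) = 0}
  one_mem' := ⟨map_zero _, map_zero _, map_zero _⟩
  mul_mem' := fun {a b} ha hb => by
    refine ⟨?_, ?_, ?_⟩
    · show D.vinf (Additive.ofMul (a * b)) = 0
      rw [ofMul_mul, map_add, ha.1, hb.1, add_zero]
    · show D.vmid (Additive.ofMul (a * b)) = 0
      rw [ofMul_mul, map_add, ha.2.1, hb.2.1, add_zero]
    · show D.v0 (Additive.ofMul (a * b)) = 0
      rw [ofMul_mul, map_add, ha.2.2, hb.2.2, add_zero]
  inv_mem' := fun {a} ha => by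
    refine ⟨?_, ?_, ?_⟩
    · show D.vinf (Additive.ofMul a⁻¹) = 0
      rw [ofMul_inv, map_neg, ha.1, neg_zero]
    · show D.vmid (Additive.ofMul a⁻¹) = 0
      rw [ofMul_inv, map_neg, ha.2.1, neg_zero]
    · show D.v0 (Additive.ofMul a⁻¹) = 0
      rw [ofMul_inv, map_neg, ha.2.2, neg_zero]

theorem mem_U {y : Fˣ} : y ∈ D.U ↔ D.vinf (Additive.ofMul y) = 0 ∧ D.vmid (Additive.ofMul y) = 0 ∧
    D.v0 (Additive.ofMul y) = 0 := Iff.rfl

/-- the units at the two valuations of the lower level -/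
def U1 : Subgroup F1ˣ where
  carrier := {y | D.v1inf (Additive.ofMul y) = 0 ∧ D.v10 (Additive.ofMul y) = 0}
  one_mem' := ⟨map_zero _, map_zero _⟩
  mul_mem' := fun {a b} ha hb => by
    refine ⟨?_, ?_⟩
    · show D.v1inf (Additive.ofMul (a * b)) = 0
      rw [ofMul_mul, map_add, ha.1, hb.1, add_zero]
    · show D.v10 (Additive.ofMul (a * b)) = 0
      rw [ofMul_mul, map_add, ha.2, hb.2, add_zero]
  inv_mem' := fun {a} ha => by
    refine ⟨?_, ?_⟩
    · show D.v1inf (Additive.ofMul a⁻¹) = 0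
      rw [ofMul_inv, map_neg, ha.1, neg_zero]
    · show D.v10 (Additive.ofMul a⁻¹) = 0
      rw [ofMul_inv, map_neg, ha.2, neg_zero]

theorem mem_U1 {y : F1ˣ} : y ∈ D.U1 ↔ D.v1inf (Additive.ofMul y) = 0 ∧
    D.v10 (Additive.ofMul y) = 0 := Iff.rfl

/-- the units of the constant field -/
def UL : Subgroup Lˣ where
  carrier := {c | D.vL (Additive.ofMul c) = 0}
  one_mem' := map_zero _
  mul_mem' := fun {a b} ha hb => by
    show D.vL (Additive.ofMul (a * b)) = 0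
    rw [ofMul_mul, map_add, ha, hb, add_zero]
  inv_mem' := fun {a} ha => by
    show D.vL (Additive.ofMul a⁻¹) = 0
    rw [ofMul_inv, map_neg, ha, neg_zero]

theorem mem_UL {c : Lˣ} : c ∈ D.UL ↔ D.vL (Additive.ofMul c) = 0 := Iff.rfl

theorem cF1_mem_U1 {c : Lˣ} (hc : c ∈ D.UL) : D.cF1 c ∈ D.U1 :=
  ⟨(D.v1inf_c c).trans hc, (D.v10_c c).trans hc⟩

theorem Nα_mem_U1 {y : Fˣ} (hy : y ∈ D.U) : D.Nα y ∈ D.U1 := by
  refine ⟨?_, ?_⟩
  · show D.v1inf (Additive.ofMul (D.Nα y)) = 0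
    rw [D.v1inf_Nα, hy.1, hy.2.1, add_zero]
  · show D.v10 (Additive.ofMul (D.Nα y)) = 0
    rw [D.v10_Nα, hy.2.2, mul_zero]

theorem Nβ_mem_U1 {y : Fˣ} (hy : y ∈ D.U) : D.Nβ y ∈ D.U1 := by
  refine ⟨?_, ?_⟩
  · show D.v1inf (Additive.ofMul (D.Nβ y)) = 0
    rw [D.v1inf_Nβ, hy.1, mul_zero]
  · show D.v10 (Additive.ofMul (D.Nβ y)) = 0
    rw [D.v10_Nβ, hy.2.1, hy.2.2, add_zero]

end T4nA

/-- **interface of step B**: residue maps on the units, the norm formulas for residues, CRT for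
residues, and the `q`-group step -/
structure T4nB {L F1 F : Type} [Field L] [Field F1] [Field F] {q m : ℕ} (D : T4nA L F1 F q m)
    (k E1 E : Type) [Field k] [Field E1] [Field E] where
  /-- residue at the component `∞` -/
  rinf : ↥D.U →* Eˣ
  /-- residue at the middle component -/
  rmid : ↥D.U →* Eˣ
  /-- residue at the component `0` -/
  r0 : ↥D.U →* Eˣ
  /-- residue at the component `∞`, lower level -/
  r1inf : ↥D.U1 →* E1ˣ
  /-- residue at the component `0`, lower level -/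
  r10 : ↥D.U1 →* E1ˣ
  /-- residue of the constant field -/
  rL : ↥D.UL →* kˣ
  /-- the constants of `E` -/
  κ : kˣ →* Eˣ
  /-- the constants of `E1` -/
  κ1 : kˣ →* E1ˣ
  /-- `k` is closed under `m`-th roots -/
  k_div : ∀ a : kˣ, ∃ b : kˣ, b ^ m = a
  r1inf_c : ∀ c : ↥D.UL, r1inf ⟨D.cF1 c, D.cF1_mem_U1 c.2⟩ = κ1 (rL c)
  r10_c : ∀ c : ↥D.UL, r10 ⟨D.cF1 c, D.cF1_mem_U1 c.2⟩ = κ1 (rL c)
  /-- the identification of the residue fields -/
  ι : E1ˣ →* Eˣ
  /-- the Frobenius twist of the residue fields -/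
  Φ : E1ˣ →* Eˣ
  ι_κ : ∀ a, ∃ b, ι (κ1 a) = κ b
  Φ_κ : ∀ a, ∃ b, Φ (κ1 a) = κ b
  red_α_inf : ∀ y : ↥D.U, ι (r1inf ⟨D.Nα y, D.Nα_mem_U1 y.2⟩) = rinf y * rmid y ^ (q - 1)
  red_α_0 : ∀ y : ↥D.U, Φ (r10 ⟨D.Nα y, D.Nα_mem_U1 y.2⟩) = r0 y ^ q
  red_β_inf : ∀ y : ↥D.U, Φ (r1inf ⟨D.Nβ y, D.Nβ_mem_U1 y.2⟩) = rinf y ^ q
  red_β_0 : ∀ y : ↥D.U, ι (r10 ⟨D.Nβ y, D.Nβ_mem_U1 y.2⟩) = rmid y ^ (q - 1) * r0 y
  approx_r : ∀ a b c : Eˣ, ∃ g : ↥D.U, rinf g = a ∧ rmid g = b ∧ r0 g = c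
  /-- the units congruent to `1` modulo `q` -/
  U1q : Subgroup Fˣ
  qgrp : ∀ z : ↥D.U, rinf z = 1 → rmid z = 1 → r0 z = 1 →
    ∃ g : ↥D.U, (z : Fˣ) * ((g : Fˣ) ^ m)⁻¹ ∈ U1q

end Fermat.Agent.T4
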