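/-
T4-N (helper4), steps A + B, part 2: **step A** (the component group without intersection theory).

If `N_α y` and `N_β y` are `constant × m-th power`, then the valuations `n = (n_inf, n_mid, n_0)` of
`y` satisfy `(q + 1)(n_inf - n_0) ≡ 0` and `n_inf + n_mid ≡ q n_0` modulo `m`; hence
`(q + 1) n ≡ t · (1, q - 1, 1) = v(π ^ t)`, and by weak approximation
`y ^ (q + 1) = π ^ t · g ^ m · unit`.
-/
import Mathlib
import Fermat.Agent.Lib.T4.New.ABDefs

set_option autoImplicit false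
set_option linter.unusedSectionVars false
set_option linter.unusedVariables false
set_option linter.style.haveILetI false

namespace Fermat.Agent.T4

variable {L F1 F : Type} [Field L] [Field F1] [Field F] {q m : ℕ} (D : T4nA L F1 F q m)

theorem T4nA.vL_zpow (t : ℤ) : D.vL (Additive.ofMul (D.π ^ t)) = t := by
  rw [ofMul_zpow, map_zsmul, D.vL_π, smul_eq_mul, mul_one]

/-- **step A** -/
theorem t4n_stepA (y : Fˣ)
    (hα : ∃ (c : Lˣ) (g : F1ˣ), D.Nα y = D.cF1 c * g ^ m)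
    (hβ : ∃ (c : Lˣ) (g : F1ˣ), D.Nβ y = D.cF1 c * g ^ m) :
    ∃ (c : Lˣ) (g : Fˣ), y ^ (q + 1) * (D.cF c * g ^ m)⁻¹ ∈ D.U := by
  obtain ⟨c₁, g₁, h₁⟩ := hα
  obtain ⟨c₂, g₂, h₂⟩ := hβ
  set ninf := D.vinf (Additive.ofMul y) with hninf
  set nmid := D.vmid (Additive.ofMul y) with hnmid
  set n0 := D.v0 (Additive.ofMul y) with hn0
  -- the four congruences
  have e1 : ninf + nmid = D.vL (Additive.ofMul c₁) + m * D.v1inf (Additive.ofMul g₁) := by
    rw [← D.v1inf_Nα, h₁, ofMul_mul, map_add, D.v1inf_c, ofMul_pow, map_nsmul, nsmul_eq_mul]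
  have e2 : (q : ℤ) * n0 = D.vL (Additive.ofMul c₁) + m * D.v10 (Additive.ofMul g₁) := by
    rw [← D.v10_Nα, h₁, ofMul_mul, map_add, D.v10_c, ofMul_pow, map_nsmul, nsmul_eq_mul]
  have e3 : (q : ℤ) * ninf = D.vL (Additive.ofMul c₂) + m * D.v1inf (Additive.ofMul g₂) := by
    rw [← D.v1inf_Nβ, h₂, ofMul_mul, map_add, D.v1inf_c, ofMul_pow, map_nsmul, nsmul_eq_mul]
  have e4 : nmid + n0 = D.vL (Additive.ofMul c₂) + m * D.v10 (Additive.ofMul g₂) := by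
    rw [← D.v10_Nβ, h₂, ofMul_mul, map_add, D.v10_c, ofMul_pow, map_nsmul, nsmul_eq_mul]
  set x₁ := D.v1inf (Additive.ofMul g₁) with hx₁
  set x₂ := D.v10 (Additive.ofMul g₁) with hx₂
  set x₃ := D.v1inf (Additive.ofMul g₂) with hx₃
  set x₄ := D.v10 (Additive.ofMul g₂) with hx₄
  set t : ℤ := ((q : ℤ) + 1) * n0 with ht
  set A : ℤ := x₁ - x₂ + x₃ - x₄ with hA
  set B : ℤ := ((q : ℤ) + 1) * (x₁ - x₂) - A with hB
  obtain ⟨g, hg1, hg2, hg3⟩ := D.approx_v A B 0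
  refine ⟨D.π ^ t, g, ?_, ?_, ?_⟩
  · show D.vinf (Additive.ofMul (y ^ (q + 1) * (D.cF (D.π ^ t) * g ^ m)⁻¹)) = 0
    rw [ofMul_mul, map_add, ofMul_pow, map_nsmul, ofMul_inv, map_neg, ofMul_mul, map_add,
      D.vinf_c, D.vL_zpow, ofMul_pow, map_nsmul, hg1, nsmul_eq_mul, nsmul_eq_mul, ← hninf]
    push_cast
    linear_combination e1 - e2 + e3 - e4
  · show D.vmid (Additive.ofMul (y ^ (q + 1) * (D.cF (D.π ^ t) * g ^ m)⁻¹)) = 0
    rw [ofMul_mul, map_add, ofMul_pow, map_nsmul, ofMul_inv, map_neg, ofMul_mul, map_add,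
      D.vmid_c, D.vL_zpow, ofMul_pow, map_nsmul, hg2, nsmul_eq_mul, nsmul_eq_mul, ← hnmid]
    push_cast
    linear_combination (q : ℤ) * (e1 - e2) - (e3 - e4)
  · show D.v0 (Additive.ofMul (y ^ (q + 1) * (D.cF (D.π ^ t) * g ^ m)⁻¹)) = 0
    rw [ofMul_mul, map_add, ofMul_pow, map_nsmul, ofMul_inv, map_neg, ofMul_mul, map_add,
      D.v0_c, D.vL_zpow, ofMul_pow, map_nsmul, hg3, nsmul_eq_mul, nsmul_eq_mul, ← hn0]
    push_cast
    ring

end Fermat.Agent.T4
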