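/-
T4-N (helper4), steps A + B, part 3: **step B** (the abelian part) and the combination A + B.

For a unit `y` (at the three valuations) such that `N_α y`, `N_β y` are `constant × m-th power`:
`ȳ_0 ^ q`, `ȳ_inf ^ q` and `ȳ_inf ȳ_mid ^ (q - 1)` are `m`-th powers (norm formulas for residues), so
`ȳ_0`, `ȳ_inf`, `ȳ_mid ^ (q - 1)` are (`gcd (q, m) = 1`); by CRT `y ^ (q - 1) = g ^ m z` with all
residues of `z` equal to `1`, and the `q`-group step gives `z = g' ^ m z'` with `z' ≡ 1` modulo `q`.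
-/
import Mathlib
import Fermat.Agent.Lib.T4.New.StepA

set_option autoImplicit false
set_option linter.unusedSectionVars false
set_option linter.unusedVariables false
set_option linter.style.haveILetI false

namespace Fermat.Agent.T4

section Gen

/-- in a commutative group: if `x ^ q` is an `m`-th power and `gcd (m, q) = 1`, then `x` is an
`m`-th power -/
theorem t4n_isMth_of_pow {G : Type*} [CommGroup G] {m q : ℕ} (hqm : Nat.Coprime m q) {x : G}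
    (h : ∃ h : G, x ^ q = h ^ m) : ∃ h : G, x = h ^ m := by
  obtain ⟨h, hh⟩ := h
  have hb : (m : ℤ) * Nat.gcdA m q + (q : ℤ) * Nat.gcdB m q = 1 := by
    have := Nat.gcd_eq_gcd_ab m q
    rw [hqm] at this
    exact_mod_cast this.symm
  refine ⟨x ^ (Nat.gcdA m q) * h ^ (Nat.gcdB m q), ?_⟩
  have h1 : x = x ^ ((m : ℤ) * Nat.gcdA m q + (q : ℤ) * Nat.gcdB m q) := by rw [hb, zpow_one]
  rw [mul_pow, ← zpow_natCast (x ^ Nat.gcdA m q), ← zpow_mul, ← zpow_natCast (h ^ Nat.gcdB m q),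
    ← zpow_mul, mul_comm (Nat.gcdB m q) (m : ℤ), zpow_mul h, zpow_natCast h, ← hh,
    ← zpow_natCast x q, ← zpow_mul]
  conv_lhs => rw [h1]
  rw [zpow_add, mul_comm (Nat.gcdA m q) (m : ℤ)]

end Gen

variable {L F1 F : Type} [Field L] [Field F1] [Field F] {q m : ℕ} (D : T4nA L F1 F q m)

/-- normalisation of `constant × m-th power` for units of the lower level -/
theorem T4nA.normalise (hm : m ≠ 0) {x : F1ˣ} (hx : x ∈ D.U1)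
    (h : ∃ (c : Lˣ) (g : F1ˣ), x = D.cF1 c * g ^ m) :
    ∃ (c : Lˣ) (g : F1ˣ), c ∈ D.UL ∧ g ∈ D.U1 ∧ x = D.cF1 c * g ^ m := by
  obtain ⟨c, g, rfl⟩ := h
  have h1 : D.vL (Additive.ofMul c) + m * D.v1inf (Additive.ofMul g) = 0 := by
    have := hx.1
    rw [ofMul_mul, map_add, D.v1inf_c, ofMul_pow, map_nsmul, nsmul_eq_mul] at this
    exact this
  have h2 : D.vL (Additive.ofMul c) + m * D.v10 (Additive.ofMul g) = 0 := by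
    have := hx.2
    rw [ofMul_mul, map_add, D.v10_c, ofMul_pow, map_nsmul, nsmul_eq_mul] at this
    exact this
  set e := D.v1inf (Additive.ofMul g) with he
  have h3 : D.v10 (Additive.ofMul g) = e := by
    have hm' : (m : ℤ) ≠ 0 := by exact_mod_cast hm
    have : (m : ℤ) * D.v10 (Additive.ofMul g) = m * e := by linarith
    exact mul_left_cancel₀ hm' this
  refine ⟨c * D.π ^ ((m : ℤ) * e), g * (D.cF1 D.π) ^ (-e), ?_, ⟨?_, ?_⟩, ?_⟩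
  · show D.vL (Additive.ofMul (c * D.π ^ ((m : ℤ) * e))) = 0
    rw [ofMul_mul, map_add, D.vL_zpow]
    exact h1
  · show D.v1inf (Additive.ofMul (g * (D.cF1 D.π) ^ (-e))) = 0
    rw [ofMul_mul, map_add, ofMul_zpow, map_zsmul, D.v1inf_c, D.vL_π, ← he, smul_eq_mul, mul_one]
    ring
  · show D.v10 (Additive.ofMul (g * (D.cF1 D.π) ^ (-e))) = 0
    rw [ofMul_mul, map_add, ofMul_zpow, map_zsmul, D.v10_c, D.vL_π, h3, smul_eq_mul, mul_one]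
    ring
  · rw [map_mul, map_zpow, mul_pow, ← zpow_natCast ((D.cF1 D.π) ^ (-e)) m, ← zpow_mul,
      mul_comm (-e) (m : ℤ), mul_neg, zpow_neg]
    rw [mul_assoc, mul_comm (D.cF1 D.π ^ ((m : ℤ) * e)), mul_assoc, inv_mul_cancel, mul_one]

variable {k E1 E : Type} [Field k] [Field E1] [Field E] (B : T4nB D k E1 E)

/-- residues of `constant × m-th power` are `m`-th powers: `r¹_inf` -/
theorem T4nB.r1inf_isMth {x : F1ˣ} (hx : x ∈ D.U1) {c : Lˣ} {g : F1ˣ} (hc : c ∈ D.UL)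
    (hg : g ∈ D.U1) (h : x = D.cF1 c * g ^ m) :
    ∃ a : kˣ, B.r1inf ⟨x, hx⟩ = B.κ1 a * (B.r1inf ⟨g, hg⟩) ^ m := by
  refine ⟨B.rL ⟨c, hc⟩, ?_⟩
  have h1 : (⟨x, hx⟩ : ↥D.U1) = ⟨D.cF1 c, D.cF1_mem_U1 hc⟩ * ⟨g, hg⟩ ^ m := Subtype.ext h
  rw [h1, map_mul, map_pow, B.r1inf_c ⟨c, hc⟩]

/-- residues of `constant × m-th power` are `m`-th powers: `r¹_0` -/
theorem T4nB.r10_isMth {x : F1ˣ} (hx : x ∈ D.U1) {c : Lˣ} {g : F1ˣ} (hc : c ∈ D.UL)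
    (hg : g ∈ D.U1) (h : x = D.cF1 c * g ^ m) :
    ∃ a : kˣ, B.r10 ⟨x, hx⟩ = B.κ1 a * (B.r10 ⟨g, hg⟩) ^ m := by
  refine ⟨B.rL ⟨c, hc⟩, ?_⟩
  have h1 : (⟨x, hx⟩ : ↥D.U1) = ⟨D.cF1 c, D.cF1_mem_U1 hc⟩ * ⟨g, hg⟩ ^ m := Subtype.ext h
  rw [h1, map_mul, map_pow, B.r10_c ⟨c, hc⟩]

/-- constants of `E` are `m`-th powers -/
theorem T4nB.κ_isMth (a : kˣ) : ∃ h : Eˣ, B.κ a = h ^ m := by
  obtain ⟨b, hb⟩ := B.k_div a
  exact ⟨B.κ b, by rw [← map_pow, hb]⟩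

/-- **step B** -/
theorem t4n_stepB (hm : m ≠ 0) (hqm : Nat.Coprime m q) (y : Fˣ) (hy : y ∈ D.U)
    (hα : ∃ (c : Lˣ) (g : F1ˣ), D.Nα y = D.cF1 c * g ^ m)
    (hβ : ∃ (c : Lˣ) (g : F1ˣ), D.Nβ y = D.cF1 c * g ^ m) :
    ∃ g : Fˣ, y ^ (q - 1) * (g ^ m)⁻¹ ∈ B.U1q := by
  set yU : ↥D.U := ⟨y, hy⟩ with hyU
  obtain ⟨c₁, g₁, hc₁, hg₁, h₁⟩ := D.normalise hm (D.Nα_mem_U1 hy) hα
  obtain ⟨c₂, g₂, hc₂, hg₂, h₂⟩ := D.normalise hm (D.Nβ_mem_U1 hy) hβ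
  -- `r_0 y` is an `m`-th power
  have h0 : ∃ h : Eˣ, B.r0 yU = h ^ m := by
    apply t4n_isMth_of_pow hqm
    rw [← B.red_α_0 yU]
    obtain ⟨a, ha⟩ := T4nB.r10_isMth D B (D.Nα_mem_U1 hy) hc₁ hg₁ h₁
    obtain ⟨b, hb⟩ := B.Φ_κ a
    obtain ⟨b', hb'⟩ := T4nB.κ_isMth D B b
    exact ⟨b' * B.Φ (B.r10 ⟨g₁, hg₁⟩), by rw [ha, map_mul, map_pow, hb, hb', mul_pow]⟩
  -- `r_inf y` is an `m`-th power
  have hinf : ∃ h : Eˣ, B.rinf yU = h ^ m := by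
    apply t4n_isMth_of_pow hqm
    rw [← B.red_β_inf yU]
    obtain ⟨a, ha⟩ := T4nB.r1inf_isMth D B (D.Nβ_mem_U1 hy) hc₂ hg₂ h₂
    obtain ⟨b, hb⟩ := B.Φ_κ a
    obtain ⟨b', hb'⟩ := T4nB.κ_isMth D B b
    exact ⟨b' * B.Φ (B.r1inf ⟨g₂, hg₂⟩), by rw [ha, map_mul, map_pow, hb, hb', mul_pow]⟩
  -- `r_mid y ^ (q - 1)` is an `m`-th power
  have hmid : ∃ h : Eˣ, B.rmid yU ^ (q - 1) = h ^ m := by
    obtain ⟨a, ha⟩ := T4nB.r1inf_isMth D B (D.Nα_mem_U1 hy) hc₁ hg₁ h₁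
    obtain ⟨b, hb⟩ := B.ι_κ a
    obtain ⟨b', hb'⟩ := T4nB.κ_isMth D B b
    obtain ⟨h, hh⟩ := hinf
    have e := B.red_α_inf yU
    rw [ha, map_mul, map_pow, hb, hb', hh] at e
    refine ⟨b' * B.ι (B.r1inf ⟨g₁, hg₁⟩) * h⁻¹, ?_⟩
    rw [mul_pow, mul_pow, inv_pow, e, mul_comm (h ^ m), mul_inv_cancel_right]
  obtain ⟨a₀, ha₀⟩ := h0
  obtain ⟨a₁, ha₁⟩ := hinf
  obtain ⟨a₂, ha₂⟩ := hmid
  -- CRT
  obtain ⟨g, hg1, hg2, hg3⟩ := B.approx_r (a₁ ^ (q - 1)) a₂ (a₀ ^ (q - 1))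
  set z : ↥D.U := yU ^ (q - 1) * (g ^ m)⁻¹ with hz
  have hz1 : B.rinf z = 1 := by
    rw [hz, map_mul, map_pow, map_inv, map_pow, hg1, ha₁, ← pow_mul, ← pow_mul, mul_comm m,
      mul_inv_cancel]
  have hz2 : B.rmid z = 1 := by
    rw [hz, map_mul, map_pow, map_inv, map_pow, hg2, ha₂, mul_inv_cancel]
  have hz3 : B.r0 z = 1 := by
    rw [hz, map_mul, map_pow, map_inv, map_pow, hg3, ha₀, ← pow_mul, ← pow_mul, mul_comm m,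
      mul_inv_cancel]
  obtain ⟨g', hg'⟩ := B.qgrp z hz1 hz2 hz3
  refine ⟨(g : Fˣ) * (g' : Fˣ), ?_⟩
  have h3 : ((z : ↥D.U) : Fˣ) = y ^ (q - 1) * (((g : ↥D.U) : Fˣ) ^ m)⁻¹ := rfl
  rw [h3] at hg'
  rw [mul_pow, mul_inv, ← mul_assoc]
  exact hg'

/-- **steps A + B** -/
theorem t4n_stepAB (hm : m ≠ 0) (hqm : Nat.Coprime m q) (y : Fˣ)
    (hα : ∃ (c : Lˣ) (g : F1ˣ), D.Nα y = D.cF1 c * g ^ m)
    (hβ : ∃ (c : Lˣ) (g : F1ˣ), D.Nβ y = D.cF1 c * g ^ m) :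
    ∃ (c : Lˣ) (g : Fˣ), y ^ ((q + 1) * (q - 1)) * (D.cF c * g ^ m)⁻¹ ∈ B.U1q := by
  obtain ⟨c₁, g₁, hy₁⟩ := t4n_stepA D y hα hβ
  set y₁ : Fˣ := y ^ (q + 1) * (D.cF c₁ * g₁ ^ m)⁻¹ with hy₁def
  obtain ⟨cα, gα, hcα⟩ := hα
  obtain ⟨cβ, gβ, hcβ⟩ := hβ
  have hα₁ : ∃ (c : Lˣ) (g : F1ˣ), D.Nα y₁ = D.cF1 c * g ^ m := by
    refine ⟨cα ^ (q + 1) * (c₁ ^ q)⁻¹, gα ^ (q + 1) * (D.Nα g₁)⁻¹, ?_⟩
    rw [hy₁def, map_mul, map_pow, map_inv, map_mul, map_pow, D.Nα_c, hcα, map_mul, map_pow,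
      map_inv, map_pow]
    simp only [mul_pow, mul_inv, inv_pow, ← pow_mul, mul_comm (q + 1) m]
    simp only [mul_assoc, mul_comm, mul_left_comm]
  have hβ₁ : ∃ (c : Lˣ) (g : F1ˣ), D.Nβ y₁ = D.cF1 c * g ^ m := by
    refine ⟨cβ ^ (q + 1) * (c₁ ^ q)⁻¹, gβ ^ (q + 1) * (D.Nβ g₁)⁻¹, ?_⟩
    rw [hy₁def, map_mul, map_pow, map_inv, map_mul, map_pow, D.Nβ_c, hcβ, map_mul, map_pow,
      map_inv, map_pow]
    simp only [mul_pow, mul_inv, inv_pow, ← pow_mul, mul_comm (q + 1) m]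
    simp only [mul_assoc, mul_comm, mul_left_comm]
  obtain ⟨g₂, hg₂⟩ := t4n_stepB D B hm hqm y₁ hy₁ hα₁ hβ₁
  refine ⟨c₁ ^ (q - 1), g₁ ^ (q - 1) * g₂, ?_⟩
  have e : y ^ ((q + 1) * (q - 1)) * (D.cF (c₁ ^ (q - 1)) * (g₁ ^ (q - 1) * g₂) ^ m)⁻¹
      = y₁ ^ (q - 1) * (g₂ ^ m)⁻¹ := by
    rw [hy₁def, map_pow]
    simp only [mul_pow, mul_inv, inv_pow, ← pow_mul, mul_comm (q - 1) m]
    simp only [mul_assoc, mul_comm, mul_left_comm]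
  rw [e]
  exact hg₂

end Fermat.Agent.T4
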