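/-
T4-N (helper3), part 3: **the formal part of the top assembly**: `T4nCoreAt 𝔓 N'' h` from an instance
`(D, B)` of helper4's interface structures `T4nA`, `T4nB` (steps A + B) with the dictionary
`D.Nα = t4nNormA`, `D.Nβ = t4nNormB`, constants `= algebraMap`, and the **step-C export**
(`z ∈ B.U1q` Kummer with `constant × m-th power` norms ⟹ `z ^ (p² - 1) = constant × m-th power`).

Inside: `N_β (w y) = w¹ (N_α y)` (Atkin–Lehner transport of the norm, helper7's `t4vn_w_normA`), helper4's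
`t4n_stepAB_full`, stability of the two Kummer conditions under `y ↦ y ^ n / (c · g ^ m)`, and the
bookkeeping of exponents `(p + 1)(p - 1)(p² - 1) = (p² - 1)²`.
-/
import Mathlib
import Fermat.Agent.Lib.T4.New.CoreDefs
import Fermat.Agent.Lib.T4.New.StepAB
import Fermat.Agent.Lib.T4.Inst.NormProd
import Fermat.Agent.Lib.T2.Inst.LevelH
import Fermat.Agent.Lib.T1.Inst.IntUp
import Fermat.Agent.Lib.Curve.PlaceBasic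

set_option autoImplicit false
set_option linter.unusedSectionVars false
set_option linter.unusedVariables false
set_option linter.style.haveILetI false
set_option synthInstance.maxHeartbeats 400000
set_option maxHeartbeats 2000000

open HahnSeries ModularCurve Fermat.Agent.T1 Fermat.Agent.T2 Fermat.Agent.TW AlgebraicCurve

noncomputable section

namespace Fermat.Agent.T4

local notation "Qb" => AlgebraicClosure ℚ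

/-- `(p + 1) (p - 1) (p² - 1) = (p² - 1)²` -/
theorem t4n_exponent (p : ℕ) (hp : 1 ≤ p) : (p + 1) * (p - 1) * (p ^ 2 - 1) = (p ^ 2 - 1) ^ 2 := by
  obtain ⟨r, rfl⟩ : ∃ r, p = r + 1 := ⟨p - 1, by omega⟩
  have h1 : (r + 1) ^ 2 - 1 = (r + 1 + 1) * r := by
    have : (r + 1) ^ 2 = (r + 1 + 1) * r + 1 := by ring
    omega
  rw [Nat.add_sub_cancel, h1]
  ring

/-- bookkeeping in a commutative group: `z = yⁿ / (a gᵐ)`, `zᵉ = c tᵐ` ⟹ `y^(n e) = (c aᵉ) (t gᵉ)ᵐ` -/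
theorem t4n_bookkeeping {G : Type*} [CommGroup G] (y z a g c t : G) (n e m : ℕ)
    (hz : z = y ^ n * (a * g ^ m)⁻¹) (hct : z ^ e = c * t ^ m) :
    y ^ (n * e) = (c * a ^ e) * (t * g ^ e) ^ m := by
  have h1 : y ^ n = z * (a * g ^ m) := by rw [hz, inv_mul_cancel_right]
  rw [pow_mul, h1, mul_pow, hct, mul_pow, mul_pow, ← pow_mul, ← pow_mul, mul_comm m e]
  simp only [mul_assoc, mul_comm, mul_left_comm]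

/-- from an identity of units to the `constant • m-th power` form -/
theorem t4n_units_to_smul {L F : Type*} [Field L] [Field F] [Algebra L F] (y a t : Fˣ) (c : L)
    (E m : ℕ) (ha : (a : F) = algebraMap L F c) (hy : y ^ E = a * t ^ m) :
    (y : F) ^ E = c • (t : F) ^ m := by
  have h2 := congrArg (fun u : Fˣ => (u : F)) hy
  simp only [Units.val_pow_eq_pow_val, Units.val_mul] at h2
  rw [h2, ha, Algebra.smul_def]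

/-- from the `constant • m-th power` form to an identity of units -/
theorem t4n_smul_to_units {L F : Type*} [Field L] [Field F] [Algebra L F] (x : Fˣ) (a : Fˣ)
    (c : L) (s : F) (hs : s ≠ 0) (m : ℕ) (ha : (a : F) = algebraMap L F c)
    (hx : (x : F) = c • s ^ m) : x = a * Units.mk0 s hs ^ m := by
  apply Units.ext
  rw [hx, Units.val_mul, ha, Units.val_pow_eq_pow_val, Units.val_mk0, Algebra.smul_def]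

/-- an algebra automorphism applied to `c • x ^ m` -/
theorem t4n_algEquiv_smul_pow {L F : Type*} [Field L] [Field F] [Algebra L F] (w : F ≃ₐ[L] F)
    (c : L) (x : F) (m : ℕ) : w (c • x ^ m) = c • (w x) ^ m := by
  rw [map_smul, map_pow]

section Kummer

variable (𝔓 : FFPlace) (N : ℕ) [NeZero N] (m : ℕ)

/-- the Kummer condition over `ℚ̄` for functions over the inertia field, as a subgroup -/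
def t4nWbar : Subgroup (↥(tbLevF 𝔓 N ⊤))ˣ :=
  (tWsub Qb N m).comap (Units.map ((tbPhiF 𝔓 N ⊤ : ↥(tbLevF 𝔓 N ⊤) →+* ↥(modularFunctionFieldBar N)) :
    ↥(tbLevF 𝔓 N ⊤) →* ↥(modularFunctionFieldBar N)))

theorem mem_t4nWbar {y : (↥(tbLevF 𝔓 N ⊤))ˣ} :
    y ∈ t4nWbar 𝔓 N m ↔ ∀ P : Place Qb ↥(modularFunctionFieldBar N),
      (m : ℤ) ∣ P.ord (tbPhiF 𝔓 N ⊤ (y : ↥(tbLevF 𝔓 N ⊤))) := Iff.rfl

/-- constants satisfy the Kummer condition over `ℚ̄` -/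
theorem t4n_const_mem_Wbar {c : (↥(tbLevF 𝔓 N ⊤))ˣ} {a : ↥(tbFix 𝔓 (⊤ : Subgroup 𝔓.I))}
    (hc : (c : ↥(tbLevF 𝔓 N ⊤)) = algebraMap ↥(tbFix 𝔓 (⊤ : Subgroup 𝔓.I)) ↥(tbLevF 𝔓 N ⊤) a) :
    c ∈ t4nWbar 𝔓 N m := by
  rw [mem_t4nWbar]
  intro P
  rw [hc, tbPhiF_algebraMap, Fermat.Agent.Curve.PlaceAux.ord_algebraMap]
  exact dvd_zero _

/-- `m`-th powers satisfy the Kummer condition over `ℚ̄` -/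
theorem t4n_pow_mem_Wbar (g : (↥(tbLevF 𝔓 N ⊤))ˣ) : g ^ m ∈ t4nWbar 𝔓 N m := by
  rw [mem_t4nWbar]
  intro P
  rw [Units.val_pow_eq_pow_val, map_pow, ← zpow_natCast, Place.ord_zpow]
  exact dvd_mul_right _ _

/-- constants satisfy the Kummer condition over `L` -/
theorem t4n_const_mem_tWsub {c : (↥(tbLevF 𝔓 N ⊤))ˣ} {a : ↥(tbFix 𝔓 (⊤ : Subgroup 𝔓.I))}
    (hc : (c : ↥(tbLevF 𝔓 N ⊤)) = algebraMap ↥(tbFix 𝔓 (⊤ : Subgroup 𝔓.I)) ↥(tbLevF 𝔓 N ⊤) a) :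
    c ∈ tWsub ↥(tbFix 𝔓 (⊤ : Subgroup 𝔓.I)) N m := by
  intro P
  rw [hc, Fermat.Agent.Curve.PlaceAux.ord_algebraMap]
  exact dvd_zero _

/-- `m`-th powers satisfy the Kummer condition over `L` -/
theorem t4n_pow_mem_tWsub (g : (↥(tbLevF 𝔓 N ⊤))ˣ) :
    g ^ m ∈ tWsub ↥(tbFix 𝔓 (⊤ : Subgroup 𝔓.I)) N m := by
  intro P
  rw [Units.val_pow_eq_pow_val, ← zpow_natCast, Place.ord_zpow]
  exact dvd_mul_right _ _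

end Kummer

variable (𝔓 : FFPlace) (N'' : ℕ) [NeZero N''] (h : ¬ 𝔓.p ∣ N'')

/-- **`N_β (w y) = w¹ (N_α y)` at the inertia level** -/
theorem t4n_normB_wSq (y : ↥(tbLevF 𝔓 (N'' * 𝔓.p * 𝔓.p) ⊤)) :
    t4nNormB ↥(tbFix 𝔓 (⊤ : Subgroup 𝔓.I)) (N'' * 𝔓.p) 𝔓.p (t4wSq 𝔓 ⊤ N'' h y)
      = (t2iALFix 𝔓 ⊤ N'' h).w (t4nNormA ↥(tbFix 𝔓 (⊤ : Subgroup 𝔓.I)) (N'' * 𝔓.p) 𝔓.p y) :=
  (t4vn_w_normA (t4iALFix 𝔓 ⊤ N'' h) (t2iALFix 𝔓 ⊤ N'' h) 𝔓.hp y).symm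

/-- `N_β (w y) = c • s ^ m` ⟹ `N_α y = c • (w¹ s) ^ m` -/
theorem t4n_normA_of_normB_wSq (y : ↥(tbLevF 𝔓 (N'' * 𝔓.p * 𝔓.p) ⊤))
    (c : ↥(tbFix 𝔓 (⊤ : Subgroup 𝔓.I))) (s : ↥(tbLevF 𝔓 (N'' * 𝔓.p) ⊤)) (m : ℕ)
    (hcs : t4nNormB ↥(tbFix 𝔓 (⊤ : Subgroup 𝔓.I)) (N'' * 𝔓.p) 𝔓.p (t4wSq 𝔓 ⊤ N'' h y) = c • s ^ m) :
    t4nNormA ↥(tbFix 𝔓 (⊤ : Subgroup 𝔓.I)) (N'' * 𝔓.p) 𝔓.p y
      = c • ((t2iALFix 𝔓 ⊤ N'' h).w s) ^ m := by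
  rw [t4n_normB_wSq 𝔓 N'' h] at hcs
  have h2 := congrArg (t2iALFix 𝔓 ⊤ N'' h).w hcs
  rw [(t2iALFix 𝔓 ⊤ N'' h).w_w] at h2
  rw [h2]
  exact t4n_algEquiv_smul_pow (t2iALFix 𝔓 ⊤ N'' h).w c s m

/-- **the formal part of the top assembly** -/
theorem t4n_coreAt_of_inst
    (hinst : ∀ m : ℕ, Nat.Coprime m 𝔓.p → m ≠ 0 →
      ∃ (k E1 E : Type) (_ : Field k) (_ : Field E1) (_ : Field E)
        (D : T4nA ↥(tbFix 𝔓 (⊤ : Subgroup 𝔓.I)) ↥(tbLevF 𝔓 (N'' * 𝔓.p) ⊤)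
          ↥(tbLevF 𝔓 (N'' * 𝔓.p * 𝔓.p) ⊤) 𝔓.p m) (B : T4nB D k E1 E),
        (∀ c : (↥(tbFix 𝔓 (⊤ : Subgroup 𝔓.I)))ˣ, ((D.cF1 c : (↥(tbLevF 𝔓 (N'' * 𝔓.p) ⊤))ˣ) :
          ↥(tbLevF 𝔓 (N'' * 𝔓.p) ⊤)) = algebraMap _ _ (c : ↥(tbFix 𝔓 (⊤ : Subgroup 𝔓.I)))) ∧
        (∀ c : (↥(tbFix 𝔓 (⊤ : Subgroup 𝔓.I)))ˣ,
          ((D.cF c : (↥(tbLevF 𝔓 (N'' * 𝔓.p * 𝔓.p) ⊤))ˣ) : ↥(tbLevF 𝔓 (N'' * 𝔓.p * 𝔓.p) ⊤))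
            = algebraMap _ _ (c : ↥(tbFix 𝔓 (⊤ : Subgroup 𝔓.I)))) ∧
        (∀ y : (↥(tbLevF 𝔓 (N'' * 𝔓.p * 𝔓.p) ⊤))ˣ,
          ((D.Nα y : (↥(tbLevF 𝔓 (N'' * 𝔓.p) ⊤))ˣ) : ↥(tbLevF 𝔓 (N'' * 𝔓.p) ⊤))
            = t4nNormA ↥(tbFix 𝔓 (⊤ : Subgroup 𝔓.I)) (N'' * 𝔓.p) 𝔓.p
                (y : ↥(tbLevF 𝔓 (N'' * 𝔓.p * 𝔓.p) ⊤))) ∧
        (∀ y : (↥(tbLevF 𝔓 (N'' * 𝔓.p * 𝔓.p) ⊤))ˣ,
          ((D.Nβ y : (↥(tbLevF 𝔓 (N'' * 𝔓.p) ⊤))ˣ) : ↥(tbLevF 𝔓 (N'' * 𝔓.p) ⊤))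
            = t4nNormB ↥(tbFix 𝔓 (⊤ : Subgroup 𝔓.I)) (N'' * 𝔓.p) 𝔓.p
                (y : ↥(tbLevF 𝔓 (N'' * 𝔓.p * 𝔓.p) ⊤))) ∧
        (∀ z : (↥(tbLevF 𝔓 (N'' * 𝔓.p * 𝔓.p) ⊤))ˣ, z ∈ B.U1q →
          z ∈ tWsub ↥(tbFix 𝔓 (⊤ : Subgroup 𝔓.I)) (N'' * 𝔓.p * 𝔓.p) m →
          (∀ P : Place Qb ↥(modularFunctionFieldBar (N'' * 𝔓.p * 𝔓.p)),
            (m : ℤ) ∣ P.ord (tbPhiF 𝔓 (N'' * 𝔓.p * 𝔓.p) ⊤
              (z : ↥(tbLevF 𝔓 (N'' * 𝔓.p * 𝔓.p) ⊤)))) →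
          (∃ (c : (↥(tbFix 𝔓 (⊤ : Subgroup 𝔓.I)))ˣ) (g : (↥(tbLevF 𝔓 (N'' * 𝔓.p) ⊤))ˣ),
            D.Nα z = D.cF1 c * g ^ m) →
          (∃ (c : (↥(tbFix 𝔓 (⊤ : Subgroup 𝔓.I)))ˣ) (g : (↥(tbLevF 𝔓 (N'' * 𝔓.p) ⊤))ˣ),
            D.Nβ z = D.cF1 c * g ^ m) →
          ∃ (c : (↥(tbFix 𝔓 (⊤ : Subgroup 𝔓.I)))ˣ) (t : (↥(tbLevF 𝔓 (N'' * 𝔓.p * 𝔓.p) ⊤))ˣ),
            z ^ (𝔓.p ^ 2 - 1) = D.cF c * t ^ m)) :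
    T4nCoreAt 𝔓 N'' h := by
  intro m hmq hm0 y hyL hyQ hβ hβw
  obtain ⟨k, E1, E, _, _, _, D, B, hcF1, hcF, hNα, hNβ, hC⟩ := hinst m hmq hm0
  -- the norm hypotheses in the `D`-form
  have hβ' : ∃ (c : (↥(tbFix 𝔓 (⊤ : Subgroup 𝔓.I)))ˣ) (g : (↥(tbLevF 𝔓 (N'' * 𝔓.p) ⊤))ˣ),
      D.Nβ y = D.cF1 c * g ^ m := by
    obtain ⟨c, s, hc, hs, hcs⟩ := hβ
    exact ⟨Units.mk0 c hc, Units.mk0 s hs,
      t4n_smul_to_units (D.Nβ y) (D.cF1 (Units.mk0 c hc)) c s hs m (hcF1 _) ((hNβ y).trans hcs)⟩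
  have hα' : ∃ (c : (↥(tbFix 𝔓 (⊤ : Subgroup 𝔓.I)))ˣ) (g : (↥(tbLevF 𝔓 (N'' * 𝔓.p) ⊤))ˣ),
      D.Nα y = D.cF1 c * g ^ m := by
    obtain ⟨c, s, hc, hs, hcs⟩ := hβw
    have h1 := t4n_normA_of_normB_wSq 𝔓 N'' h (y : ↥(tbLevF 𝔓 (N'' * 𝔓.p * 𝔓.p) ⊤)) c s m hcs
    have hws : (t2iALFix 𝔓 ⊤ N'' h).w s ≠ 0 := by
      rw [Ne, map_eq_zero]
      exact hs
    exact ⟨Units.mk0 c hc, Units.mk0 _ hws,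
      t4n_smul_to_units (D.Nα y) (D.cF1 (Units.mk0 c hc)) c _ hws m (hcF1 _) ((hNα y).trans h1)⟩
  -- steps A + B
  obtain ⟨c, g, z, hz, hzU, hzα, hzβ⟩ := t4n_stepAB_full D B hm0 hmq y hα' hβ'
  -- the Kummer conditions for `z`
  have hzL : z ∈ tWsub ↥(tbFix 𝔓 (⊤ : Subgroup 𝔓.I)) (N'' * 𝔓.p * 𝔓.p) m := by
    rw [hz]
    refine Subgroup.mul_mem _ (Subgroup.pow_mem _ hyL _) (Subgroup.inv_mem _ ?_)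
    exact Subgroup.mul_mem _ (t4n_const_mem_tWsub 𝔓 _ m (hcF c)) (t4n_pow_mem_tWsub 𝔓 _ m g)
  have hzQ : z ∈ t4nWbar 𝔓 (N'' * 𝔓.p * 𝔓.p) m := by
    rw [hz]
    refine Subgroup.mul_mem _ (Subgroup.pow_mem _ ((mem_t4nWbar 𝔓 _ m).mpr hyQ) _)
      (Subgroup.inv_mem _ ?_)
    exact Subgroup.mul_mem _ (t4n_const_mem_Wbar 𝔓 _ m (hcF c)) (t4n_pow_mem_Wbar 𝔓 _ m g)
  -- step C
  obtain ⟨c', t, hct⟩ := hC z hzU hzL ((mem_t4nWbar 𝔓 _ m).mp hzQ) hzα hzβ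
  -- bookkeeping
  have hy := t4n_bookkeeping y z (D.cF c) g (D.cF c') t ((𝔓.p + 1) * (𝔓.p - 1)) (𝔓.p ^ 2 - 1) m
    hz hct
  rw [t4n_exponent 𝔓.p 𝔓.hp.one_le, ← map_pow, ← map_mul] at hy
  exact ⟨((c' * c ^ (𝔓.p ^ 2 - 1) : (↥(tbFix 𝔓 (⊤ : Subgroup 𝔓.I)))ˣ) :
      ↥(tbFix 𝔓 (⊤ : Subgroup 𝔓.I))),
    ((t * g ^ (𝔓.p ^ 2 - 1) : (↥(tbLevF 𝔓 (N'' * 𝔓.p * 𝔓.p) ⊤))ˣ) :
      ↥(tbLevF 𝔓 (N'' * 𝔓.p * 𝔓.p) ⊤)), Units.ne_zero _, Units.ne_zero _,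
    t4n_units_to_smul y _ _ _ _ m (hcF _) hy⟩

end Fermat.Agent.T4
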