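/-
T4-N (helper4), **step C, export**: on the three-valuation base at the inertia level, a Kummer
function `z ≡ 1 (mod p 𝒪)` for which both charts satisfy helper5's `T4nCChart` has
`z ^ (p² - 1) = constant × m`-th power.

Chain: helper9's `t4v_exists_setup_fix` (the `T4Setup`), helper2's `t4vc_exists_twist`,
helper5's `t4n_stepC_core` (a common section reducing to `1`), helper2's `t4vc_exists_root`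
(`z' = z^(p²-1) h^m` is an `m`-th power over `ℚ̄`), `t4d_root_descend` (descent to `L = ℚ̄^I`).
-/
import Fermat.Agent.Lib.T4.Core.StepCCore
import Fermat.Agent.Lib.T4.Inst.ValChartH
import Fermat.Agent.Lib.T4.Inst.ValSubH
import Fermat.Agent.Lib.T4.Desc.Descend

set_option autoImplicit false
set_option linter.unusedSectionVars false
set_option linter.unusedVariables false
set_option linter.style.haveILetI false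

open HahnSeries ModularCurve Module AlgebraicCurve IntermediateField Fermat.Agent.Curve
  Fermat.Agent.T1 Fermat.Agent.T2 Fermat.Agent.TW Fermat.Agent.S05Lib

noncomputable section

namespace Fermat.Agent.T4

local notation "Qb" => AlgebraicClosure ℚ

attribute [local instance] t2i_dvr t2i_isAlgClosed t2i_charP t2i_fact t2iAlgebra t2i_isScalarTower

section Abstract

variable {K F k Fb : Type*} [Field K] [Field F] [Algebra K F] [Field k] [CommRing Fb] [Algebra k Fb]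
  (d : T2Base K F k Fb)

include d in
/-- the residue ring of a base is nontrivial -/
theorem t4nt_one_ne_zero : (1 : Fb) ≠ 0 := by
  intro h10
  obtain ⟨c, hc0, hmem, hres⟩ := d.normalize 1 one_ne_zero
  apply hres
  rw [← mul_one (d.res ⟨c • (1 : F), hmem⟩), h10, mul_zero]

theorem t4nt_res_pow_mul {a b : F} (ha : a ∈ d.Ov) (hb : b ∈ d.Ov) (n : ℕ)
    (ha1 : d.res ⟨a, ha⟩ = 1) (hb1 : d.res ⟨b, hb⟩ = 1) (hab : a ^ n * b ∈ d.Ov) :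
    d.res ⟨a ^ n * b, hab⟩ = 1 := by
  have e : (⟨a ^ n * b, hab⟩ : ↥d.Ov) = ⟨a, ha⟩ ^ n * ⟨b, hb⟩ := rfl
  rw [e, map_mul, map_pow, ha1, hb1, one_pow, one_mul]

theorem t4nt_ne_zero_of_res {s : F} (hs : s ∈ d.Ov) (h1 : d.res ⟨s, hs⟩ = 1) : s ≠ 0 := by
  rintro rfl
  have h10 : d.res ⟨0, hs⟩ = 0 := map_zero _
  rw [h1] at h10
  exact t4nt_one_ne_zero d h10

end Abstract

/-- descent of `m`-th roots, with a correcting `m`-th power -/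
theorem t4nt_descend (𝔓 : FFPlace) (N : ℕ) [NeZero N] {m : ℕ} (hm0 : m ≠ 0)
    {f hh : ↥(tbLevF 𝔓 N ⊤)} (hf0 : f ≠ 0) (hh0 : hh ≠ 0) {g : ↥(modularFunctionFieldBar N)}
    (hg : g ^ m = tbPhiF 𝔓 N ⊤ (f * hh ^ m)) :
    ∃ (c : ↥(tbFix 𝔓 (⊤ : Subgroup 𝔓.I))) (t : ↥(tbLevF 𝔓 N ⊤)), c ≠ 0 ∧ t ≠ 0 ∧
      f = c • t ^ m := by
  have hφh0 : tbPhiF 𝔓 N ⊤ hh ≠ 0 := fun h0 =>
    hh0 (tbPhiF_injective 𝔓 _ ⊤ (h0.trans (map_zero _).symm))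
  have hφ : tbPhiF 𝔓 N ⊤ f * tbPhiF 𝔓 N ⊤ hh ^ m = g ^ m := by
    rw [hg, ← map_pow (tbPhiF 𝔓 N ⊤) hh, ← map_mul]
  have hφ' : tbPhiF 𝔓 N ⊤ f = (g / tbPhiF 𝔓 N ⊤ hh) ^ m := by
    rw [div_pow, ← hφ, mul_div_assoc, div_self (pow_ne_zero _ hφh0), mul_one]
  obtain ⟨c, t, hc0, hct⟩ := t4d_root_descend 𝔓 N hm0 f hf0 ⟨g / tbPhiF 𝔓 N ⊤ hh, hφ'⟩
  refine ⟨c, t, hc0, ?_, hct⟩
  rintro rfl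
  rw [zero_pow hm0, smul_zero] at hct
  exact hf0 hct

variable (𝔓 : FFPlace) (N' : ℕ) [NeZero N'] (h : ¬ 𝔓.p ∣ N') {ζ : Qb}
  (hζ : IsPrimitiveRoot ζ 𝔓.p)

/-- `res f = 1` on the three-valuation base iff `f - 1 ∈ p 𝒪` -/
theorem t4nt_res_eq_one {f : ↥(tbLevF 𝔓 (N' * 𝔓.p * 𝔓.p) ⊤)}
    (hf : f ∈ (t4vBaseFix 𝔓 N' h hζ).Ov)
    (h1 : ∃ o ∈ (t4vBaseFix 𝔓 N' h hζ).Ov, f - 1 = t4vQFix 𝔓 N' * o) :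
    (t4vBaseFix 𝔓 N' h hζ).res ⟨f, hf⟩ = 1 := by
  obtain ⟨o, ho, hfo⟩ := h1
  have hmem : (⟨f, hf⟩ : ↥(t4vInputFix 𝔓 N' h hζ).Ov) - 1 ∈ (t4vInputFix 𝔓 N' h hζ).pIdeal := by
    rw [T4kInput.pIdeal, Ideal.mem_span_singleton]
    refine ⟨⟨o, ho⟩, Subtype.ext ?_⟩
    show f - 1 = (((t4vInputFix 𝔓 N' h hζ).pO : ↥(t4vInputFix 𝔓 N' h hζ).Ov) :
      ↥(tbLevF 𝔓 (N' * 𝔓.p * 𝔓.p) ⊤)) * o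
    rw [T4kInput.coe_pO, hfo]
    rfl
  have h0 := ((t4vInputFix 𝔓 N' h hζ).res_eq_zero_iff _).mpr hmem
  rw [map_sub, map_one, sub_eq_zero] at h0
  exact h0

theorem t4nt_res_Q :
    ∃ hq : t4vQFix 𝔓 N' ∈ (t4vBaseFix 𝔓 N' h hζ).Ov,
      (t4vBaseFix 𝔓 N' h hζ).res ⟨t4vQFix 𝔓 N', hq⟩ = 0 := by
  have hmem : t4vQFix 𝔓 N' ∈ (t4vBaseFix 𝔓 N' h hζ).Ov := by
    have := ((t4vInputFix 𝔓 N' h hζ).pO).2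
    rw [show ((((t4vInputFix 𝔓 N' h hζ).pO : ↥(t4vInputFix 𝔓 N' h hζ).Ov)) :
      ↥(tbLevF 𝔓 (N' * 𝔓.p * 𝔓.p) ⊤)) = t4vQFix 𝔓 N' from T4kInput.coe_pO _] at this
    exact this
  refine ⟨hmem, ?_⟩
  have h0 := (t4vInputFix 𝔓 N' h hζ).res_pO
  have he : (⟨t4vQFix 𝔓 N', hmem⟩ : ↥(t4vInputFix 𝔓 N' h hζ).Ov) = (t4vInputFix 𝔓 N' h hζ).pO :=
    Subtype.ext ((t4vInputFix 𝔓 N' h hζ).coe_pO).symm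
  show (t4vInputFix 𝔓 N' h hζ).res ⟨t4vQFix 𝔓 N', hmem⟩ = 0
  rw [he]
  exact h0

/-- **step C, export**: if both charts `X^{±1}`, `X = j^Q - j`, satisfy helper5's `T4nCChart` for a
Kummer function `z ≡ 1 (mod p 𝒪)` (with the correcting element `hh`, `hh^m ≡ 1`), then
`z ^ (p² - 1)` is a constant times an `m`-th power -/
theorem t4nt_export {Qc : ℕ} (hQc : 2 ≤ Qc) {m : ℕ} (hm0 : m ≠ 0) (hm : Nat.Coprime m 𝔓.p)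
    {z : ↥(tbLevF 𝔓 (N' * 𝔓.p * 𝔓.p) ⊤)} (hz0 : z ≠ 0)
    (hzO : z ∈ (t4vBaseFix 𝔓 N' h hζ).Ov)
    (hz1 : ∃ o ∈ (t4vBaseFix 𝔓 N' h hζ).Ov, z - 1 = t4vQFix 𝔓 N' * o)
    (hdiv : ∀ v : Place Qb ↥(modularFunctionFieldBar (N' * 𝔓.p * 𝔓.p)),
      (m : ℤ) ∣ v.ord (tbPhiF 𝔓 (N' * 𝔓.p * 𝔓.p) ⊤ z))
    (P₁ P₂ : T4Pres ↥(tbLevF 𝔓 (N' * 𝔓.p * 𝔓.p) ⊤))
    (hB₁ : ∀ f : ↥(tbLevF 𝔓 (N' * 𝔓.p * 𝔓.p) ⊤), f ∈ P₁.B ↔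
      f ∈ t2Int (K := ↥(tbFix 𝔓 (⊤ : Subgroup 𝔓.I))) (t4vcX 𝔓 (N' * 𝔓.p * 𝔓.p) ⊤ Qc) ∧
        f ∈ (t4vBaseFix 𝔓 N' h hζ).Ov)
    (hB₂ : ∀ f : ↥(tbLevF 𝔓 (N' * 𝔓.p * 𝔓.p) ⊤), f ∈ P₂.B ↔
      f ∈ t2Int (K := ↥(tbFix 𝔓 (⊤ : Subgroup 𝔓.I))) (t4vcX 𝔓 (N' * 𝔓.p * 𝔓.p) ⊤ Qc)⁻¹ ∧
        f ∈ (t4vBaseFix 𝔓 N' h hζ).Ov)
    (hOv₁ : ∀ f : ↥(tbLevF 𝔓 (N' * 𝔓.p * 𝔓.p) ⊤), f ∈ P₁.ov (t4vQFix 𝔓 N') ↔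
      f ∈ (t4vBaseFix 𝔓 N' h hζ).Ov)
    (hOv₂ : ∀ f : ↥(tbLevF 𝔓 (N' * 𝔓.p * 𝔓.p) ⊤), f ∈ P₂.ov (t4vQFix 𝔓 N') ↔
      f ∈ (t4vBaseFix 𝔓 N' h hζ).Ov)
    (hmi : t4vOmidFix 𝔓 N' h hζ ≠ t4vOinfFix 𝔓 N')
    (hm0' : t4vOmidFix 𝔓 N' h hζ ≠ t4vO0Fix 𝔓 N' h)
    (h0i : t4vO0Fix 𝔓 N' h ≠ t4vOinfFix 𝔓 N')
    {hh : ↥(tbLevF 𝔓 (N' * 𝔓.p * 𝔓.p) ⊤)} (hh0 : hh ≠ 0)
    (hhm : ∃ o ∈ (t4vBaseFix 𝔓 N' h hζ).Ov, hh ^ m - 1 = t4vQFix 𝔓 N' * o)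
    {a1 a2 b1 b2 : P₁.B} {a1' a2' b1' b2' : P₂.B}
    (C₁ : T4nCChart P₁ (t4vQFix 𝔓 N') m z 𝔓.p (t4vOinfFix 𝔓 N') (t4vOmidFix 𝔓 N' h hζ)
      (t4vO0Fix 𝔓 N' h) a1 a2 b1 b2 hh)
    (C₂ : T4nCChart P₂ (t4vQFix 𝔓 N') m z 𝔓.p (t4vOinfFix 𝔓 N') (t4vOmidFix 𝔓 N' h hζ)
      (t4vO0Fix 𝔓 N' h) a1' a2' b1' b2' hh) :
    ∃ (c : ↥(tbFix 𝔓 (⊤ : Subgroup 𝔓.I))) (t : ↥(tbLevF 𝔓 (N' * 𝔓.p * 𝔓.p) ⊤)), c ≠ 0 ∧ t ≠ 0 ∧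
      z ^ (𝔓.p * 𝔓.p - 1) = c • t ^ m := by
  obtain ⟨su, hsm, hsx, -, hsn, hsc, -⟩ := t4v_exists_setup_fix 𝔓 N' h hζ hQc m hm
  subst hsm
  have hX : IsFunctionFieldGen Qb ↥(modularFunctionFieldBar (N' * 𝔓.p * 𝔓.p))
      (tbPhiF 𝔓 (N' * 𝔓.p * 𝔓.p) ⊤ su.x) := by
    rw [hsx]
    exact t4vc_gen_X 𝔓 (N' * 𝔓.p * 𝔓.p) ⊤ hQc
  rw [← hsx] at hB₁ hB₂
  have hpp : 0 < 𝔓.p := 𝔓.hp.pos
  -- the corrected function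
  set z' : ↥(tbLevF 𝔓 (N' * 𝔓.p * 𝔓.p) ⊤) := z ^ (𝔓.p * 𝔓.p - 1) * hh ^ su.m with hz'
  have hzp0 : z ^ (𝔓.p * 𝔓.p - 1) ≠ 0 := pow_ne_zero _ hz0
  have hhm0 : hh ^ su.m ≠ 0 := pow_ne_zero _ hh0
  have hz'0 : z' ≠ 0 := mul_ne_zero hzp0 hhm0
  have hQmem := (t4nt_res_Q 𝔓 N' h hζ).choose
  have hhmO : hh ^ su.m ∈ (t4vBaseFix 𝔓 N' h hζ).Ov := by
    obtain ⟨o, ho, hho⟩ := hhm
    have : hh ^ su.m = 1 + t4vQFix 𝔓 N' * o := by rw [← hho]; ring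
    rw [this]
    exact add_mem (one_mem _) (mul_mem hQmem ho)
  have hz'O : z' ∈ (t4vBaseFix 𝔓 N' h hζ).Ov := mul_mem (pow_mem hzO _) hhmO
  have hz'1 : (t4vBaseFix 𝔓 N' h hζ).res ⟨z', hz'O⟩ = 1 :=
    t4nt_res_pow_mul (t4vBaseFix 𝔓 N' h hζ) hzO hhmO _ (t4nt_res_eq_one 𝔓 N' h hζ hzO hz1)
      (t4nt_res_eq_one 𝔓 N' h hζ hhmO hhm) hz'O
  have hφz0 : tbPhiF 𝔓 (N' * 𝔓.p * 𝔓.p) ⊤ z ≠ 0 := fun h0 =>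
    hz0 (tbPhiF_injective 𝔓 _ ⊤ (h0.trans (map_zero _).symm))
  have hφh0 : tbPhiF 𝔓 (N' * 𝔓.p * 𝔓.p) ⊤ hh ≠ 0 := fun h0 =>
    hh0 (tbPhiF_injective 𝔓 _ ⊤ (h0.trans (map_zero _).symm))
  have hdiv' : ∀ v : Place Qb ↥(modularFunctionFieldBar (N' * 𝔓.p * 𝔓.p)),
      (su.m : ℤ) ∣ v.ord (tbPhiF 𝔓 (N' * 𝔓.p * 𝔓.p) ⊤ z') := by
    intro v
    rw [hz', map_mul, map_pow, map_pow, v.ord_mul (pow_ne_zero _ hφz0) (pow_ne_zero _ hφh0),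
      ← zpow_natCast, ← zpow_natCast, v.ord_zpow, v.ord_zpow]
    exact dvd_add (Dvd.dvd.mul_left (hdiv v) _) (dvd_mul_right _ _)
  obtain ⟨tw, hty, hL1, hL2⟩ := t4vc_exists_twist 𝔓 (N' * 𝔓.p * 𝔓.p) ⊤ su hX hsn hsc hz'0 hz'O
    hz'1 hdiv'
  have hmF : ((su.m : ℕ) : ↥(tbLevF 𝔓 (N' * 𝔓.p * 𝔓.p) ⊤)) ≠ 0 := by
    haveI : CharZero ↥(tbFix 𝔓 (⊤ : Subgroup 𝔓.I)) := algebraRat.charZero _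
    haveI : CharZero ↥(tbLevF 𝔓 (N' * 𝔓.p * 𝔓.p) ⊤) :=
      charZero_of_injective_algebraMap
        (algebraMap ↥(tbFix 𝔓 (⊤ : Subgroup 𝔓.I)) ↥(tbLevF 𝔓 (N' * 𝔓.p * 𝔓.p) ⊤)).injective
    exact Nat.cast_ne_zero.mpr hm0
  have hq0 : t4vQFix 𝔓 N' ≠ 0 := by
    intro h0
    have := (t4vQFix_inf 𝔓 N').2
    rw [h0, inv_zero] at this
    exact this (zero_mem _)
  obtain ⟨s, hs1, hs2, hsO, hsres⟩ := t4n_stepC_core tw P₁ P₂ hB₁ hB₂ hOv₁ hOv₂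
    (t4nt_res_Q 𝔓 N' h hζ) hq0 hmF hz0 hz1 hh0 hhm hpp hmi hm0' h0i C₁ C₂ hty
  have hs0 : s ≠ 0 := t4nt_ne_zero_of_res (t4vBaseFix 𝔓 N' h hζ) hsO hsres
  obtain ⟨g, hg⟩ := t4vc_exists_root 𝔓 (N' * 𝔓.p * 𝔓.p) ⊤ hX hz'0 (Nat.pos_of_ne_zero hm0) hdiv'
    hs0 ((hL1 s).mp hs1) ((hL2 s).mp hs2)
  exact t4nt_descend 𝔓 (N' * 𝔓.p * 𝔓.p) hm0 hzp0 hh0 hg

end Fermat.Agent.T4
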