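/-
T4-N (helper4), instance of steps A + B, part 0: **ℤ-valued order functions** (Mathlib only).

`V ⊂ F` a subring of a field and `ϖ ∈ V` such that `ϖ⁻¹ ∉ V` and every `f ≠ 0` is `ϖ ^ n * u` with
`u` a unit of `V` (so `V` is a discrete valuation ring of `F` with uniformiser `ϖ`).  Then
`T4niUnif.ord : Additive Fˣ →+ ℤ`, `f ∈ V ↔ 0 ≤ ord f`, units `↔ ord = 0`, ultrametric inequality.
-/
import Mathlib

set_option autoImplicit false

namespace Fermat.Agent.T4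

/-- `V` is a discrete valuation ring of the field `F` with uniformiser `ϖ` (elementary form) -/
structure T4niUnif {F : Type*} [Field F] (V : Subring F) (ϖ : F) : Prop where
  mem : ϖ ∈ V
  inv_notMem : ϖ⁻¹ ∉ V
  exists_zpow : ∀ f : F, f ≠ 0 → ∃ (n : ℤ) (u : F), u ∈ V ∧ u⁻¹ ∈ V ∧ f = ϖ ^ n * u

namespace T4niUnif

variable {F : Type*} [Field F] {V : Subring F} {ϖ : F} (h : T4niUnif V ϖ)

include h

theorem ne_zero : ϖ ≠ 0 := by
  rintro rfl
  exact h.inv_notMem (by rw [inv_zero]; exact V.zero_mem)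

theorem zpow_mem_iff (n : ℤ) : ϖ ^ n ∈ V ↔ 0 ≤ n := by
  constructor
  · intro hn
    by_contra hlt
    rw [not_le] at hlt
    obtain ⟨k, hk⟩ : ∃ k : ℕ, n = -(k + 1 : ℤ) := ⟨(-n - 1).toNat, by omega⟩
    apply h.inv_notMem
    have : ϖ⁻¹ = ϖ ^ n * ϖ ^ k := by
      rw [hk, zpow_neg, ← zpow_natCast, ← zpow_neg, ← zpow_add₀ h.ne_zero]
      rw [show -((k : ℤ) + 1) + (k : ℤ) = -1 by ring, zpow_neg_one]
    rw [this]
    exact V.mul_mem hn (V.pow_mem h.mem k)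
  · intro hn
    obtain ⟨k, rfl⟩ := Int.eq_ofNat_of_zero_le hn
    rw [zpow_natCast]
    exact V.pow_mem h.mem k

theorem eq_of_zpow_mul_eq {n n' : ℤ} {u u' : F} (hu : u ∈ V) (hu' : u⁻¹ ∈ V) (hv : u' ∈ V)
    (hv' : u'⁻¹ ∈ V) (hu0 : u ≠ 0) (e : ϖ ^ n * u = ϖ ^ n' * u') : n = n' := by
  have hv0 : u' ≠ 0 := by
    rintro rfl
    rw [mul_zero] at e
    exact mul_ne_zero (zpow_ne_zero n h.ne_zero) hu0 e
  have h1 : ϖ ^ (n - n') = u' * u⁻¹ := by
    rw [zpow_sub₀ h.ne_zero]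
    have := zpow_ne_zero n' h.ne_zero
    field_simp
    exact e
  have h2 : ϖ ^ (n' - n) = u * u'⁻¹ := by
    rw [zpow_sub₀ h.ne_zero]
    have := zpow_ne_zero n h.ne_zero
    field_simp
    exact e.symm
  have h3 : 0 ≤ n - n' := (h.zpow_mem_iff _).mp (by rw [h1]; exact V.mul_mem hv hu')
  have h4 : 0 ≤ n' - n := (h.zpow_mem_iff _).mp (by rw [h2]; exact V.mul_mem hu hv')
  omega

/-- the order function -/
noncomputable def ordFun (f : Fˣ) : ℤ := (h.exists_zpow (f : F) f.ne_zero).choose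

theorem ordFun_spec (f : Fˣ) : ∃ u : F, u ∈ V ∧ u⁻¹ ∈ V ∧ (f : F) = ϖ ^ h.ordFun f * u :=
  (h.exists_zpow (f : F) f.ne_zero).choose_spec

theorem ordFun_eq {f : Fˣ} {n : ℤ} {u : F} (hu : u ∈ V) (hu' : u⁻¹ ∈ V)
    (e : (f : F) = ϖ ^ n * u) : h.ordFun f = n := by
  obtain ⟨u', hv, hv', e'⟩ := h.ordFun_spec f
  have hu0 : u' ≠ 0 := by
    rintro rfl
    rw [mul_zero] at e'
    exact f.ne_zero e'
  exact h.eq_of_zpow_mul_eq hv hv' hu hu' hu0 (e'.symm.trans e)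

/-- **the order function as a homomorphism** -/
noncomputable def ord : Additive Fˣ →+ ℤ where
  toFun f := h.ordFun (Additive.toMul f)
  map_zero' := h.ordFun_eq (n := 0) (u := 1) V.one_mem (by rw [inv_one]; exact V.one_mem)
    (by simp)
  map_add' f g := by
    obtain ⟨u, hu, hu', e⟩ := h.ordFun_spec (Additive.toMul f)
    obtain ⟨v, hv, hv', e'⟩ := h.ordFun_spec (Additive.toMul g)
    refine h.ordFun_eq (u := u * v) (V.mul_mem hu hv)
      (by rw [mul_inv]; exact V.mul_mem hu' hv') ?_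
    rw [toMul_add, Units.val_mul, e, e', zpow_add₀ h.ne_zero]
    ring

theorem ord_apply (f : Fˣ) : h.ord (Additive.ofMul f) = h.ordFun f := rfl

theorem ord_eq {f : Fˣ} {n : ℤ} {u : F} (hu : u ∈ V) (hu' : u⁻¹ ∈ V)
    (e : (f : F) = ϖ ^ n * u) : h.ord (Additive.ofMul f) = n :=
  h.ordFun_eq hu hu' e

theorem ord_spec (f : Fˣ) :
    ∃ u : F, u ∈ V ∧ u⁻¹ ∈ V ∧ (f : F) = ϖ ^ h.ord (Additive.ofMul f) * u :=
  h.ordFun_spec f

/-- the uniformiser as a unit of `F` -/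
def unif : Fˣ := Units.mk0 ϖ h.ne_zero

theorem ord_unif : h.ord (Additive.ofMul h.unif) = 1 :=
  h.ord_eq (u := 1) V.one_mem (by rw [inv_one]; exact V.one_mem) (by simp [unif])

theorem mem_iff_ord_nonneg (f : Fˣ) : (f : F) ∈ V ↔ 0 ≤ h.ord (Additive.ofMul f) := by
  obtain ⟨u, hu, hu', e⟩ := h.ord_spec f
  constructor
  · intro hf
    rw [← h.zpow_mem_iff]
    have hu0 : u ≠ 0 := by
      rintro rfl
      rw [mul_zero] at e
      exact f.ne_zero e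
    have : ϖ ^ h.ord (Additive.ofMul f) = (f : F) * u⁻¹ := by
      rw [e, mul_assoc, mul_inv_cancel₀ hu0, mul_one]
    rw [this]
    exact V.mul_mem hf hu'
  · intro hn
    rw [e]
    exact V.mul_mem ((h.zpow_mem_iff _).mpr hn) hu

theorem unit_iff_ord_eq_zero (f : Fˣ) :
    ((f : F) ∈ V ∧ ((f⁻¹ : Fˣ) : F) ∈ V) ↔ h.ord (Additive.ofMul f) = 0 := by
  rw [h.mem_iff_ord_nonneg, h.mem_iff_ord_nonneg, ofMul_inv, map_neg]
  constructor
  · rintro ⟨h1, h2⟩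
    omega
  · intro h0
    rw [h0]
    simp

/-- `f ∈ ϖ ^ n · V ↔ n ≤ ord f` -/
theorem exists_eq_zpow_mul_iff (f : Fˣ) (n : ℤ) :
    (∃ o ∈ V, (f : F) = ϖ ^ n * o) ↔ n ≤ h.ord (Additive.ofMul f) := by
  constructor
  · rintro ⟨o, ho, e⟩
    have ho0 : o ≠ 0 := by
      rintro rfl
      rw [mul_zero] at e
      exact f.ne_zero e
    have h1 := (h.mem_iff_ord_nonneg (Units.mk0 o ho0)).mp ho
    have h2 : f = h.unif ^ n * Units.mk0 o ho0 := by
      apply Units.ext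
      rw [Units.val_mul, Units.val_zpow_eq_zpow_val]
      exact e
    rw [h2, ofMul_mul, map_add, ofMul_zpow, map_zsmul, h.ord_unif]
    simp only [smul_eq_mul, mul_one]
    omega
  · intro hn
    obtain ⟨u, hu, hu', e⟩ := h.ord_spec f
    refine ⟨ϖ ^ (h.ord (Additive.ofMul f) - n) * u,
      V.mul_mem ((h.zpow_mem_iff _).mpr (by omega)) hu, ?_⟩
    rw [← mul_assoc, ← zpow_add₀ h.ne_zero, add_sub_cancel]
    exact e

/-- the ultrametric inequality, in the form used for congruences -/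
theorem le_ord_add {f g s : Fˣ} {n : ℤ} (hf : n ≤ h.ord (Additive.ofMul f))
    (hg : n ≤ h.ord (Additive.ofMul g)) (hs : (s : F) = (f : F) + (g : F)) :
    n ≤ h.ord (Additive.ofMul s) := by
  obtain ⟨o, ho, e⟩ := (h.exists_eq_zpow_mul_iff f n).mpr hf
  obtain ⟨o', ho', e'⟩ := (h.exists_eq_zpow_mul_iff g n).mpr hg
  refine (h.exists_eq_zpow_mul_iff s n).mp ⟨o + o', V.add_mem ho ho', ?_⟩
  rw [hs, e, e', mul_add]

/-- units of `V` have order `0` -/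
theorem ord_eq_zero_of_unit {f : Fˣ} (hf : (f : F) ∈ V) (hf' : ((f : F))⁻¹ ∈ V) :
    h.ord (Additive.ofMul f) = 0 :=
  h.ord_eq (n := 0) hf hf' (by simp)

omit h in
/-- orders along a homomorphism of fields mapping `V_L` into `V` with `φ ϖ_L = ϖ ^ e · unit` -/
theorem ord_map {L : Type*} [Field L] {VL : Subring L} {ϖL : L} (hL : T4niUnif VL ϖL)
    (h : T4niUnif V ϖ) (φ : L →+* F) (hφ : ∀ a ∈ VL, φ a ∈ V) {e : ℤ} {u : F} (hu : u ∈ V)
    (hu' : u⁻¹ ∈ V) (hϖ : φ ϖL = ϖ ^ e * u) (c : Lˣ) :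
    h.ord (Additive.ofMul (Units.map (φ : L →* F) c)) = e * hL.ord (Additive.ofMul c) := by
  obtain ⟨u₀, hu₀, hu₀', ec⟩ := hL.ord_spec c
  set n := hL.ord (Additive.ofMul c) with hn
  have hpow : ∀ {x : F}, x ∈ V → x⁻¹ ∈ V → ∀ n : ℤ, x ^ n ∈ V := by
    intro x hx hx' n
    rcases n with n | n
    · rw [Int.ofNat_eq_natCast, zpow_natCast]
      exact V.pow_mem hx n
    · rw [zpow_negSucc, ← inv_pow]
      exact V.pow_mem hx' _
  refine h.ord_eq (u := u ^ n * φ u₀) (V.mul_mem (hpow hu hu' n) (hφ _ hu₀)) ?_ ?_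
  · rw [mul_inv, ← inv_zpow, ← map_inv₀]
    exact V.mul_mem (hpow hu' (by rw [inv_inv]; exact hu) n) (hφ _ hu₀')
  · show φ (c : L) = _
    rw [ec, map_mul, map_zpow₀, hϖ, mul_zpow, ← zpow_mul, mul_assoc]

end T4niUnif

end Fermat.Agent.T4
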