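/-
T4-N (helper4), instance of steps A + B, part 1: **the five ℤ-valued valuations** on the concrete
three-valuation base (`Lib/T4/Inst/Val.lean`): `v_L` on `L`; `v¹_inf`, `v¹_0` on `F1 = TaF L (N' q)`;
`v_inf`, `v_mid`, `v_0` on `F = TaF L (N' q q)`; values on constants.
-/
import Fermat.Agent.Lib.T4.Inst.ValSub
import Fermat.Agent.Lib.T4.New.Ord

set_option autoImplicit false
set_option linter.unusedSectionVars false
set_option linter.unusedVariables false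
set_option linter.style.haveILetI false

open HahnSeries ModularCurve Fermat.Agent.T1 Fermat.Agent.T2 IntermediateField

noncomputable section

namespace Fermat.Agent.T4

/-! ### Transport of a uniformised valuation ring along a field homomorphism -/

/-- `V' ⊂ K` with uniformiser `ϖ'` (on the image of `ι : F → K`), `ι ϖ = ϖ' · ϑ` with `ϑ` a unit of
`V'`: then `ι⁻¹ V'` is a discrete valuation ring of `F` with uniformiser `ϖ` -/
theorem T4niUnif.of_hom {F K : Type*} [Field F] [Field K] (ι : F →+* K) (V' : Subring K)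
    {ϖ' ϑ : K} (hϖ' : ϖ' ∈ V') (hϖ'inv : ϖ'⁻¹ ∉ V') (hϑ : ϑ ∈ V') (hϑ' : ϑ⁻¹ ∈ V') (hϑ0 : ϑ ≠ 0)
    (hex : ∀ f : F, f ≠ 0 → ∃ (n : ℤ) (u : K), u ∈ V' ∧ u⁻¹ ∈ V' ∧ ι f = ϖ' ^ n * u)
    {ϖ : F} (hϖ : ι ϖ = ϖ' * ϑ) : T4niUnif (V'.comap ι) ϖ := by
  have hϖ'0 : ϖ' ≠ 0 := by
    rintro rfl
    exact hϖ'inv (by rw [inv_zero]; exact V'.zero_mem)
  have hϖ0 : ϖ ≠ 0 := by
    rintro rfl
    rw [map_zero] at hϖ
    exact mul_ne_zero hϖ'0 hϑ0 hϖ.symm
  refine ⟨?_, ?_, ?_⟩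
  · show ι ϖ ∈ V'
    rw [hϖ]
    exact V'.mul_mem hϖ' hϑ
  · intro h
    have h1 : ι ϖ⁻¹ ∈ V' := h
    rw [map_inv₀, hϖ, mul_inv] at h1
    apply hϖ'inv
    have : ϖ'⁻¹ = ϖ'⁻¹ * ϑ⁻¹ * ϑ := by
      rw [mul_assoc, inv_mul_cancel₀ hϑ0, mul_one]
    rw [this]
    exact V'.mul_mem h1 hϑ
  · intro f hf
    obtain ⟨n, u, hu, hu', e⟩ := hex f hf
    have hu0 : u ≠ 0 := by
      rintro rfl
      rw [mul_zero] at e
      exact (map_ne_zero ι).mpr hf e
    have key : ι (f * (ϖ ^ n)⁻¹) = u * (ϑ⁻¹) ^ n := by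
      rw [map_mul, map_inv₀, map_zpow₀, hϖ, e, mul_zpow, mul_inv, inv_zpow]
      have := zpow_ne_zero n hϖ'0
      have := zpow_ne_zero n hϑ0
      field_simp
    have hpow : ∀ {x : K}, x ∈ V' → x⁻¹ ∈ V' → ∀ n : ℤ, x ^ n ∈ V' := by
      intro x hx hx' n
      rcases n with n | n
      · rw [Int.ofNat_eq_natCast, zpow_natCast]
        exact V'.pow_mem hx n
      · rw [zpow_negSucc, ← inv_pow]
        exact V'.pow_mem hx' _
    refine ⟨n, f * (ϖ ^ n)⁻¹, ?_, ?_, ?_⟩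
    · show ι (f * (ϖ ^ n)⁻¹) ∈ V'
      rw [key]
      exact V'.mul_mem hu (hpow hϑ' (by rw [inv_inv]; exact hϑ) n)
    · show ι (f * (ϖ ^ n)⁻¹)⁻¹ ∈ V'
      rw [map_inv₀, key, mul_inv, ← inv_zpow, inv_inv]
      exact V'.mul_mem hu' (hpow hϑ hϑ' n)
    · rw [mul_comm f, ← mul_assoc, mul_inv_cancel₀ (zpow_ne_zero n hϖ0), one_mul]

/-- transport along a ring automorphism -/
theorem T4niUnif.of_equiv {F : Type*} [Field F] (e : F ≃+* F) {V : Subring F} {ϖ : F}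
    (h : T4niUnif V ϖ) (he : e ϖ = ϖ) : T4niUnif (V.comap (e : F →+* F)) ϖ := by
  refine T4niUnif.of_hom (e : F →+* F) V h.mem h.inv_notMem V.one_mem
    (by rw [inv_one]; exact V.one_mem) one_ne_zero (fun f hf => ?_) (by rw [mul_one]; exact he)
  exact h.exists_zpow (e f) ((map_ne_zero (e : F →+* F)).mpr hf)

/-! ### The valuation of the base field -/

section Base

variable {L : Type*} [Field L] (O : ValuationSubring L) [IsDiscreteValuationRing ↥O]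
  {ϖ : ↥O} (hϖ : Irreducible ϖ)

include hϖ in
/-- `O` is a discrete valuation ring of `L` with uniformiser `ϖ` -/
theorem t4ni_unif_base : T4niUnif O.toSubring ((ϖ : ↥O) : L) := by
  have hϖ0 : ((ϖ : ↥O) : L) ≠ 0 := fun h => hϖ.ne_zero (Subtype.ext h)
  -- elements of `O`
  have key : ∀ a : ↥O, a ≠ 0 → ∃ (n : ℕ) (u : L), u ∈ O ∧ u⁻¹ ∈ O ∧
      (a : L) = ((ϖ : ↥O) : L) ^ n * u := by
    intro a ha
    obtain ⟨n, u, e⟩ := IsDiscreteValuationRing.eq_unit_mul_pow_irreducible ha hϖ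
    refine ⟨n, ((u : ↥O) : L), (u : ↥O).2, ?_, ?_⟩
    · have h1 : (((u : ↥O) : L))⁻¹ = (((u⁻¹ : (↥O)ˣ) : ↥O) : L) := by
        apply inv_eq_of_mul_eq_one_right
        exact_mod_cast congrArg (fun x : ↥O => (x : L)) u.mul_inv
      rw [h1]
      exact ((u⁻¹ : (↥O)ˣ) : ↥O).2
    · rw [e]
      push_cast
      ring
  refine ⟨ϖ.2, ?_, ?_⟩
  · intro h
    apply hϖ.not_isUnit
    refine ⟨⟨ϖ, ⟨_, h⟩, ?_, ?_⟩, rfl⟩
    · apply Subtype.ext
      show ((ϖ : ↥O) : L) * (((ϖ : ↥O) : L))⁻¹ = 1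
      exact mul_inv_cancel₀ hϖ0
    · apply Subtype.ext
      show (((ϖ : ↥O) : L))⁻¹ * ((ϖ : ↥O) : L) = 1
      exact inv_mul_cancel₀ hϖ0
  · intro f hf
    rcases O.mem_or_inv_mem f with h1 | h1
    · obtain ⟨n, u, hu, hu', e⟩ := key ⟨f, h1⟩ (fun h => hf (congrArg Subtype.val h))
      exact ⟨n, u, hu, hu', by rw [zpow_natCast]; exact e⟩
    · obtain ⟨n, u, hu, hu', e⟩ := key ⟨f⁻¹, h1⟩
        (fun h => inv_ne_zero hf (congrArg Subtype.val h))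
      refine ⟨-n, u⁻¹, hu', by rw [inv_inv]; exact hu, ?_⟩
      have e' : f⁻¹ = ((ϖ : ↥O) : L) ^ n * u := e
      rw [zpow_neg, zpow_natCast, ← mul_inv, ← e', inv_inv]

end Base

/-! ### The Gauss valuations -/

section Gauss

variable {L : Type} [Field L] [Algebra ℚ L] (O : ValuationSubring L) {k : Type*} [Field k]
  (π : ↥O →+* k) [IsDiscreteValuationRing ↥O] (hπ : Function.Surjective π)
  {ϖ : ↥O} (hϖ : Irreducible ϖ) (N : ℕ) [NeZero N]

include hϖ in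
/-- the Gauss valuation ring of `F_{N,L}` has uniformiser `ϖ` -/
theorem t4ni_unif_gauss :
    T4niUnif (taOv O π hπ N).toSubring (algebraMap L ↥(TaF L N) ((ϖ : ↥O) : L)) := by
  refine ⟨algebraMap_mem_taOv O π hπ N ϖ, ?_, ?_⟩
  · intro h
    have h1 : (⟨algebraMap L ↥(TaF L N) ((ϖ : ↥O) : L), algebraMap_mem_taOv O π hπ N ϖ⟩ :
        ↥(taOv O π hπ N)) * ⟨(algebraMap L ↥(TaF L N) ((ϖ : ↥O) : L))⁻¹, h⟩ = 1 := by
      apply Subtype.ext
      show algebraMap L ↥(TaF L N) ((ϖ : ↥O) : L) * (algebraMap L ↥(TaF L N) ((ϖ : ↥O) : L))⁻¹ = 1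
      refine mul_inv_cancel₀ ?_
      rw [Ne, map_eq_zero]
      exact fun h0 => hϖ.ne_zero (Subtype.ext h0)
    have h2 := congrArg (taResN O π hπ N) h1
    rw [map_mul, taResN_algebraMap, (ta_pi_eq_zero_iff hπ hϖ ϖ).mpr dvd_rfl, map_zero, zero_mul,
      map_one] at h2
    exact zero_ne_one h2
  · intro f hf
    exact ta_exists_zpow_mul_unitN O π hπ N hϖ f hf

end Gauss


/-! ### The concrete valuations -/

section Inst

variable {L : Type} [Field L] [Algebra ℚ L] (O : ValuationSubring L) {k : Type*} [Field k]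
  (π : ↥O →+* k) [IsDiscreteValuationRing ↥O] (hπ : Function.Surjective π) [IsAlgClosed k]
  {N' q : ℕ} [NeZero N'] [hq : Fact q.Prime] [CharP k q] (hN' : (N' : k) ≠ 0)
  (W1 : T2iAL L N' q) (Fr : T2iFrob k N' q) (W : T4iAL L N' q)
  (hqO : Irreducible ((q : ℕ) : ↥O))
  {L' : Type*} [Field L'] [Algebra L L'] (O' : ValuationSubring L')
  [IsDiscreteValuationRing ↥O'] (π' : ↥O' →+* k) (C : T4iCyc O O' π π' q)
  (M : T4iMid L L' N' q C.ζ)

attribute [local instance] t2iAlgebra t2i_isScalarTower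

/-- `q` as a constant of `F1 = F_{N'q,L}` -/
def t4niQ1 (L : Type) [Field L] [Algebra ℚ L] (N' q : ℕ) [NeZero N'] [NeZero q] :
    ↥(TaF L (N' * q)) := algebraMap L ↥(TaF L (N' * q)) ((q : ℕ) : L)

/-- the Gauss valuation ring `O¹_inf` of `F1` -/
def t4niO1inf : ValuationSubring ↥(TaF L (N' * q)) := taOv O π hπ (N' * q)

/-- `O¹_0 = w₁⁻¹ O¹_inf` -/
def t4niO10 : ValuationSubring ↥(TaF L (N' * q)) :=
  (taOv O π hπ (N' * q)).comap (W1.w : ↥(TaF L (N' * q)) →+* ↥(TaF L (N' * q)))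

theorem mem_t4niO1inf (f : ↥(TaF L (N' * q))) :
    f ∈ t4niO1inf (N' := N') (q := q) O π hπ ↔ f ∈ taOv O π hπ (N' * q) := Iff.rfl

theorem mem_t4niO10 (f : ↥(TaF L (N' * q))) :
    f ∈ t4niO10 O π hπ W1 ↔ W1.w f ∈ taOv O π hπ (N' * q) := Iff.rfl

include hqO in
/-- `v_L` -/
theorem t4ni_unif_L : T4niUnif O.toSubring ((q : ℕ) : L) := t4ni_unif_base O hqO

include hqO in
/-- `v¹_inf` -/
theorem t4ni_unif_inf1 :
    T4niUnif (t4niO1inf (N' := N') (q := q) O π hπ).toSubring (t4niQ1 L N' q) :=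
  t4ni_unif_gauss O π hπ hqO (N' * q)

include hqO in
/-- `v¹_0` -/
theorem t4ni_unif_zero1 : T4niUnif (t4niO10 O π hπ W1).toSubring (t4niQ1 L N' q) := by
  have h := t4ni_unif_inf1 O π hπ (N' := N') hqO
  refine T4niUnif.of_hom (W1.w : ↥(TaF L (N' * q)) →+* ↥(TaF L (N' * q))) _ h.mem h.inv_notMem
    (Subring.one_mem _) (by rw [inv_one]; exact Subring.one_mem _) one_ne_zero (fun f hf => ?_) ?_
  · exact h.exists_zpow _ ((map_ne_zero (W1.w : ↥(TaF L (N' * q)) →+* ↥(TaF L (N' * q)))).mpr hf)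
  · rw [mul_one]
    exact W1.w.commutes _

include hqO in
/-- `v_inf` -/
theorem t4ni_unif_inf :
    T4niUnif (t4vOinf (N' := N') (q := q) O π hπ).toSubring (t4vQ L N' q) :=
  ⟨t4vQ_mem_inf O π hπ, t4vQ_inv_notMem_inf O π hπ hqO, t4vOinf_exists_zpow O π hπ hqO⟩

include hqO in
/-- `v_0` -/
theorem t4ni_unif_zero : T4niUnif (t4vO0 O π hπ W).toSubring (t4vQ L N' q) :=
  ⟨t4vQ_mem_zero O π hπ W, t4vQ_inv_notMem_zero O π hπ W hqO, t4vO0_exists_zpow O π hπ W hqO⟩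

/-- `v_mid` -/
theorem t4ni_unif_mid : T4niUnif (t4vOmid O π hπ O' π' C M).toSubring (t4vPi L N' q) :=
  ⟨t4vPi_mem_mid O π hπ O' π' C M, t4vPi_inv_notMem_mid O π hπ O' π' C M,
    t4vOmid_exists_zpow O π hπ O' π' C M⟩

end Inst

end Fermat.Agent.T4
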