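/-
T4-N (helper4), instance of steps A + B, part 2: **the instance of `T4nA`** on the concrete
three-valuation base: constants, norms `N_α = t4vnNormA`, `N_β = t4vnNormB`, the five valuations,
values on constants, the four norm formulas for valuations (helper7's `NormInst.lean`).  Weak
approximation is a hypothesis (lead's elements).
-/
import Fermat.Agent.Lib.T4.New.InstVal
import Fermat.Agent.Lib.T4.New.ABDefs
import Fermat.Agent.Lib.T4.Inst.NormInst

set_option autoImplicit false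
set_option linter.unusedSectionVars false
set_option linter.unusedVariables false
set_option linter.style.haveILetI false

open HahnSeries ModularCurve Fermat.Agent.T1 Fermat.Agent.T2 IntermediateField

noncomputable section

namespace Fermat.Agent.T4

section Inst

variable {L : Type} [Field L] [Algebra ℚ L] (O : ValuationSubring L) {k : Type*} [Field k]
  (π : ↥O →+* k) [IsDiscreteValuationRing ↥O] (hπ : Function.Surjective π) [IsAlgClosed k]
  {N' q : ℕ} [NeZero N'] [hq : Fact q.Prime] [CharP k q] (hN' : (N' : k) ≠ 0)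
  (W1 : T2iAL L N' q) (Fr : T2iFrob k N' q) (W : T4iAL L N' q)
  (hqO : Irreducible ((q : ℕ) : ↥O))
  {L' : Type*} [Field L'] [Algebra L L'] (O' : ValuationSubring L')
  [IsDiscreteValuationRing ↥O'] (π' : ↥O' →+* k) (C : T4iCyc O O' π π' q)
  (M : T4iMid L L' N' q C.ζ)

attribute [local instance] t2iAlgebra t2i_isScalarTower

/-! ### Norms of constants -/

include O π hπ hN' W1 Fr W hqO O' π' C M in
theorem t4ni_normA_const (c : L) :
    t4vnNormA L N' q (algebraMap L ↥(TaF L (N' * q * q)) c) =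
      algebraMap L ↥(TaF L (N' * q)) c ^ q := by
  have h1 : algebraMap L ↥(TaF L (N' * q * q)) c =
      algebraMap ↥(TaF L (N' * q)) ↥(TaF L (N' * q * q)) (algebraMap L ↥(TaF L (N' * q)) c) :=
    IsScalarTower.algebraMap_apply L ↥(TaF L (N' * q)) ↥(TaF L (N' * q * q)) c
  rw [h1, t4vnNormA, Algebra.norm_algebraMap, t4vn_hdeg O π hπ hN' W1 Fr W hqO O' π' C M]

include O π hπ hN' W1 Fr W hqO O' π' C M in
theorem t4ni_normB_const (c : L) :
    t4vnNormB L N' q (algebraMap L ↥(TaF L (N' * q * q)) c) =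
      algebraMap L ↥(TaF L (N' * q)) c ^ q := by
  have h1 : algebraMap L ↥(TaF L (N' * q * q)) c =
      @algebraMap ↥(TaF L (N' * q)) ↥(TaF L (N' * q * q)) _ _ (t4vnAlgB L N' q)
        (algebraMap L ↥(TaF L (N' * q)) c) :=
    ((heckeBetaBar L (N' * q) q).commutes c).symm
  rw [h1, t4vnNormB, @Algebra.norm_algebraMap _ _ _ _ (t4vnAlgB L N' q),
    t4vn_finrank_B W W1 hq.out, t4vn_hdeg O π hπ hN' W1 Fr W hqO O' π' C M]

/-! ### The five valuations -/

/-- `v_L` -/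
def t4niVL : Additive Lˣ →+ ℤ := (t4ni_unif_L O (q := q) hqO).ord

/-- `v¹_inf` -/
def t4niV1inf : Additive (↥(TaF L (N' * q)))ˣ →+ ℤ := (t4ni_unif_inf1 O π hπ (N' := N') hqO).ord

/-- `v¹_0` -/
def t4niV10 : Additive (↥(TaF L (N' * q)))ˣ →+ ℤ := (t4ni_unif_zero1 O π hπ W1 hqO).ord

/-- `v_inf` -/
def t4niVinf : Additive (↥(TaF L (N' * q * q)))ˣ →+ ℤ :=
  (t4ni_unif_inf O π hπ (N' := N') hqO).ord

/-- `v_0` -/
def t4niV0 : Additive (↥(TaF L (N' * q * q)))ˣ →+ ℤ := (t4ni_unif_zero O π hπ W hqO).ord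

/-- `v_mid` -/
def t4niVmid : Additive (↥(TaF L (N' * q * q)))ˣ →+ ℤ := (t4ni_unif_mid O π hπ O' π' C M).ord

/-! ### Values on constants -/

theorem t4ni_V1inf_const (c : Lˣ) :
    t4niV1inf O π hπ hqO (N' := N')
      (Additive.ofMul (Units.map (algebraMap L ↥(TaF L (N' * q)) : L →* ↥(TaF L (N' * q))) c)) =
      t4niVL O hqO (Additive.ofMul c) := by
  have h := T4niUnif.ord_map (t4ni_unif_L O (q := q) hqO) (t4ni_unif_inf1 O π hπ (N' := N') hqO)
    (algebraMap L ↥(TaF L (N' * q))) (fun a ha => algebraMap_mem_taOv O π hπ (N' * q) ⟨a, ha⟩)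
    (e := 1) (u := 1) (Subring.one_mem _) (by rw [inv_one]; exact Subring.one_mem _)
    (by rw [zpow_one, mul_one]; rfl) c
  rw [one_mul] at h
  exact h

theorem t4ni_V10_const (c : Lˣ) :
    t4niV10 O π hπ W1 hqO
      (Additive.ofMul (Units.map (algebraMap L ↥(TaF L (N' * q)) : L →* ↥(TaF L (N' * q))) c)) =
      t4niVL O hqO (Additive.ofMul c) := by
  have h := T4niUnif.ord_map (t4ni_unif_L O (q := q) hqO) (t4ni_unif_zero1 O π hπ W1 hqO)
    (algebraMap L ↥(TaF L (N' * q)))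
    (fun a ha => by
      rw [ValuationSubring.mem_toSubring, mem_t4niO10, AlgEquiv.commutes]
      exact algebraMap_mem_taOv O π hπ (N' * q) ⟨a, ha⟩)
    (e := 1) (u := 1) (Subring.one_mem _) (by rw [inv_one]; exact Subring.one_mem _)
    (by rw [zpow_one, mul_one]; rfl) c
  rw [one_mul] at h
  exact h

theorem t4ni_Vinf_const (c : Lˣ) :
    t4niVinf O π hπ hqO (N' := N')
      (Additive.ofMul (Units.map
        (algebraMap L ↥(TaF L (N' * q * q)) : L →* ↥(TaF L (N' * q * q))) c)) =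
      t4niVL O hqO (Additive.ofMul c) := by
  have h := T4niUnif.ord_map (t4ni_unif_L O (q := q) hqO) (t4ni_unif_inf O π hπ (N' := N') hqO)
    (algebraMap L ↥(TaF L (N' * q * q)))
    (fun a ha => algebraMap_mem_taOv O π hπ (N' * q * q) ⟨a, ha⟩)
    (e := 1) (u := 1) (Subring.one_mem _) (by rw [inv_one]; exact Subring.one_mem _)
    (by rw [zpow_one, mul_one]; rfl) c
  rw [one_mul] at h
  exact h

theorem t4ni_V0_const (c : Lˣ) :
    t4niV0 O π hπ W hqO
      (Additive.ofMul (Units.map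
        (algebraMap L ↥(TaF L (N' * q * q)) : L →* ↥(TaF L (N' * q * q))) c)) =
      t4niVL O hqO (Additive.ofMul c) := by
  have h := T4niUnif.ord_map (t4ni_unif_L O (q := q) hqO) (t4ni_unif_zero O π hπ W hqO)
    (algebraMap L ↥(TaF L (N' * q * q)))
    (fun a ha => by
      rw [ValuationSubring.mem_toSubring, mem_t4vO0, AlgEquiv.commutes]
      exact algebraMap_mem_taOv O π hπ (N' * q * q) ⟨a, ha⟩)
    (e := 1) (u := 1) (Subring.one_mem _) (by rw [inv_one]; exact Subring.one_mem _)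
    (by rw [zpow_one, mul_one]; rfl) c
  rw [one_mul] at h
  exact h

theorem t4ni_Vmid_const (c : Lˣ) :
    t4niVmid O π hπ O' π' C M
      (Additive.ofMul (Units.map
        (algebraMap L ↥(TaF L (N' * q * q)) : L →* ↥(TaF L (N' * q * q))) c)) =
      ((q : ℤ) - 1) * t4niVL O hqO (Additive.ofMul c) := by
  obtain ⟨u, hu, hu', e⟩ := t4vQ_mid O π hπ O' π' C M
  have h := T4niUnif.ord_map (t4ni_unif_L O (q := q) hqO) (t4ni_unif_mid O π hπ O' π' C M)
    (algebraMap L ↥(TaF L (N' * q * q)))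
    (fun a ha => by
      rw [ValuationSubring.mem_toSubring, mem_t4vOmid, M.ι_const]
      exact (t4vConst O' π' ⟨algebraMap L L' a, C.map_mem ⟨a, ha⟩⟩).2)
    (e := ((q - 1 : ℕ) : ℤ)) (u := u) hu hu' (by rw [zpow_natCast]; exact e) c
  rw [Nat.cast_sub hq.out.one_lt.le, Nat.cast_one] at h
  exact h

/-! ### Decompositions in the form of `NormInst.lean` -/

theorem t4ni_inf_decomp (y : (↥(TaF L (N' * q * q)))ˣ) :
    ∃ u : ↥(TaF L (N' * q * q)), u ∈ taOv O π hπ (N' * q * q) ∧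
      u⁻¹ ∈ taOv O π hπ (N' * q * q) ∧
      (y : ↥(TaF L (N' * q * q))) = algebraMap L ↥(TaF L (N' * q * q)) ((q : ℕ) : L) ^
        (t4niVinf O π hπ hqO (N' := N') (Additive.ofMul y)) * u :=
  (t4ni_unif_inf O π hπ (N' := N') hqO).ord_spec y

theorem t4ni_zero_decomp (y : (↥(TaF L (N' * q * q)))ˣ) :
    ∃ u : ↥(TaF L (N' * q * q)), u ∈ taOv O π hπ (N' * q * q) ∧
      u⁻¹ ∈ taOv O π hπ (N' * q * q) ∧
      W.w (y : ↥(TaF L (N' * q * q))) = algebraMap L ↥(TaF L (N' * q * q)) ((q : ℕ) : L) ^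
        (t4niV0 O π hπ W hqO (Additive.ofMul y)) * u := by
  obtain ⟨u, hu, hu', e⟩ := (t4ni_unif_zero O π hπ W hqO).ord_spec y
  refine ⟨W.w u, hu, ?_, ?_⟩
  · rw [← map_inv₀]
    exact hu'
  · have e' : (y : ↥(TaF L (N' * q * q))) = t4vQ L N' q ^
        (t4niV0 O π hπ W hqO (Additive.ofMul y)) * u := e
    rw [e', map_mul, map_zpow₀, W.w_Q]
    rfl

theorem t4ni_mid_decomp (y : (↥(TaF L (N' * q * q)))ˣ) :
    ∃ v : LaurentSeries L', TaGauss O' π' v ∧ TaGauss O' π' v⁻¹ ∧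
      M.ι (y : ↥(TaF L (N' * q * q))) = HahnSeries.C ((C.lam : ↥O') : L') ^
        (t4niVmid O π hπ O' π' C M (Additive.ofMul y)) * v := by
  obtain ⟨u, hu, hu', e⟩ := (t4ni_unif_mid O π hπ O' π' C M).ord_spec y
  set b := t4niVmid O π hπ O' π' C M (Additive.ofMul y) with hb
  have e' : (y : ↥(TaF L (N' * q * q))) = t4vPi L N' q ^ b * u := e
  have hu1 : TaGauss O' π' (M.ι u) := hu
  have hu2 : TaGauss O' π' (M.ι u)⁻¹ := by
    rw [← map_inv₀]
    exact hu'
  refine ⟨(-t4vDel C.ζ (jqModC L')) ^ b * M.ι u, ?_, ?_, ?_⟩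
  · exact (taGaussSubring O' π').mul_mem
      (t4v_gauss_zpow O' π' (t4v_gauss_th O π hπ O' π' C) (t4v_gauss_th_inv O π hπ O' π' C) b) hu1
  · rw [mul_inv, ← zpow_neg]
    exact (taGaussSubring O' π').mul_mem
      (t4v_gauss_zpow O' π' (t4v_gauss_th O π hπ O' π' C) (t4v_gauss_th_inv O π hπ O' π' C) (-b))
      hu2
  · rw [e', map_mul, map_zpow₀, t4v_ι_Pi O π O' π' C M, mul_zpow, mul_assoc]

theorem t4ni_V1inf_eq {x : (↥(TaF L (N' * q)))ˣ} {n : ℤ} {u1 : ↥(TaF L (N' * q))}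
    (hu1 : u1 ∈ taOv O π hπ (N' * q)) (hu1' : u1⁻¹ ∈ taOv O π hπ (N' * q))
    (e : (x : ↥(TaF L (N' * q))) = algebraMap L ↥(TaF L (N' * q)) ((q : ℕ) : L) ^ n * u1) :
    t4niV1inf O π hπ hqO (N' := N') (Additive.ofMul x) = n :=
  (t4ni_unif_inf1 O π hπ (N' := N') hqO).ord_eq hu1 hu1' e

theorem t4ni_V10_eq {x : (↥(TaF L (N' * q)))ˣ} {n : ℤ} {u1 : ↥(TaF L (N' * q))}
    (hu1 : u1 ∈ taOv O π hπ (N' * q)) (hu1' : u1⁻¹ ∈ taOv O π hπ (N' * q))
    (e : W1.w (x : ↥(TaF L (N' * q))) = algebraMap L ↥(TaF L (N' * q)) ((q : ℕ) : L) ^ n * u1) :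
    t4niV10 O π hπ W1 hqO (Additive.ofMul x) = n := by
  refine (t4ni_unif_zero1 O π hπ W1 hqO).ord_eq (u := W1.w.symm u1) ?_ ?_ ?_
  · rw [ValuationSubring.mem_toSubring, mem_t4niO10, AlgEquiv.apply_symm_apply]
    exact hu1
  · rw [ValuationSubring.mem_toSubring, mem_t4niO10, map_inv₀, AlgEquiv.apply_symm_apply]
    exact hu1'
  · apply W1.w.injective
    rw [e, map_mul, map_zpow₀, AlgEquiv.apply_symm_apply]
    congr 2
    exact (W1.w.commutes _).symm

/-! ### The four norm formulas for valuations -/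

include O π hπ hN' W1 Fr W hqO O' π' C M in
theorem t4ni_V1inf_normA (y : (↥(TaF L (N' * q * q)))ˣ) :
    t4niV1inf O π hπ hqO (N' := N') (Additive.ofMul (Units.map (t4vnNormA L N' q) y)) =
      t4niVinf O π hπ hqO (N' := N') (Additive.ofMul y) +
        t4niVmid O π hπ O' π' C M (Additive.ofMul y) := by
  obtain ⟨u1, hu1, hu1', e⟩ := t4vn_normA_unit_inf O π hπ hN' W1 Fr W hqO O' π' C M y.ne_zero
    (t4ni_inf_decomp O π hπ hqO y) (t4ni_mid_decomp O π hπ O' π' C M y)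
  exact t4ni_V1inf_eq O π hπ hqO hu1 hu1' e

include O π hπ hN' W1 Fr W hqO O' π' C M in
theorem t4ni_V10_normA (y : (↥(TaF L (N' * q * q)))ˣ) :
    t4niV10 O π hπ W1 hqO (Additive.ofMul (Units.map (t4vnNormA L N' q) y)) =
      (q : ℤ) * t4niV0 O π hπ W hqO (Additive.ofMul y) := by
  obtain ⟨u1, hu1, hu1', e⟩ := t4vn_normA_unit_zero O π hπ hN' W1 Fr W hqO O' π' C M y.ne_zero
    (t4ni_zero_decomp O π hπ W hqO y)
  exact t4ni_V10_eq O π hπ W1 hqO hu1 hu1' e

include O π hπ hN' W1 Fr W hqO O' π' C M in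
theorem t4ni_V1inf_normB (y : (↥(TaF L (N' * q * q)))ˣ) :
    t4niV1inf O π hπ hqO (N' := N') (Additive.ofMul (Units.map (t4vnNormB L N' q) y)) =
      (q : ℤ) * t4niVinf O π hπ hqO (N' := N') (Additive.ofMul y) := by
  obtain ⟨u1, hu1, hu1', e⟩ := t4vn_normB_unit_inf O π hπ hN' W1 Fr W hqO O' π' C M y.ne_zero
    (t4ni_inf_decomp O π hπ hqO y)
  exact t4ni_V1inf_eq O π hπ hqO hu1 hu1' e

include O π hπ hN' W1 Fr W hqO O' π' C M in
theorem t4ni_V10_normB (y : (↥(TaF L (N' * q * q)))ˣ) :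
    t4niV10 O π hπ W1 hqO (Additive.ofMul (Units.map (t4vnNormB L N' q) y)) =
      t4niVmid O π hπ O' π' C M (Additive.ofMul y) +
        t4niV0 O π hπ W hqO (Additive.ofMul y) := by
  obtain ⟨u1, hu1, hu1', e⟩ := t4vn_normB_unit_zero O π hπ hN' W1 Fr W hqO O' π' C M y.ne_zero
    (t4ni_zero_decomp O π hπ W hqO y) (t4ni_mid_decomp O π hπ O' π' C M y)
  rw [add_comm]
  exact t4ni_V10_eq O π hπ W1 hqO hu1 hu1' e

/-! ### The instance -/

/-- **the instance of `T4nA`** on the concrete three-valuation base (weak approximation as a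
hypothesis) -/
def t4niA (m : ℕ)
    (happrox : ∀ a b c : ℤ, ∃ g : (↥(TaF L (N' * q * q)))ˣ,
      t4niVinf O π hπ hqO (N' := N') (Additive.ofMul g) = a ∧
      t4niVmid O π hπ O' π' C M (Additive.ofMul g) = b ∧
      t4niV0 O π hπ W hqO (Additive.ofMul g) = c) :
    T4nA L ↥(TaF L (N' * q)) ↥(TaF L (N' * q * q)) q m where
  vL := t4niVL O hqO
  π := Units.mk0 ((q : ℕ) : L) (t4vn_q_ne_zero O hqO)
  vL_π := (t4ni_unif_L O (q := q) hqO).ord_unif
  cF1 := Units.map (algebraMap L ↥(TaF L (N' * q)) : L →* ↥(TaF L (N' * q)))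
  cF := Units.map (algebraMap L ↥(TaF L (N' * q * q)) : L →* ↥(TaF L (N' * q * q)))
  Nα := Units.map (t4vnNormA L N' q)
  Nβ := Units.map (t4vnNormB L N' q)
  Nα_c := fun c => Units.ext (t4ni_normA_const O π hπ hN' W1 Fr W hqO O' π' C M c)
  Nβ_c := fun c => Units.ext (t4ni_normB_const O π hπ hN' W1 Fr W hqO O' π' C M c)
  vinf := t4niVinf O π hπ hqO
  vmid := t4niVmid O π hπ O' π' C M
  v0 := t4niV0 O π hπ W hqO
  v1inf := t4niV1inf O π hπ hqO
  v10 := t4niV10 O π hπ W1 hqO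
  vinf_c := t4ni_Vinf_const O π hπ hqO
  vmid_c := t4ni_Vmid_const O π hπ hqO O' π' C M
  v0_c := t4ni_V0_const O π hπ W hqO
  v1inf_c := t4ni_V1inf_const O π hπ hqO
  v10_c := t4ni_V10_const O π hπ W1 hqO
  v1inf_Nα := t4ni_V1inf_normA O π hπ hN' W1 Fr W hqO O' π' C M
  v10_Nα := t4ni_V10_normA O π hπ hN' W1 Fr W hqO O' π' C M
  v1inf_Nβ := t4ni_V1inf_normB O π hπ hN' W1 Fr W hqO O' π' C M
  v10_Nβ := t4ni_V10_normB O π hπ hN' W1 Fr W hqO O' π' C M
  approx_v := happrox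

end Inst

end Fermat.Agent.T4
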