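/-
T4-N (helper4), instance of steps A + B, part 3: **the three residue maps of `t4vInput` take values
in the function field `E' = k(X₀(N'))`** (generic statement for `T4kInput`, then the instance), and
the residue maps on units as monoid homomorphisms.
-/
import Fermat.Agent.Lib.T4.New.InstA

set_option autoImplicit false
set_option linter.unusedSectionVars false
set_option linter.unusedVariables false
set_option linter.style.haveILetI false

open HahnSeries ModularCurve Fermat.Agent.T1 Fermat.Agent.T2 IntermediateField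

noncomputable section

namespace Fermat.Agent.T4

/-! ### Generic: the reductions of a `T4kInput` land in any subring containing the data -/

namespace T4kInput

variable {L F1 F k Om Om' Fb1 : Type*} [Field L] [Field F1] [Field F] [Algebra L F1]
  [Algebra L F] [Algebra F1 F] [IsScalarTower L F1 F] [Field k] [Field Om]
  [CommRing Om'] [IsDomain Om'] [CommRing Fb1] [Algebra k Fb1]
  (I : T4kInput L F1 F k Om Om' Fb1)

theorem ρ₂_Z : I.ρ₂ I.ZO = I.r1 I.J := by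
  rw [ρ₂_apply, I.ιO_Z, map_add, map_mul, I.ρ'_lam, zero_mul, zero_add, I.ρ'_η]

theorem ρ₂_comb (b : Fin I.q → ↥I.d1.Ov) :
    I.ρ₂ (I.comb b) = ∑ i, I.r1 (b i) * I.r1 I.J ^ (i : ℕ) := by
  rw [comb, map_sum]
  refine Finset.sum_congr rfl fun i _ => ?_
  rw [map_mul, map_pow, I.ρ₂_α, I.ρ₂_Z]

theorem ρ₁_comb' (b : Fin I.q → ↥I.d1.Ov) :
    I.ρ₁ (I.comb b) = ∑ i, I.r1 (b i) * I.ρ₁ I.ZO ^ (i : ℕ) := by
  rw [comb, map_sum]
  refine Finset.sum_congr rfl fun i _ => ?_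
  rw [map_mul, map_pow, I.ρ₁_α]

/-- the three reductions take values in every subring of `Ω` containing `r1 (𝒪¹)`, `Φ (r2 (𝒪¹))`,
`ρ₁ Z` and `t0` -/
theorem ρ_mem_of (E : Subring Om) (h1 : ∀ b, I.r1 b ∈ E) (h2 : ∀ b, I.Φ (I.r2 b) ∈ E)
    (hZ : I.ρ₁ I.ZO ∈ E) (ht0 : I.t0 ∈ E) (f : ↥I.Ov) :
    I.ρ₁ f ∈ E ∧ I.ρ₂ f ∈ E ∧ I.ρ₃ f ∈ E := by
  obtain ⟨b, rfl⟩ := I.decomp f
  refine ⟨?_, ?_, ?_⟩
  · rw [I.ρ₁_comb']
    exact E.sum_mem fun i _ => E.mul_mem (h1 _) (E.pow_mem hZ _)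
  · rw [I.ρ₂_comb]
    exact E.sum_mem fun i _ => E.mul_mem (h1 _) (E.pow_mem (h1 _) _)
  · rw [I.ρ₃_comb]
    exact E.sum_mem fun i _ => E.mul_mem (h2 _) (E.pow_mem ht0 _)

end T4kInput

/-! ### The instance -/

section Inst

variable {L : Type} [Field L] [Algebra ℚ L] (O : ValuationSubring L) {k : Type*} [Field k]
  (π : ↥O →+* k) [IsDiscreteValuationRing ↥O] (hπ : Function.Surjective π) [IsAlgClosed k]
  {N' q : ℕ} [NeZero N'] [hq : Fact q.Prime] [CharP k q] (hN' : (N' : k) ≠ 0)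
  (W1 : T2iAL L N' q) (Fr : T2iFrob k N' q) (W : T4iAL L N' q)
  (hqO : Irreducible ((q : ℕ) : ↥O))
  {L' : Type*} [Field L'] [Algebra L L'] (O' : ValuationSubring L')
  [IsDiscreteValuationRing ↥O'] (π' : ↥O' →+* k) (C : T4iCyc O O' π π' q)
  (M : T4iMid L L' N' q C.ζ)

attribute [local instance] t2iAlgebra t2i_isScalarTower

include Fr in
/-- `Φ = (𝔮 ↦ 𝔮^q)` preserves `E'` -/
theorem t4ni_qExpand_mem {x : LaurentSeries k} (hx : x ∈ modularFunctionFieldFullC k N') :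
    qExpand k q x ∈ modularFunctionFieldFullC k N' := by
  rw [← Fr.coe_Φ ⟨x, hx⟩]
  exact SetLike.coe_mem _

/-- **the three reductions of `t4vInput` take values in `E'`** -/
theorem t4ni_ρ_mem (f : ↥(t4vInput O π hπ hN' W1 Fr W hqO O' π' C M).Ov) :
    (t4vInput O π hπ hN' W1 Fr W hqO O' π' C M).ρ₁ f ∈ modularFunctionFieldFullC k N' ∧
    (t4vInput O π hπ hN' W1 Fr W hqO O' π' C M).ρ₂ f ∈ modularFunctionFieldFullC k N' ∧
    (t4vInput O π hπ hN' W1 Fr W hqO O' π' C M).ρ₃ f ∈ modularFunctionFieldFullC k N' := by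
  refine (t4vInput O π hπ hN' W1 Fr W hqO O' π' C M).ρ_mem_of
    (modularFunctionFieldFullC k N').toSubring ?_ ?_ ?_ ?_ f
  · intro b
    exact (t2iInput O π hπ hN' W1 Fr).ρ₁_mem b
  · intro b
    exact t4ni_qExpand_mem Fr ((t2iInput O π hπ hN' W1 Fr).ρ₂_mem b)
  · have h : (t4vInput O π hπ hN' W1 Fr W hqO O' π' C M).ρ₁
        (t4vInput O π hπ hN' W1 Fr W hqO O' π' C M).ZO =
        qExpand k q (qExpand k q (jqModC k)) := t4vZ_res O π hπ
    rw [h]
    exact t4ni_qExpand_mem Fr (t4ni_qExpand_mem Fr (jqModC_mem_full k N'))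
  · exact jqModC_mem_full k N'

end Inst

end Fermat.Agent.T4
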