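/-
T4-N (helper4), instance of steps A + B, part 4: **the instance of `T4nB`** on the concrete
three-valuation base: residue maps on units with values in `E' = k(X₀(N'))`, constants, helper7's
four norm formulas for residues, the `q`-group step.  CRT for residues is a hypothesis (lead's
elements).
-/
import Fermat.Agent.Lib.T4.New.InstRes
import Fermat.Agent.Lib.T4.New.QGrp

set_option autoImplicit false
set_option linter.unusedSectionVars false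
set_option linter.unusedVariables false
set_option linter.style.haveILetI false

open HahnSeries ModularCurve Fermat.Agent.T1 Fermat.Agent.T2 IntermediateField

noncomputable section

namespace Fermat.Agent.T4

/-- units of a subring from a subgroup of `Fˣ` -/
def t4niToUnits {F : Type*} [Field F] (R : Subring F) (S : Subgroup Fˣ)
    (hS : ∀ y ∈ S, ((y : Fˣ) : F) ∈ R ∧ ((y⁻¹ : Fˣ) : F) ∈ R) : ↥S →* (↥R)ˣ where
  toFun y := ⟨⟨((y : Fˣ) : F), (hS y y.2).1⟩, ⟨(((y : Fˣ)⁻¹ : Fˣ) : F), (hS y y.2).2⟩,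
    Subtype.ext (by simp), Subtype.ext (by simp)⟩
  map_one' := Units.ext (Subtype.ext rfl)
  map_mul' a b := Units.ext (Subtype.ext rfl)

theorem coe_t4niToUnits {F : Type*} [Field F] (R : Subring F) (S : Subgroup Fˣ)
    (hS : ∀ y ∈ S, ((y : Fˣ) : F) ∈ R ∧ ((y⁻¹ : Fˣ) : F) ∈ R) (y : ↥S) :
    (((t4niToUnits R S hS y : (↥R)ˣ) : ↥R) : F) = ((y : Fˣ) : F) := rfl

section Inst

variable {L : Type} [Field L] [Algebra ℚ L] (O : ValuationSubring L) {k : Type} [Field k]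
  (π : ↥O →+* k) [IsDiscreteValuationRing ↥O] (hπ : Function.Surjective π) [IsAlgClosed k]
  {N' q : ℕ} [NeZero N'] [hq : Fact q.Prime] [CharP k q] (hN' : (N' : k) ≠ 0)
  (W1 : T2iAL L N' q) (Fr : T2iFrob k N' q) (W : T4iAL L N' q)
  (hqO : Irreducible ((q : ℕ) : ↥O))
  {L' : Type*} [Field L'] [Algebra L L'] (O' : ValuationSubring L')
  [IsDiscreteValuationRing ↥O'] (π' : ↥O' →+* k) (C : T4iCyc O O' π π' q)
  (M : T4iMid L L' N' q C.ζ) (m : ℕ)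
  (happrox : ∀ a b c : ℤ, ∃ g : (↥(TaF L (N' * q * q)))ˣ,
      t4niVinf O π hπ hqO (N' := N') (Additive.ofMul g) = a ∧
      t4niVmid O π hπ O' π' C M (Additive.ofMul g) = b ∧
      t4niV0 O π hπ W hqO (Additive.ofMul g) = c)

attribute [local instance] t2iAlgebra t2i_isScalarTower

/-! ### Units -/

theorem t4ni_mem_Ov_of_mem_U {y : (↥(TaF L (N' * q * q)))ˣ}
    (hy : y ∈ (t4niA O π hπ hN' W1 Fr W hqO O' π' C M m happrox).U) :
    ((y : (↥(TaF L (N' * q * q)))ˣ) : ↥(TaF L (N' * q * q))) ∈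
      (t4vInput O π hπ hN' W1 Fr W hqO O' π' C M).Ov ∧
    ((y⁻¹ : (↥(TaF L (N' * q * q)))ˣ) : ↥(TaF L (N' * q * q))) ∈
      (t4vInput O π hπ hN' W1 Fr W hqO O' π' C M).Ov := by
  obtain ⟨h1, h2, h3⟩ := hy
  have h1' := ((t4ni_unif_inf O π hπ (N' := N') hqO).unit_iff_ord_eq_zero y).mpr h1
  have h2' := ((t4ni_unif_mid O π hπ O' π' C M).unit_iff_ord_eq_zero y).mpr h2
  have h3' := ((t4ni_unif_zero O π hπ W hqO).unit_iff_ord_eq_zero y).mpr h3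
  exact ⟨(mem_t4vInput_Ov_iff O π hπ hN' W1 Fr W hqO O' π' C M _).mpr ⟨h1'.1, h3'.1, h2'.1⟩,
    (mem_t4vInput_Ov_iff O π hπ hN' W1 Fr W hqO O' π' C M _).mpr ⟨h1'.2, h3'.2, h2'.2⟩⟩

theorem t4ni_mem_U_of_mem_Ov {y : (↥(TaF L (N' * q * q)))ˣ}
    (hy : ((y : (↥(TaF L (N' * q * q)))ˣ) : ↥(TaF L (N' * q * q))) ∈
      (t4vInput O π hπ hN' W1 Fr W hqO O' π' C M).Ov)
    (hy' : ((y⁻¹ : (↥(TaF L (N' * q * q)))ˣ) : ↥(TaF L (N' * q * q))) ∈
      (t4vInput O π hπ hN' W1 Fr W hqO O' π' C M).Ov) :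
    y ∈ (t4niA O π hπ hN' W1 Fr W hqO O' π' C M m happrox).U := by
  obtain ⟨a1, a2, a3⟩ := (mem_t4vInput_Ov_iff O π hπ hN' W1 Fr W hqO O' π' C M _).mp hy
  obtain ⟨b1, b2, b3⟩ := (mem_t4vInput_Ov_iff O π hπ hN' W1 Fr W hqO O' π' C M _).mp hy'
  exact ⟨((t4ni_unif_inf O π hπ (N' := N') hqO).unit_iff_ord_eq_zero y).mp ⟨a1, b1⟩,
    ((t4ni_unif_mid O π hπ O' π' C M).unit_iff_ord_eq_zero y).mp ⟨a3, b3⟩,
    ((t4ni_unif_zero O π hπ W hqO).unit_iff_ord_eq_zero y).mp ⟨a2, b2⟩⟩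

theorem t4ni_mem_Ov1_of_mem_U1 {x : (↥(TaF L (N' * q)))ˣ}
    (hx : x ∈ (t4niA O π hπ hN' W1 Fr W hqO O' π' C M m happrox).U1) :
    ((x : (↥(TaF L (N' * q)))ˣ) : ↥(TaF L (N' * q))) ∈ (t2iInput O π hπ hN' W1 Fr).Ov ∧
    ((x⁻¹ : (↥(TaF L (N' * q)))ˣ) : ↥(TaF L (N' * q))) ∈ (t2iInput O π hπ hN' W1 Fr).Ov := by
  obtain ⟨h1, h2⟩ := hx
  have h1' := ((t4ni_unif_inf1 O π hπ (N' := N') hqO).unit_iff_ord_eq_zero x).mpr h1
  have h2' := ((t4ni_unif_zero1 O π hπ W1 hqO).unit_iff_ord_eq_zero x).mpr h2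
  exact ⟨⟨h1'.1, h2'.1⟩, ⟨h1'.2, h2'.2⟩⟩

theorem t4ni_mem_O_of_mem_UL {c : Lˣ}
    (hc : c ∈ (t4niA O π hπ hN' W1 Fr W hqO O' π' C M m happrox).UL) :
    ((c : Lˣ) : L) ∈ O.toSubring ∧ ((c⁻¹ : Lˣ) : L) ∈ O.toSubring :=
  ((t4ni_unif_L O (q := q) hqO).unit_iff_ord_eq_zero c).mpr hc

/-! ### The residue maps with values in `E'` -/

/-- `ρ_inf : 𝒪 → E'` -/
def t4niRho1 : ↥(t4vInput O π hπ hN' W1 Fr W hqO O' π' C M).Ov →+*
    ↥(modularFunctionFieldFullC k N') :=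
  (t4vInput O π hπ hN' W1 Fr W hqO O' π' C M).ρ₁.codRestrict (modularFunctionFieldFullC k N')
    (fun f => (t4ni_ρ_mem O π hπ hN' W1 Fr W hqO O' π' C M f).1)

/-- `ρ_mid : 𝒪 → E'` -/
def t4niRho2 : ↥(t4vInput O π hπ hN' W1 Fr W hqO O' π' C M).Ov →+*
    ↥(modularFunctionFieldFullC k N') :=
  (t4vInput O π hπ hN' W1 Fr W hqO O' π' C M).ρ₂.codRestrict (modularFunctionFieldFullC k N')
    (fun f => (t4ni_ρ_mem O π hπ hN' W1 Fr W hqO O' π' C M f).2.1)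

/-- `ρ_0 : 𝒪 → E'` -/
def t4niRho3 : ↥(t4vInput O π hπ hN' W1 Fr W hqO O' π' C M).Ov →+*
    ↥(modularFunctionFieldFullC k N') :=
  (t4vInput O π hπ hN' W1 Fr W hqO O' π' C M).ρ₃.codRestrict (modularFunctionFieldFullC k N')
    (fun f => (t4ni_ρ_mem O π hπ hN' W1 Fr W hqO O' π' C M f).2.2)

/-- `ρ¹_inf : 𝒪¹ → E'` -/
def t4niRho11 : ↥(t2iInput O π hπ hN' W1 Fr).Ov →+* ↥(modularFunctionFieldFullC k N') :=
  (t2iInput O π hπ hN' W1 Fr).ρ₁.codRestrict (modularFunctionFieldFullC k N')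
    (t2iInput O π hπ hN' W1 Fr).ρ₁_mem

/-- `ρ¹_0 : 𝒪¹ → E'` -/
def t4niRho12 : ↥(t2iInput O π hπ hN' W1 Fr).Ov →+* ↥(modularFunctionFieldFullC k N') :=
  (t2iInput O π hπ hN' W1 Fr).ρ₂.codRestrict (modularFunctionFieldFullC k N')
    (t2iInput O π hπ hN' W1 Fr).ρ₂_mem

theorem coe_t4niRho1 (f : ↥(t4vInput O π hπ hN' W1 Fr W hqO O' π' C M).Ov) :
    ((t4niRho1 O π hπ hN' W1 Fr W hqO O' π' C M f : ↥(modularFunctionFieldFullC k N')) :
      LaurentSeries k) = (t4vInput O π hπ hN' W1 Fr W hqO O' π' C M).ρ₁ f := rfl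

theorem coe_t4niRho2 (f : ↥(t4vInput O π hπ hN' W1 Fr W hqO O' π' C M).Ov) :
    ((t4niRho2 O π hπ hN' W1 Fr W hqO O' π' C M f : ↥(modularFunctionFieldFullC k N')) :
      LaurentSeries k) = (t4vInput O π hπ hN' W1 Fr W hqO O' π' C M).ρ₂ f := rfl

theorem coe_t4niRho3 (f : ↥(t4vInput O π hπ hN' W1 Fr W hqO O' π' C M).Ov) :
    ((t4niRho3 O π hπ hN' W1 Fr W hqO O' π' C M f : ↥(modularFunctionFieldFullC k N')) :
      LaurentSeries k) = (t4vInput O π hπ hN' W1 Fr W hqO O' π' C M).ρ₃ f := rfl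

theorem coe_t4niRho11 (f : ↥(t2iInput O π hπ hN' W1 Fr).Ov) :
    ((t4niRho11 O π hπ hN' W1 Fr f : ↥(modularFunctionFieldFullC k N')) : LaurentSeries k) =
      (t2iInput O π hπ hN' W1 Fr).ρ₁ f := rfl

theorem coe_t4niRho12 (f : ↥(t2iInput O π hπ hN' W1 Fr).Ov) :
    ((t4niRho12 O π hπ hN' W1 Fr f : ↥(modularFunctionFieldFullC k N')) : LaurentSeries k) =
      (t2iInput O π hπ hN' W1 Fr).ρ₂ f := rfl

/-- units of `𝒪` from `D.U` -/
def t4niUOv : ↥(t4niA O π hπ hN' W1 Fr W hqO O' π' C M m happrox).U →*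
    (↥(t4vInput O π hπ hN' W1 Fr W hqO O' π' C M).Ov)ˣ :=
  t4niToUnits _ _ (fun y hy => t4ni_mem_Ov_of_mem_U O π hπ hN' W1 Fr W hqO O' π' C M m happrox hy)

/-- units of `𝒪¹` from `D.U1` -/
def t4niUOv1 : ↥(t4niA O π hπ hN' W1 Fr W hqO O' π' C M m happrox).U1 →*
    (↥(t2iInput O π hπ hN' W1 Fr).Ov)ˣ :=
  t4niToUnits _ _ (fun y hy => t4ni_mem_Ov1_of_mem_U1 O π hπ hN' W1 Fr W hqO O' π' C M m happrox hy)

/-- units of `O` from `D.UL` -/
def t4niUO : ↥(t4niA O π hπ hN' W1 Fr W hqO O' π' C M m happrox).UL →* (↥O.toSubring)ˣ :=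
  t4niToUnits _ _ (fun y hy => t4ni_mem_O_of_mem_UL O π hπ hN' W1 Fr W hqO O' π' C M m happrox hy)

/-! ### Congruences: zero residue means divisible by the uniformiser -/

theorem t4ni_one_le_Vinf {x : (↥(TaF L (N' * q * q)))ˣ}
    (hx : ((x : (↥(TaF L (N' * q * q)))ˣ) : ↥(TaF L (N' * q * q))) ∈
      (t4vInput O π hπ hN' W1 Fr W hqO O' π' C M).Ov)
    (h0 : (t4vInput O π hπ hN' W1 Fr W hqO O' π' C M).ρ₁ ⟨_, hx⟩ = 0) :
    1 ≤ t4niVinf O π hπ hqO (N' := N') (Additive.ofMul x) := by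
  have hx1 := ((mem_t4vInput_Ov_iff O π hπ hN' W1 Fr W hqO O' π' C M _).mp hx).1
  obtain ⟨f', hf'⟩ := (taResN_eq_zero_iff O π hπ (N' * q * q) hqO ⟨_, hx1⟩).mp h0
  refine ((t4ni_unif_inf O π hπ (N' := N') hqO).exists_eq_zpow_mul_iff x 1).mp
    ⟨(f' : ↥(TaF L (N' * q * q))), f'.2, ?_⟩
  rw [zpow_one]
  exact hf'

theorem t4ni_one_le_V0 {x : (↥(TaF L (N' * q * q)))ˣ}
    (hx : ((x : (↥(TaF L (N' * q * q)))ˣ) : ↥(TaF L (N' * q * q))) ∈
      (t4vInput O π hπ hN' W1 Fr W hqO O' π' C M).Ov)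
    (h0 : (t4vInput O π hπ hN' W1 Fr W hqO O' π' C M).ρ₃ ⟨_, hx⟩ = 0) :
    1 ≤ t4niV0 O π hπ W hqO (Additive.ofMul x) := by
  have hx1 := ((mem_t4vInput_Ov_iff O π hπ hN' W1 Fr W hqO O' π' C M _).mp hx).2.1
  obtain ⟨f', hf'⟩ := (taResN_eq_zero_iff O π hπ (N' * q * q) hqO ⟨_, hx1⟩).mp h0
  refine ((t4ni_unif_zero O π hπ W hqO).exists_eq_zpow_mul_iff x 1).mp
    ⟨W.w.symm (f' : ↥(TaF L (N' * q * q))), ?_, ?_⟩
  · rw [ValuationSubring.mem_toSubring, mem_t4vO0, AlgEquiv.apply_symm_apply]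
    exact f'.2
  · rw [zpow_one]
    apply W.w.injective
    rw [map_mul, AlgEquiv.apply_symm_apply, W.w_Q]
    exact hf'

theorem t4ni_one_le_Vmid {x : (↥(TaF L (N' * q * q)))ˣ}
    (hx : ((x : (↥(TaF L (N' * q * q)))ˣ) : ↥(TaF L (N' * q * q))) ∈
      (t4vInput O π hπ hN' W1 Fr W hqO O' π' C M).Ov)
    (h0 : (t4vInput O π hπ hN' W1 Fr W hqO O' π' C M).ρ₂ ⟨_, hx⟩ = 0) :
    1 ≤ t4niVmid O π hπ O' π' C M (Additive.ofMul x) := by
  have hx1 := ((mem_t4vInput_Ov_iff O π hπ hN' W1 Fr W hqO O' π' C M _).mp hx).2.2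
  obtain ⟨f', hf', e⟩ := (taRho_eq_zero_iff (C.π'_surjective hπ) C.unif ⟨_, hx1⟩).mp h0
  have hPi0 := t4vPi_ne_zero O π hπ O' π' C M
  refine ((t4ni_unif_mid O π hπ O' π' C M).exists_eq_zpow_mul_iff x 1).mp
    ⟨(x : ↥(TaF L (N' * q * q))) * (t4vPi L N' q)⁻¹, ?_, ?_⟩
  · rw [ValuationSubring.mem_toSubring, mem_t4vOmid, map_mul, map_inv₀,
      t4v_ι_Pi O π O' π' C M]
    have e' : M.ι (x : ↥(TaF L (N' * q * q))) = HahnSeries.C ((C.lam : ↥O') : L') * f' := e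
    rw [e', mul_inv]
    have : HahnSeries.C ((C.lam : ↥O') : L') * f' *
        ((HahnSeries.C ((C.lam : ↥O') : L') : LaurentSeries L')⁻¹ *
          (-t4vDel C.ζ (jqModC L'))⁻¹) = f' * (-t4vDel C.ζ (jqModC L'))⁻¹ := by
      have := t4v_C_lam_ne_zero O π O' π' C
      field_simp
    rw [this]
    exact (taGaussSubring O' π').mul_mem hf' (t4v_gauss_th_inv O π hπ O' π' C)
  · rw [zpow_one, mul_comm (x : ↥(TaF L (N' * q * q))), ← mul_assoc, mul_inv_cancel₀ hPi0,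
      one_mul]

/-! ### The `q`-group step -/

/-- `q` as a unit of `F` -/
def t4niQu (L : Type) [Field L] [Algebra ℚ L] (N' q : ℕ) [NeZero N'] [hq : Fact q.Prime] :
    (↥(TaF L (N' * q * q)))ˣ := Units.mk0 (t4vQ L N' q) t4vQ_ne_zero

theorem t4ni_Vinf_Q : t4niVinf O π hπ hqO (N' := N') (Additive.ofMul (t4niQu L N' q)) = 1 :=
  (t4ni_unif_inf O π hπ (N' := N') hqO).ord_unif

theorem t4ni_V0_Q : t4niV0 O π hπ W hqO (Additive.ofMul (t4niQu L N' q)) = 1 :=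
  (t4ni_unif_zero O π hπ W hqO).ord_unif

theorem t4ni_Vmid_Q :
    t4niVmid O π hπ O' π' C M (Additive.ofMul (t4niQu L N' q)) = (q : ℤ) - 1 := by
  obtain ⟨u, hu, hu', e⟩ := t4vQ_mid O π hπ O' π' C M
  have h := (t4ni_unif_mid O π hπ O' π' C M).ord_eq (f := t4niQu L N' q)
    (n := ((q - 1 : ℕ) : ℤ)) hu hu' (by rw [zpow_natCast]; exact e)
  rw [Nat.cast_sub hq.out.one_lt.le, Nat.cast_one] at h
  exact h

theorem t4vQ_mem_Ov : t4vQ L N' q ∈ (t4vInput O π hπ hN' W1 Fr W hqO O' π' C M).Ov :=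
  (mem_t4vInput_Ov_iff O π hπ hN' W1 Fr W hqO O' π' C M _).mpr
    ⟨t4vQ_mem_inf O π hπ, t4vQ_mem_zero O π hπ W, t4vQ_mem_mid O π hπ O' π' C M⟩

/-- residues all `0` ⟹ `x ^ q ∈ q · 𝒪` -/
theorem t4ni_pow_mem {x : ↥(TaF L (N' * q * q))}
    (hx : x ∈ (t4vInput O π hπ hN' W1 Fr W hqO O' π' C M).Ov)
    (h1 : (t4vInput O π hπ hN' W1 Fr W hqO O' π' C M).ρ₁ ⟨x, hx⟩ = 0)
    (h2 : (t4vInput O π hπ hN' W1 Fr W hqO O' π' C M).ρ₂ ⟨x, hx⟩ = 0)
    (h3 : (t4vInput O π hπ hN' W1 Fr W hqO O' π' C M).ρ₃ ⟨x, hx⟩ = 0) :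
    ∃ o ∈ (t4vInput O π hπ hN' W1 Fr W hqO O' π' C M).Ov, x ^ q = t4vQ L N' q * o := by
  by_cases hx0 : x = 0
  · refine ⟨0, Subring.zero_mem _, ?_⟩
    rw [hx0, mul_zero, zero_pow hq.out.ne_zero]
  set xu : (↥(TaF L (N' * q * q)))ˣ := Units.mk0 x hx0 with hxu
  have a1 := t4ni_one_le_Vinf O π hπ hN' W1 Fr W hqO O' π' C M (x := xu) hx h1
  have a2 := t4ni_one_le_Vmid O π hπ hN' W1 Fr W hqO O' π' C M (x := xu) hx h2
  have a3 := t4ni_one_le_V0 O π hπ hN' W1 Fr W hqO O' π' C M (x := xu) hx h3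
  set ou : (↥(TaF L (N' * q * q)))ˣ := xu ^ q * (t4niQu L N' q)⁻¹ with hou
  have hq1 : (1 : ℤ) ≤ (q : ℤ) := by exact_mod_cast hq.out.one_lt.le
  have b1 : 0 ≤ t4niVinf O π hπ hqO (N' := N') (Additive.ofMul ou) := by
    rw [hou, ofMul_mul, map_add, ofMul_pow, map_nsmul, ofMul_inv, map_neg,
      t4ni_Vinf_Q O π hπ hqO, nsmul_eq_mul]
    nlinarith
  have b2 : 0 ≤ t4niVmid O π hπ O' π' C M (Additive.ofMul ou) := by
    rw [hou, ofMul_mul, map_add, ofMul_pow, map_nsmul, ofMul_inv, map_neg,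
      t4ni_Vmid_Q O π hπ O' π' C M, nsmul_eq_mul]
    nlinarith
  have b3 : 0 ≤ t4niV0 O π hπ W hqO (Additive.ofMul ou) := by
    rw [hou, ofMul_mul, map_add, ofMul_pow, map_nsmul, ofMul_inv, map_neg,
      t4ni_V0_Q O π hπ W hqO, nsmul_eq_mul]
    nlinarith
  refine ⟨(ou : ↥(TaF L (N' * q * q))),
    (mem_t4vInput_Ov_iff O π hπ hN' W1 Fr W hqO O' π' C M _).mpr
      ⟨((t4ni_unif_inf O π hπ (N' := N') hqO).mem_iff_ord_nonneg ou).mpr b1,
        ((t4ni_unif_zero O π hπ W hqO).mem_iff_ord_nonneg ou).mpr b3,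
        ((t4ni_unif_mid O π hπ O' π' C M).mem_iff_ord_nonneg ou).mpr b2⟩, ?_⟩
  have : (ou : ↥(TaF L (N' * q * q))) = x ^ q * (t4vQ L N' q)⁻¹ := by
    rw [hou, Units.val_mul, Units.val_pow_eq_pow_val, Units.val_inv_eq_inv_val]
    rfl
  rw [this, mul_comm (x ^ q), ← mul_assoc, mul_inv_cancel₀ t4vQ_ne_zero, one_mul]

/-- **the `q`-group step** at the concrete base -/
theorem t4ni_qgrp {m' : ℕ} (hqm : Nat.Coprime m' q) {z : (↥(TaF L (N' * q * q)))ˣ}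
    (hz : ((z : (↥(TaF L (N' * q * q)))ˣ) : ↥(TaF L (N' * q * q))) ∈
      (t4vInput O π hπ hN' W1 Fr W hqO O' π' C M).Ov)
    (hz' : ((z⁻¹ : (↥(TaF L (N' * q * q)))ˣ) : ↥(TaF L (N' * q * q))) ∈
      (t4vInput O π hπ hN' W1 Fr W hqO O' π' C M).Ov)
    (h1 : (t4vInput O π hπ hN' W1 Fr W hqO O' π' C M).ρ₁ ⟨_, hz⟩ = 1)
    (h2 : (t4vInput O π hπ hN' W1 Fr W hqO O' π' C M).ρ₂ ⟨_, hz⟩ = 1)
    (h3 : (t4vInput O π hπ hN' W1 Fr W hqO O' π' C M).ρ₃ ⟨_, hz⟩ = 1) :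
    ∃ a : ℤ, z * ((z ^ a) ^ m')⁻¹ ∈
      t4nU1q (t4vInput O π hπ hN' W1 Fr W hqO O' π' C M).Ov (t4vQ L N' q) := by
  refine t4n_qgrp_of_pow _ (t4vQ_mem_Ov O π hπ hN' W1 Fr W hqO O' π' C M) hq.out hqm
    ⟨1, Subring.one_mem _, ?_⟩ hz hz' ?_
  · rw [mul_one, t4vQ, map_natCast]
  · have hx : ((z : (↥(TaF L (N' * q * q)))ˣ) : ↥(TaF L (N' * q * q))) - 1 ∈
        (t4vInput O π hπ hN' W1 Fr W hqO O' π' C M).Ov :=
      Subring.sub_mem _ hz (Subring.one_mem _)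
    have hsub : (⟨_, hx⟩ : ↥(t4vInput O π hπ hN' W1 Fr W hqO O' π' C M).Ov) = ⟨_, hz⟩ - 1 := rfl
    refine t4ni_pow_mem O π hπ hN' W1 Fr W hqO O' π' C M hx ?_ ?_ ?_
    · rw [hsub, map_sub, h1, map_one, sub_self]
    · rw [hsub, map_sub, h2, map_one, sub_self]
    · rw [hsub, map_sub, h3, map_one, sub_self]

/-! ### The instance -/

/-- **the instance of `T4nB`** on the concrete three-valuation base (CRT for residues as a
hypothesis) -/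
def t4niB (hm : m ≠ 0) (hqm : Nat.Coprime m q)
    (hcrt : ∀ a b c : ↥(modularFunctionFieldFullC k N'), a ≠ 0 → b ≠ 0 → c ≠ 0 →
      ∃ g : (↥(t4vInput O π hπ hN' W1 Fr W hqO O' π' C M).Ov)ˣ,
        t4niRho1 O π hπ hN' W1 Fr W hqO O' π' C M g = a ∧
        t4niRho2 O π hπ hN' W1 Fr W hqO O' π' C M g = b ∧
        t4niRho3 O π hπ hN' W1 Fr W hqO O' π' C M g = c) :
    T4nB (t4niA O π hπ hN' W1 Fr W hqO O' π' C M m happrox) k
      ↥(modularFunctionFieldFullC k N') ↥(modularFunctionFieldFullC k N') where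
  rinf := (Units.map (t4niRho1 O π hπ hN' W1 Fr W hqO O' π' C M :
    ↥(t4vInput O π hπ hN' W1 Fr W hqO O' π' C M).Ov →* ↥(modularFunctionFieldFullC k N'))).comp
      (t4niUOv O π hπ hN' W1 Fr W hqO O' π' C M m happrox)
  rmid := (Units.map (t4niRho2 O π hπ hN' W1 Fr W hqO O' π' C M :
    ↥(t4vInput O π hπ hN' W1 Fr W hqO O' π' C M).Ov →* ↥(modularFunctionFieldFullC k N'))).comp
      (t4niUOv O π hπ hN' W1 Fr W hqO O' π' C M m happrox)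
  r0 := (Units.map (t4niRho3 O π hπ hN' W1 Fr W hqO O' π' C M :
    ↥(t4vInput O π hπ hN' W1 Fr W hqO O' π' C M).Ov →* ↥(modularFunctionFieldFullC k N'))).comp
      (t4niUOv O π hπ hN' W1 Fr W hqO O' π' C M m happrox)
  r1inf := (Units.map (t4niRho11 O π hπ hN' W1 Fr :
    ↥(t2iInput O π hπ hN' W1 Fr).Ov →* ↥(modularFunctionFieldFullC k N'))).comp
      (t4niUOv1 O π hπ hN' W1 Fr W hqO O' π' C M m happrox)
  r10 := (Units.map (t4niRho12 O π hπ hN' W1 Fr :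
    ↥(t2iInput O π hπ hN' W1 Fr).Ov →* ↥(modularFunctionFieldFullC k N'))).comp
      (t4niUOv1 O π hπ hN' W1 Fr W hqO O' π' C M m happrox)
  rL := (Units.map (π : ↥O →* k)).comp (t4niUO O π hπ hN' W1 Fr W hqO O' π' C M m happrox)
  κ := Units.map (algebraMap k ↥(modularFunctionFieldFullC k N') :
    k →* ↥(modularFunctionFieldFullC k N'))
  κ1 := Units.map (algebraMap k ↥(modularFunctionFieldFullC k N') :
    k →* ↥(modularFunctionFieldFullC k N'))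
  k_div := fun a => by
    obtain ⟨z, hz⟩ := IsAlgClosed.exists_pow_nat_eq (a : k) (Nat.pos_of_ne_zero hm)
    have hz0 : z ≠ 0 := by
      rintro rfl
      rw [zero_pow hm] at hz
      exact a.ne_zero hz.symm
    exact ⟨Units.mk0 z hz0, Units.ext hz⟩
  r1inf_c := fun c => by
    apply Units.ext
    apply Subtype.ext
    exact (t2iInput O π hπ hN' W1 Fr).ρ₁_algebraMap
      ⟨((c : Lˣ) : L), (t4ni_mem_O_of_mem_UL O π hπ hN' W1 Fr W hqO O' π' C M m happrox c.2).1⟩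
  r10_c := fun c => by
    apply Units.ext
    apply Subtype.ext
    exact (t2iInput O π hπ hN' W1 Fr).ρ₂_algebraMap
      ⟨((c : Lˣ) : L), (t4ni_mem_O_of_mem_UL O π hπ hN' W1 Fr W hqO O' π' C M m happrox c.2).1⟩
  ι := MonoidHom.id _
  Φ := Units.map (Fr.Φ : ↥(modularFunctionFieldFullC k N') →* ↥(modularFunctionFieldFullC k N'))
  ι_κ := fun a => ⟨a, rfl⟩
  Φ_κ := fun a => by
    refine ⟨a, Units.ext (Subtype.ext ?_)⟩
    show ((Fr.Φ (algebraMap k ↥(modularFunctionFieldFullC k N') (a : k)) :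
      ↥(modularFunctionFieldFullC k N')) : LaurentSeries k) = _
    rw [Fr.coe_Φ]
    show qExpand k q (algebraMap k (LaurentSeries k) (a : k)) = algebraMap k (LaurentSeries k) (a : k)
    rw [algebraMap_laurentSeries_eq_single]
    exact qExpand_C (R := k) (N := q) _
  red_α_inf := fun y => by
    apply Units.ext
    apply Subtype.ext
    have hy := t4ni_mem_Ov_of_mem_U O π hπ hN' W1 Fr W hqO O' π' C M m happrox y.2
    exact t4vn_ρ₁_normA O π hπ hN' W1 Fr W hqO O' π' C M hy.1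
      (by rw [← Units.val_inv_eq_inv_val]; exact hy.2) (y : (↥(TaF L (N' * q * q)))ˣ).ne_zero _
  red_α_0 := fun y => by
    apply Units.ext
    apply Subtype.ext
    have hy := t4ni_mem_Ov_of_mem_U O π hπ hN' W1 Fr W hqO O' π' C M m happrox y.2
    show ((Fr.Φ _ : ↥(modularFunctionFieldFullC k N')) : LaurentSeries k) = _
    rw [Fr.coe_Φ]
    exact t4vn_ρ₂_normA O π hπ hN' W1 Fr W hqO O' π' C M hy.1
      (by rw [← Units.val_inv_eq_inv_val]; exact hy.2) (y : (↥(TaF L (N' * q * q)))ˣ).ne_zero _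
  red_β_inf := fun y => by
    apply Units.ext
    apply Subtype.ext
    have hy := t4ni_mem_Ov_of_mem_U O π hπ hN' W1 Fr W hqO O' π' C M m happrox y.2
    show ((Fr.Φ _ : ↥(modularFunctionFieldFullC k N')) : LaurentSeries k) = _
    rw [Fr.coe_Φ]
    exact t4vn_ρ₁_normB O π hπ hN' W1 Fr W hqO O' π' C M hy.1
      (by rw [← Units.val_inv_eq_inv_val]; exact hy.2) (y : (↥(TaF L (N' * q * q)))ˣ).ne_zero _
  red_β_0 := fun y => by
    apply Units.ext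
    apply Subtype.ext
    have hy := t4ni_mem_Ov_of_mem_U O π hπ hN' W1 Fr W hqO O' π' C M m happrox y.2
    exact t4vn_ρ₂_normB O π hπ hN' W1 Fr W hqO O' π' C M hy.1
      (by rw [← Units.val_inv_eq_inv_val]; exact hy.2) (y : (↥(TaF L (N' * q * q)))ˣ).ne_zero _
  approx_r := fun a b c => by
    obtain ⟨g, h1, h2, h3⟩ := hcrt (a : ↥(modularFunctionFieldFullC k N')) b c a.ne_zero b.ne_zero
      c.ne_zero
    have hg0 : (((g : ↥(t4vInput O π hπ hN' W1 Fr W hqO O' π' C M).Ov)) :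
        ↥(TaF L (N' * q * q))) ≠ 0 := by
      intro h0
      have : ((g : ↥(t4vInput O π hπ hN' W1 Fr W hqO O' π' C M).Ov)) = 0 := Subtype.ext h0
      exact g.ne_zero this
    have hginv : ((Units.mk0 _ hg0)⁻¹ : (↥(TaF L (N' * q * q)))ˣ) =
        Units.mk0 (((g⁻¹ : (↥(t4vInput O π hπ hN' W1 Fr W hqO O' π' C M).Ov)ˣ) :
          ↥(t4vInput O π hπ hN' W1 Fr W hqO O' π' C M).Ov) : ↥(TaF L (N' * q * q)))
          (by
            intro h0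
            have : ((g⁻¹ : (↥(t4vInput O π hπ hN' W1 Fr W hqO O' π' C M).Ov)ˣ) :
              ↥(t4vInput O π hπ hN' W1 Fr W hqO O' π' C M).Ov) = 0 := Subtype.ext h0
            exact (g⁻¹).ne_zero this) := by
      apply Units.ext
      rw [Units.val_inv_eq_inv_val, Units.val_mk0, Units.val_mk0]
      apply inv_eq_of_mul_eq_one_right
      exact_mod_cast congrArg (fun x : ↥(t4vInput O π hπ hN' W1 Fr W hqO O' π' C M).Ov =>
        (x : ↥(TaF L (N' * q * q)))) g.mul_inv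
    have hU : Units.mk0 _ hg0 ∈ (t4niA O π hπ hN' W1 Fr W hqO O' π' C M m happrox).U := by
      refine t4ni_mem_U_of_mem_Ov O π hπ hN' W1 Fr W hqO O' π' C M m happrox
        (g : ↥(t4vInput O π hπ hN' W1 Fr W hqO O' π' C M).Ov).2 ?_
      rw [hginv]
      exact ((g⁻¹ : (↥(t4vInput O π hπ hN' W1 Fr W hqO O' π' C M).Ov)ˣ) :
        ↥(t4vInput O π hπ hN' W1 Fr W hqO O' π' C M).Ov).2
    refine ⟨⟨_, hU⟩, Units.ext ?_, Units.ext ?_, Units.ext ?_⟩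
    · exact h1
    · exact h2
    · exact h3
  U1q := t4nU1q (t4vInput O π hπ hN' W1 Fr W hqO O' π' C M).Ov (t4vQ L N' q)
  qgrp := fun z h1 h2 h3 => by
    have hz := t4ni_mem_Ov_of_mem_U O π hπ hN' W1 Fr W hqO O' π' C M m happrox z.2
    obtain ⟨a, ha⟩ := t4ni_qgrp O π hπ hN' W1 Fr W hqO O' π' C M hqm hz.1 hz.2
      (congrArg (fun u : (↥(modularFunctionFieldFullC k N'))ˣ =>
        ((u : ↥(modularFunctionFieldFullC k N')) : LaurentSeries k)) h1)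
      (congrArg (fun u : (↥(modularFunctionFieldFullC k N'))ˣ =>
        ((u : ↥(modularFunctionFieldFullC k N')) : LaurentSeries k)) h2)
      (congrArg (fun u : (↥(modularFunctionFieldFullC k N'))ˣ =>
        ((u : ↥(modularFunctionFieldFullC k N')) : LaurentSeries k)) h3)
    exact ⟨z ^ a, ha⟩

end Inst

end Fermat.Agent.T4
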