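/-
T4-N (helper4), instance of steps A + B, part 5: discharging the hypotheses of `t4niA` / `t4niB`
with lead's elements (`ValElts*.lean`): CRT for unit residues, weak approximation.
-/
import Fermat.Agent.Lib.T4.New.InstB
import Fermat.Agent.Lib.T4.Inst.ValElts2

set_option autoImplicit false
set_option linter.unusedSectionVars false
set_option linter.unusedVariables false
set_option linter.style.haveILetI false

open HahnSeries ModularCurve Fermat.Agent.T1 Fermat.Agent.T2 IntermediateField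

noncomputable section

namespace Fermat.Agent.T4

section Inst

variable {L : Type} [Field L] [Algebra ℚ L] (O : ValuationSubring L) {k : Type} [Field k]
  (π : ↥O →+* k) [IsDiscreteValuationRing ↥O] (hπ : Function.Surjective π) [IsAlgClosed k]
  {N' q : ℕ} [NeZero N'] [hq : Fact q.Prime] [CharP k q] (hN' : (N' : k) ≠ 0)
  (W1 : T2iAL L N' q) (Fr : T2iFrob k N' q) (W : T4iAL L N' q)
  (hqO : Irreducible ((q : ℕ) : ↥O))
  {L' : Type*} [Field L'] [Algebra L L'] (O' : ValuationSubring L')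
  [IsDiscreteValuationRing ↥O'] (π' : ↥O' →+* k) (C : T4iCyc O O' π π' q)
  (M : T4iMid L L' N' q C.ζ)

attribute [local instance] t2iAlgebra t2i_isScalarTower

/-- **CRT for unit residues**, in the shape of `t4niB` -/
theorem t4ni_hcrt (a b c : ↥(modularFunctionFieldFullC k N')) (ha : a ≠ 0) (hb : b ≠ 0)
    (hc : c ≠ 0) :
    ∃ g : (↥(t4vInput O π hπ hN' W1 Fr W hqO O' π' C M).Ov)ˣ,
      t4niRho1 O π hπ hN' W1 Fr W hqO O' π' C M g = a ∧
      t4niRho2 O π hπ hN' W1 Fr W hqO O' π' C M g = b ∧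
      t4niRho3 O π hπ hN' W1 Fr W hqO O' π' C M g = c := by
  obtain ⟨g, hg, h1, h2, h3⟩ := t4ve_crt_unit O π hπ hN' W1 Fr W hqO O' π' C M a.2 b.2 c.2
    (fun h => ha (Subtype.ext h)) (fun h => hb (Subtype.ext h)) (fun h => hc (Subtype.ext h))
  have hg0 : (g : ↥(TaF L (N' * q * q))) ≠ 0 := by
    intro h0
    apply ha
    apply Subtype.ext
    have : g = 0 := Subtype.ext h0
    rw [← h1, this, map_zero]
    rfl
  refine ⟨⟨g, ⟨_, hg⟩, Subtype.ext (mul_inv_cancel₀ hg0), Subtype.ext (inv_mul_cancel₀ hg0)⟩,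
    Subtype.ext h1, Subtype.ext h2, Subtype.ext h3⟩

/-- **weak approximation**, in the shape of `t4niA`, from decompositions at the three places -/
theorem t4ni_happrox_of
    (h : ∀ a b c : ℤ, ∃ g : ↥(TaF L (N' * q * q)), g ≠ 0 ∧
      (∃ u, u ∈ t4vOinf (N' := N') (q := q) O π hπ ∧ u⁻¹ ∈ t4vOinf (N' := N') (q := q) O π hπ ∧
        g = t4vQ L N' q ^ a * u) ∧
      (∃ u, u ∈ t4vOmid O π hπ O' π' C M ∧ u⁻¹ ∈ t4vOmid O π hπ O' π' C M ∧
        g = t4vPi L N' q ^ b * u) ∧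
      (∃ u, u ∈ t4vO0 O π hπ W ∧ u⁻¹ ∈ t4vO0 O π hπ W ∧ g = t4vQ L N' q ^ c * u))
    (a b c : ℤ) : ∃ g : (↥(TaF L (N' * q * q)))ˣ,
      t4niVinf O π hπ hqO (N' := N') (Additive.ofMul g) = a ∧
      t4niVmid O π hπ O' π' C M (Additive.ofMul g) = b ∧
      t4niV0 O π hπ W hqO (Additive.ofMul g) = c := by
  obtain ⟨g, hg0, ⟨u1, hu1, hu1', e1⟩, ⟨u2, hu2, hu2', e2⟩, ⟨u3, hu3, hu3', e3⟩⟩ := h a b c
  exact ⟨Units.mk0 g hg0, (t4ni_unif_inf O π hπ (N' := N') hqO).ord_eq hu1 hu1' e1,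
    (t4ni_unif_mid O π hπ O' π' C M).ord_eq hu2 hu2' e2,
    (t4ni_unif_zero O π hπ W hqO).ord_eq hu3 hu3' e3⟩

end Inst

end Fermat.Agent.T4
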