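/-
T4-N (helper4), steps A + B, part 6: **the constants of the two norm relations**.

For a unit `z` all of whose residues are `1` (e.g. `z ≡ 1` modulo `q`) with
`N_α z = constant × m-th power`: one can write `N_α z = c · f ^ m` with `c` a unit constant with
residue `1`, `f` a unit with residue `1` on the split side (`V¹_inf`) and with residue a constant
`a ∈ kˣ`, `a ^ m = 1`, on the Frobenius side (`V¹_0`).  Symmetrically for `N_β` (split side `V¹_0`).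
Needed: the residue fields of the lower level contain no new `m`-th roots of constants (`k`
algebraically closed in `E1`), `ι`, `Φ`, `κ1` injective, `rL` surjective.
-/
import Mathlib
import Fermat.Agent.Lib.T4.New.StepB

set_option autoImplicit false
set_option linter.unusedSectionVars false
set_option linter.unusedVariables false

namespace Fermat.Agent.T4

variable {L F1 F : Type} [Field L] [Field F1] [Field F] {q m : ℕ} (D : T4nA L F1 F q m)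
  {k E1 E : Type} [Field k] [Field E1] [Field E] (B : T4nB D k E1 E)

/-- abstract form: `x = c · g ^ m` a unit of the lower level with `r¹_a x = 1 = r¹_b x`; then
`x = c' · g' ^ m` with `rL c' = 1`, `r¹_a g' = 1`, `r¹_b g' = κ1 a`, `a ^ m = 1` -/
theorem T4nB.norm_const_aux (hm : m ≠ 0) (hκ1 : Function.Injective B.κ1)
    (hrL : Function.Surjective B.rL)
    (hcl : ∀ e : E1ˣ, (∃ a : kˣ, e ^ m = B.κ1 a) → ∃ b : kˣ, e = B.κ1 b)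
    (ra rb : ↥D.U1 →* E1ˣ)
    (ra_c : ∀ c : ↥D.UL, ra ⟨D.cF1 c, D.cF1_mem_U1 c.2⟩ = B.κ1 (B.rL c))
    (rb_c : ∀ c : ↥D.UL, rb ⟨D.cF1 c, D.cF1_mem_U1 c.2⟩ = B.κ1 (B.rL c))
    {x : F1ˣ} (hx : x ∈ D.U1) (hxa : ra ⟨x, hx⟩ = 1) (hxb : rb ⟨x, hx⟩ = 1)
    (h : ∃ (c : Lˣ) (g : F1ˣ), x = D.cF1 c * g ^ m) :
    ∃ (c : ↥D.UL) (g : ↥D.U1) (a : kˣ), x = D.cF1 c * (g : F1ˣ) ^ m ∧ B.rL c = 1 ∧ ra g = 1 ∧
      rb g = B.κ1 a ∧ a ^ m = 1 := by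
  obtain ⟨c, g, hc, hg, hxe⟩ := D.normalise hm hx h
  set cU : ↥D.UL := ⟨c, hc⟩
  set gU : ↥D.U1 := ⟨g, hg⟩
  have hxU : (⟨x, hx⟩ : ↥D.U1) = ⟨D.cF1 cU, D.cF1_mem_U1 cU.2⟩ * gU ^ m := Subtype.ext hxe
  -- the residue of `g` on the side `a` is a constant
  have h1 : B.κ1 (B.rL cU) * ra gU ^ m = 1 := by
    rw [← ra_c, ← map_pow, ← map_mul, ← hxU, hxa]
  obtain ⟨b, hb⟩ := hcl (ra gU) ⟨(B.rL cU)⁻¹, by rw [map_inv, eq_inv_iff_mul_eq_one, mul_comm, h1]⟩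
  obtain ⟨c₁, hc₁⟩ := hrL b
  -- rescale
  set c' : ↥D.UL := cU * c₁ ^ m with hc'
  set g' : ↥D.U1 := gU * (⟨D.cF1 c₁, D.cF1_mem_U1 c₁.2⟩ : ↥D.U1)⁻¹ with hg'
  have hxe' : x = D.cF1 c' * (g' : F1ˣ) ^ m := by
    rw [hxe, hc', hg']
    simp only [Subgroup.coe_mul, Subgroup.coe_pow, Subgroup.coe_inv, map_mul, map_pow, mul_pow,
      inv_pow]
    show D.cF1 c * g ^ m = D.cF1 c * D.cF1 (c₁ : Lˣ) ^ m * (g ^ m * (D.cF1 (c₁ : Lˣ) ^ m)⁻¹)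
    rw [mul_assoc, mul_left_comm (D.cF1 (c₁ : Lˣ) ^ m), mul_inv_cancel, mul_one]
  have hra : ra g' = 1 := by
    rw [hg', map_mul, map_inv, ra_c, hc₁, hb, mul_inv_cancel]
  have hrL' : B.rL c' = 1 := by
    apply hκ1
    rw [hc', map_mul, map_pow, hc₁, map_mul, map_pow, ← hb, h1, map_one]
  have hxU' : (⟨x, hx⟩ : ↥D.U1) = ⟨D.cF1 c', D.cF1_mem_U1 c'.2⟩ * g' ^ m := Subtype.ext hxe'
  have h2 : rb g' ^ m = 1 := by
    have := hxb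
    rw [hxU', map_mul, map_pow, rb_c, hrL', map_one, one_mul] at this
    exact this
  obtain ⟨a, ha⟩ := hcl (rb g') ⟨1, by rw [h2, map_one]⟩
  refine ⟨c', g', a, hxe', hrL', hra, ha, ?_⟩
  apply hκ1
  rw [map_pow, ← ha, h2, map_one]

/-- **the constants of the `α`-relation**: `N_α z = c · f ^ m`, `f ≡ 1` on `V¹_inf`, `f ≡ a` on
`V¹_0`, `c ≡ 1`, `a ^ m = 1` -/
theorem T4nB.norm_const_α (hm : m ≠ 0) (hκ1 : Function.Injective B.κ1)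
    (hrL : Function.Surjective B.rL)
    (hcl : ∀ e : E1ˣ, (∃ a : kˣ, e ^ m = B.κ1 a) → ∃ b : kˣ, e = B.κ1 b)
    (hι : Function.Injective B.ι) (hΦ : Function.Injective B.Φ)
    (z : ↥D.U) (h1 : B.rinf z = 1) (h2 : B.rmid z = 1) (h3 : B.r0 z = 1)
    (hα : ∃ (c : Lˣ) (g : F1ˣ), D.Nα z = D.cF1 c * g ^ m) :
    ∃ (c : ↥D.UL) (g : ↥D.U1) (a : kˣ), D.Nα z = D.cF1 c * (g : F1ˣ) ^ m ∧ B.rL c = 1 ∧
      B.r1inf g = 1 ∧ B.r10 g = B.κ1 a ∧ a ^ m = 1 := by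
  refine B.norm_const_aux D hm hκ1 hrL hcl B.r1inf B.r10 B.r1inf_c B.r10_c (D.Nα_mem_U1 z.2)
    ?_ ?_ hα
  · apply hι
    rw [B.red_α_inf z, h1, h2, one_pow, mul_one, map_one]
  · apply hΦ
    rw [B.red_α_0 z, h3, one_pow, map_one]

/-- **the constants of the `β`-relation**: `N_β z = c · f ^ m`, `f ≡ 1` on `V¹_0`, `f ≡ a` on
`V¹_inf`, `c ≡ 1`, `a ^ m = 1` -/
theorem T4nB.norm_const_β (hm : m ≠ 0) (hκ1 : Function.Injective B.κ1)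
    (hrL : Function.Surjective B.rL)
    (hcl : ∀ e : E1ˣ, (∃ a : kˣ, e ^ m = B.κ1 a) → ∃ b : kˣ, e = B.κ1 b)
    (hι : Function.Injective B.ι) (hΦ : Function.Injective B.Φ)
    (z : ↥D.U) (h1 : B.rinf z = 1) (h2 : B.rmid z = 1) (h3 : B.r0 z = 1)
    (hβ : ∃ (c : Lˣ) (g : F1ˣ), D.Nβ z = D.cF1 c * g ^ m) :
    ∃ (c : ↥D.UL) (g : ↥D.U1) (a : kˣ), D.Nβ z = D.cF1 c * (g : F1ˣ) ^ m ∧ B.rL c = 1 ∧
      B.r10 g = 1 ∧ B.r1inf g = B.κ1 a ∧ a ^ m = 1 := by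
  refine B.norm_const_aux D hm hκ1 hrL hcl B.r10 B.r1inf B.r10_c B.r1inf_c (D.Nβ_mem_U1 z.2)
    ?_ ?_ hβ
  · apply hι
    rw [B.red_β_0 z, h2, h3, one_pow, mul_one, map_one]
  · apply hΦ
    rw [B.red_β_inf z, h1, one_pow, map_one]

end Fermat.Agent.T4
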