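/-
T4-N (helper4), instance of steps A + B, part 6: **the unconditional instance** (lead's
`t4ve_approx`, `t4ve_crt_unit` plugged in), the hypotheses of `T4nB.norm_const_α/β` for it, and the
**normalised constants of the two norm relations in valuation form** (the input of the step-C
instance): for `z ≡ 1 (mod q 𝒪)` with `N_α z`, `N_β z` constant × `m`-th powers,
`N_α z = c · f ^ m` with `c ∈ O^×`, `π c = 1`, `f ≡ 1` at `V¹_inf`, `f ≡ a` at `V¹_0`, `a ∈ O`,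
`π (a ^ m) = 1`, and symmetrically for `β`.
-/
import Fermat.Agent.Lib.T4.New.InstFull
import Fermat.Agent.Lib.T4.New.NormConst
import Fermat.Agent.Lib.T4.Inst.ValElts3
import Fermat.Agent.Lib.T4.Inst.ValRes
import Fermat.Agent.Lib.T4.Inst.NormCong

set_option autoImplicit false
set_option linter.unusedSectionVars false
set_option linter.unusedVariables false
set_option linter.style.haveILetI false

open HahnSeries ModularCurve Fermat.Agent.T1 Fermat.Agent.T2 IntermediateField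

noncomputable section

namespace Fermat.Agent.T4

section Inst

variable {L : Type} [Field L] [Algebra ℚ L] (O : ValuationSubring L) {k : Type} [Field k]
  (π : ↥O →+* k) [IsDiscreteValuationRing ↥O] (hπ : Function.Surjective π) [IsAlgClosed k]
  {N' q : ℕ} [NeZero N'] [hq : Fact q.Prime] [CharP k q] (hN' : (N' : k) ≠ 0)
  (W1 : T2iAL L N' q) (Fr : T2iFrob k N' q) (W : T4iAL L N' q)
  (hqO : Irreducible ((q : ℕ) : ↥O))
  {L' : Type*} [Field L'] [Algebra L L'] (O' : ValuationSubring L')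
  [IsDiscreteValuationRing ↥O'] (π' : ↥O' →+* k) (C : T4iCyc O O' π π' q)
  (M : T4iMid L L' N' q C.ζ) (m : ℕ)

attribute [local instance] t2iAlgebra t2i_isScalarTower

include hN' W1 Fr in
/-- **weak approximation** at the three verticals -/
theorem t4ni_happrox (a b c : ℤ) : ∃ g : (↥(TaF L (N' * q * q)))ˣ,
    t4niVinf O π hπ hqO (N' := N') (Additive.ofMul g) = a ∧
    t4niVmid O π hπ O' π' C M (Additive.ofMul g) = b ∧
    t4niV0 O π hπ W hqO (Additive.ofMul g) = c :=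
  t4ni_happrox_of O π hπ W hqO O' π' C M (t4ve_approx O π hπ hN' W1 Fr W hqO O' π' C M) a b c

/-- **the instance of `T4nA`** on the three-valuation base -/
abbrev t4niAU : T4nA L ↥(TaF L (N' * q)) ↥(TaF L (N' * q * q)) q m :=
  t4niA O π hπ hN' W1 Fr W hqO O' π' C M m (t4ni_happrox O π hπ hN' W1 Fr W hqO O' π' C M)

/-- **the instance of `T4nB`** on the three-valuation base -/
abbrev t4niBU (hm : m ≠ 0) (hqm : Nat.Coprime m q) :
    T4nB (t4niAU O π hπ hN' W1 Fr W hqO O' π' C M m) k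
      ↥(modularFunctionFieldFullC k N') ↥(modularFunctionFieldFullC k N') :=
  t4niB O π hπ hN' W1 Fr W hqO O' π' C M m (t4ni_happrox O π hπ hN' W1 Fr W hqO O' π' C M) hm hqm
    (t4ni_hcrt O π hπ hN' W1 Fr W hqO O' π' C M)

/-! ### The hypotheses of `T4nB.norm_const_α/β` -/

/-- `k` is algebraically closed in `E'` -/
theorem t4ni_hcl (hm : m ≠ 0) (e : (↥(modularFunctionFieldFullC k N'))ˣ)
    (h : ∃ a : kˣ, e ^ m = Units.map (algebraMap k ↥(modularFunctionFieldFullC k N') :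
      k →* ↥(modularFunctionFieldFullC k N')) a) :
    ∃ b : kˣ, e = Units.map (algebraMap k ↥(modularFunctionFieldFullC k N') :
      k →* ↥(modularFunctionFieldFullC k N')) b := by
  obtain ⟨a, ha⟩ := h
  have hea : (e : ↥(modularFunctionFieldFullC k N')) ^ m =
      algebraMap k ↥(modularFunctionFieldFullC k N') (a : k) := by
    have := congrArg (fun u : (↥(modularFunctionFieldFullC k N'))ˣ =>
      (u : ↥(modularFunctionFieldFullC k N'))) ha
    simpa using this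
  have hint : IsIntegral k (e : ↥(modularFunctionFieldFullC k N')) := by
    refine ⟨Polynomial.X ^ m - Polynomial.C (a : k), Polynomial.monic_X_pow_sub_C _ hm, ?_⟩
    rw [Polynomial.eval₂_sub, Polynomial.eval₂_pow, Polynomial.eval₂_X, Polynomial.eval₂_C, hea,
      sub_self]
  have hdeg := IsAlgClosed.degree_eq_one_of_irreducible k (minpoly.irreducible hint)
  obtain ⟨b, hb⟩ := minpoly.mem_range_of_degree_eq_one k
    (e : ↥(modularFunctionFieldFullC k N')) hdeg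
  have hb0 : b ≠ 0 := by
    rintro rfl
    rw [map_zero] at hb
    exact e.ne_zero hb.symm
  exact ⟨Units.mk0 b hb0, Units.ext hb.symm⟩

include hπ hqO in
/-- an element of `O` with nonzero residue is a unit -/
theorem t4ni_inv_mem_of_pi_ne {c : ↥O} (hc : π c ≠ 0) : ((c : L))⁻¹ ∈ O := by
  have hcu : IsUnit c := by
    by_contra hnu
    have hmem : c ∈ IsLocalRing.maximalIdeal ↥O := (IsLocalRing.mem_maximalIdeal c).mpr hnu
    rw [hqO.maximalIdeal_eq, Ideal.mem_span_singleton] at hmem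
    exact hc ((ta_pi_eq_zero_iff hπ hqO c).mpr hmem)
  obtain ⟨u, hu⟩ := hcu
  have h1 : (c : L) * (((u⁻¹ : (↥O)ˣ) : ↥O) : L) = 1 := by
    rw [← hu]
    exact_mod_cast congrArg (fun x : ↥O => (x : L)) u.mul_inv
  rw [inv_eq_of_mul_eq_one_right h1]
  exact ((u⁻¹ : (↥O)ˣ) : ↥O).2

/-- `rL` is surjective -/
theorem t4ni_hrL (hm : m ≠ 0) (hqm : Nat.Coprime m q) :
    Function.Surjective (t4niBU O π hπ hN' W1 Fr W hqO O' π' C M m hm hqm).rL := by
  intro a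
  obtain ⟨c, hc⟩ := hπ (a : k)
  have hca : π c ≠ 0 := by rw [hc]; exact a.ne_zero
  have hc0 : (c : L) ≠ 0 := by
    intro h0
    apply hca
    have : c = 0 := Subtype.ext h0
    rw [this, map_zero]
  have hinv := t4ni_inv_mem_of_pi_ne O π hπ hqO hca
  have hmemUL : Units.mk0 (c : L) hc0 ∈ (t4niAU O π hπ hN' W1 Fr W hqO O' π' C M m).UL :=
    ((t4ni_unif_L O (q := q) hqO).unit_iff_ord_eq_zero (Units.mk0 (c : L) hc0)).mp
      ⟨c.2, by rw [Units.val_inv_eq_inv_val]; exact hinv⟩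
  refine ⟨⟨Units.mk0 (c : L) hc0, hmemUL⟩, Units.ext ?_⟩
  exact hc

/-! ### Residues of elements `≡ 1 (mod q 𝒪)` -/

/-- the three residues of `q` vanish -/
theorem t4ni_rho_Q :
    t4niRho1 O π hπ hN' W1 Fr W hqO O' π' C M
        ⟨t4vQ L N' q, t4vQ_mem_Ov O π hπ hN' W1 Fr W hqO O' π' C M⟩ = 0 ∧
      t4niRho2 O π hπ hN' W1 Fr W hqO O' π' C M
        ⟨t4vQ L N' q, t4vQ_mem_Ov O π hπ hN' W1 Fr W hqO O' π' C M⟩ = 0 ∧
      t4niRho3 O π hπ hN' W1 Fr W hqO O' π' C M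
        ⟨t4vQ L N' q, t4vQ_mem_Ov O π hπ hN' W1 Fr W hqO O' π' C M⟩ = 0 := by
  refine ⟨Subtype.ext ?_, Subtype.ext ?_, Subtype.ext ?_⟩
  · rw [coe_t4niRho1]
    exact (t4vr_ρ₁_eq_zero_iff O π hπ hN' W1 Fr W hqO O' π' C M _).mpr
      (t4vOinf_valuation_q O π hπ hqO)
  · rw [coe_t4niRho2]
    exact (t4vr_ρ₂_eq_zero_iff O π hπ hN' W1 Fr W hqO O' π' C M _).mpr
      (t4vOmid_valuation_q O π hπ O' π' C M)
  · rw [coe_t4niRho3]
    exact (t4vr_ρ₃_eq_zero_iff O π hπ hN' W1 Fr W hqO O' π' C M _).mpr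
      (t4vO0_valuation_q O π hπ W hqO)

/-- the three residues of an element `≡ 1 (mod q 𝒪)` are `1` -/
theorem t4ni_rho_eq_one {x : ↥(TaF L (N' * q * q))}
    (hx : x ∈ (t4vInput O π hπ hN' W1 Fr W hqO O' π' C M).Ov)
    (h : ∃ o ∈ (t4vInput O π hπ hN' W1 Fr W hqO O' π' C M).Ov, x - 1 = t4vQ L N' q * o) :
    t4niRho1 O π hπ hN' W1 Fr W hqO O' π' C M ⟨x, hx⟩ = 1 ∧
      t4niRho2 O π hπ hN' W1 Fr W hqO O' π' C M ⟨x, hx⟩ = 1 ∧
      t4niRho3 O π hπ hN' W1 Fr W hqO O' π' C M ⟨x, hx⟩ = 1 := by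
  obtain ⟨o, ho, hxo⟩ := h
  have e : (⟨x, hx⟩ : ↥(t4vInput O π hπ hN' W1 Fr W hqO O' π' C M).Ov) =
      1 + ⟨t4vQ L N' q, t4vQ_mem_Ov O π hπ hN' W1 Fr W hqO O' π' C M⟩ * ⟨o, ho⟩ := by
    apply Subtype.ext
    show x = 1 + t4vQ L N' q * o
    rw [← hxo]
    ring
  obtain ⟨q1, q2, q3⟩ := t4ni_rho_Q O π hπ hN' W1 Fr W hqO O' π' C M
  refine ⟨?_, ?_, ?_⟩
  · rw [e, map_add, map_mul, map_one, q1, zero_mul, add_zero]
  · rw [e, map_add, map_mul, map_one, q2, zero_mul, add_zero]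
  · rw [e, map_add, map_mul, map_one, q3, zero_mul, add_zero]

/-! ### Residues at level `N' q` versus valuations -/

/-- constant residue at `V¹_inf` in valuation form -/
theorem t4ni_val_inf1_of_rho {x : ↥(TaF L (N' * q))} (hx : x ∈ (t2iInput O π hπ hN' W1 Fr).Ov)
    (c : ↥O)
    (h : t4niRho11 O π hπ hN' W1 Fr ⟨x, hx⟩ =
      algebraMap k ↥(modularFunctionFieldFullC k N') (π c)) :
    (taOv O π hπ (N' * q)).valuation (x - algebraMap L ↥(TaF L (N' * q)) (c : L)) < 1 := by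
  have h' : (t2iInput O π hπ hN' W1 Fr).ρ₁ ⟨x, hx⟩ =
      (t2iInput O π hπ hN' W1 Fr).ρ₁ ⟨algebraMap L ↥(TaF L (N' * q)) (c : L),
        (t2iInput O π hπ hN' W1 Fr).algebraMap_mem_Ov c⟩ := by
    rw [(t2iInput O π hπ hN' W1 Fr).ρ₁_algebraMap c, ← coe_t4niRho11, h]
    rfl
  exact t4vn_valuation_sub_lt_of_rho_eq (taOv O π hπ (N' * q)) (t4vnCoe L (N' * q))
    (t4vn_hV_inf O π hπ (N' * q)) hx.1
    ((t2iInput O π hπ hN' W1 Fr).algebraMap_mem_Ov c).1 h'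

/-- constant residue at `V¹_0` in valuation form -/
theorem t4ni_val_zero1_of_rho {x : ↥(TaF L (N' * q))} (hx : x ∈ (t2iInput O π hπ hN' W1 Fr).Ov)
    (c : ↥O)
    (h : t4niRho12 O π hπ hN' W1 Fr ⟨x, hx⟩ =
      algebraMap k ↥(modularFunctionFieldFullC k N') (π c)) :
    (t4vnO10 O π hπ W1).valuation (x - algebraMap L ↥(TaF L (N' * q)) (c : L)) < 1 := by
  have h' : (t2iInput O π hπ hN' W1 Fr).ρ₂ ⟨x, hx⟩ =
      (t2iInput O π hπ hN' W1 Fr).ρ₂ ⟨algebraMap L ↥(TaF L (N' * q)) (c : L),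
        (t2iInput O π hπ hN' W1 Fr).algebraMap_mem_Ov c⟩ := by
    rw [(t2iInput O π hπ hN' W1 Fr).ρ₂_algebraMap c, ← coe_t4niRho12, h]
    rfl
  exact t4vn_valuation_sub_lt_of_rho_eq (t4vnO10 O π hπ W1) (t4vnCoeW1 W1)
    (t4vn_hV_10 O π hπ W1) hx.2
    ((t2iInput O π hπ hN' W1 Fr).algebraMap_mem_Ov c).2 h'

/-! ### The normalised constants of the two norm relations -/

/-- an element of `U1q` lies in `D.U` with residues `(1, 1, 1)` -/
theorem t4ni_U1q_mem_U (hm : m ≠ 0) (hqm : Nat.Coprime m q) {z : (↥(TaF L (N' * q * q)))ˣ}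
    (hz : z ∈ t4nU1q (t4vInput O π hπ hN' W1 Fr W hqO O' π' C M).Ov (t4vQ L N' q)) :
    ∃ hzU : z ∈ (t4niAU O π hπ hN' W1 Fr W hqO O' π' C M m).U,
      (t4niBU O π hπ hN' W1 Fr W hqO O' π' C M m hm hqm).rinf ⟨z, hzU⟩ = 1 ∧
      (t4niBU O π hπ hN' W1 Fr W hqO O' π' C M m hm hqm).rmid ⟨z, hzU⟩ = 1 ∧
      (t4niBU O π hπ hN' W1 Fr W hqO O' π' C M m hm hqm).r0 ⟨z, hzU⟩ = 1 := by
  obtain ⟨hzO, hzO', hz1⟩ := mem_t4nU1q.mp hz
  obtain ⟨r1, r2, r3⟩ := t4ni_rho_eq_one O π hπ hN' W1 Fr W hqO O' π' C M hzO hz1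
  exact ⟨t4ni_mem_U_of_mem_Ov O π hπ hN' W1 Fr W hqO O' π' C M m _ hzO hzO',
    Units.ext r1, Units.ext r2, Units.ext r3⟩

/-- conversion of the output of `norm_const_aux` -/
theorem t4ni_consts_conv (hm : m ≠ 0) (hqm : Nat.Coprime m q) {x : ↥(TaF L (N' * q))}
    (c : ↥(t4niAU O π hπ hN' W1 Fr W hqO O' π' C M m).UL)
    (g : ↥(t4niAU O π hπ hN' W1 Fr W hqO O' π' C M m).U1) (a : kˣ)
    (hx : x = (((t4niAU O π hπ hN' W1 Fr W hqO O' π' C M m).cF1 (c : Lˣ) *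
      (g : (↥(TaF L (N' * q)))ˣ) ^ m : (↥(TaF L (N' * q)))ˣ) : ↥(TaF L (N' * q))))
    (hc : (t4niBU O π hπ hN' W1 Fr W hqO O' π' C M m hm hqm).rL c = 1) (ham : a ^ m = 1) :
    ∃ (c' : L) (a' : ↥O) (hc' : c' ∈ O), c'⁻¹ ∈ O ∧ π ⟨c', hc'⟩ = 1 ∧
      x = algebraMap L ↥(TaF L (N' * q)) c' *
        (((g : (↥(TaF L (N' * q)))ˣ) : ↥(TaF L (N' * q)))) ^ m ∧
      π a' = (a : k) ∧ π (a' ^ m) = 1 := by
  obtain ⟨a', ha'⟩ := hπ (a : k)
  have hcO := t4ni_mem_O_of_mem_UL O π hπ hN' W1 Fr W hqO O' π' C M m _ c.2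
  refine ⟨(((c : Lˣ)) : L), a', hcO.1, ?_, ?_, ?_, ha', ?_⟩
  · rw [← Units.val_inv_eq_inv_val]
    exact hcO.2
  · exact congrArg (fun u : kˣ => (u : k)) hc
  · rw [hx]
    rfl
  · rw [map_pow, ha', ← Units.val_pow_eq_pow_val, ham, Units.val_one]

/-- **the normalised constants of the two norm relations, in valuation form**: for
`z ≡ 1 (mod q 𝒪)` with `N_α z`, `N_β z` constants times `m`-th powers -/
theorem t4ni_norm_consts (hm : m ≠ 0) (hqm : Nat.Coprime m q) {z : (↥(TaF L (N' * q * q)))ˣ}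
    (hz : z ∈ t4nU1q (t4vInput O π hπ hN' W1 Fr W hqO O' π' C M).Ov (t4vQ L N' q))
    (hα : ∃ (c : Lˣ) (g : (↥(TaF L (N' * q)))ˣ),
      (t4niAU O π hπ hN' W1 Fr W hqO O' π' C M m).Nα z =
        (t4niAU O π hπ hN' W1 Fr W hqO O' π' C M m).cF1 c * g ^ m)
    (hβ : ∃ (c : Lˣ) (g : (↥(TaF L (N' * q)))ˣ),
      (t4niAU O π hπ hN' W1 Fr W hqO O' π' C M m).Nβ z =
        (t4niAU O π hπ hN' W1 Fr W hqO O' π' C M m).cF1 c * g ^ m) :
    (∃ (c : L) (f : ↥(TaF L (N' * q))) (a : ↥O) (hc : c ∈ O), c⁻¹ ∈ O ∧ π ⟨c, hc⟩ = 1 ∧ f ≠ 0 ∧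
        t4vnNormA L N' q (z : ↥(TaF L (N' * q * q))) = algebraMap L ↥(TaF L (N' * q)) c * f ^ m ∧
        (taOv O π hπ (N' * q)).valuation (f - 1) < 1 ∧
        (t4vnO10 O π hπ W1).valuation (f - algebraMap L ↥(TaF L (N' * q)) (a : L)) < 1 ∧
        π (a ^ m) = 1) ∧
    (∃ (c : L) (f : ↥(TaF L (N' * q))) (a : ↥O) (hc : c ∈ O), c⁻¹ ∈ O ∧ π ⟨c, hc⟩ = 1 ∧ f ≠ 0 ∧
        t4vnNormB L N' q (z : ↥(TaF L (N' * q * q))) = algebraMap L ↥(TaF L (N' * q)) c * f ^ m ∧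
        (t4vnO10 O π hπ W1).valuation (f - 1) < 1 ∧
        (taOv O π hπ (N' * q)).valuation (f - algebraMap L ↥(TaF L (N' * q)) (a : L)) < 1 ∧
        π (a ^ m) = 1) := by
  obtain ⟨hzU, h1, h2, h3⟩ := t4ni_U1q_mem_U O π hπ hN' W1 Fr W hqO O' π' C M m hm hqm hz
  have hκ1 : Function.Injective (t4niBU O π hπ hN' W1 Fr W hqO O' π' C M m hm hqm).κ1 :=
    Units.map_injective (algebraMap k ↥(modularFunctionFieldFullC k N')).injective
  have hΦ : Function.Injective (t4niBU O π hπ hN' W1 Fr W hqO O' π' C M m hm hqm).Φ :=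
    Units.map_injective Fr.Φ.injective
  have hι : Function.Injective (t4niBU O π hπ hN' W1 Fr W hqO O' π' C M m hm hqm).ι :=
    fun _ _ h => h
  have hone : algebraMap k ↥(modularFunctionFieldFullC k N') (π (1 : ↥O)) = 1 := by
    rw [map_one, map_one]
  have hone' : algebraMap L ↥(TaF L (N' * q)) (((1 : ↥O)) : L) = 1 := by
    rw [OneMemClass.coe_one, map_one]
  constructor
  · obtain ⟨c, g, a, e, hc, hg1, hg2, ham⟩ :=
      (t4niBU O π hπ hN' W1 Fr W hqO O' π' C M m hm hqm).norm_const_α _ hm hκ1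
        (t4ni_hrL O π hπ hN' W1 Fr W hqO O' π' C M m hm hqm) (t4ni_hcl m hm) hι hΦ ⟨z, hzU⟩
        h1 h2 h3 hα
    obtain ⟨c', a', hc', hci, hπc, hx, ha', ham'⟩ :=
      t4ni_consts_conv O π hπ hN' W1 Fr W hqO O' π' C M m hm hqm
        (x := t4vnNormA L N' q (z : ↥(TaF L (N' * q * q)))) c g a
        (congrArg (fun u : (↥(TaF L (N' * q)))ˣ => (u : ↥(TaF L (N' * q)))) e) hc ham
    have hgO := t4ni_mem_Ov1_of_mem_U1 O π hπ hN' W1 Fr W hqO O' π' C M m _ g.2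
    refine ⟨c', ((g : (↥(TaF L (N' * q)))ˣ) : ↥(TaF L (N' * q))), a', hc', hci, hπc,
      (g : (↥(TaF L (N' * q)))ˣ).ne_zero, hx, ?_, ?_, ham'⟩
    · have := t4ni_val_inf1_of_rho O π hπ hN' W1 Fr hgO.1 1
        (by rw [hone]; exact congrArg (fun u : (↥(modularFunctionFieldFullC k N'))ˣ =>
          (u : ↥(modularFunctionFieldFullC k N'))) hg1)
      rwa [hone'] at this
    · exact t4ni_val_zero1_of_rho O π hπ hN' W1 Fr hgO.1 a'
        (by rw [ha']; exact congrArg (fun u : (↥(modularFunctionFieldFullC k N'))ˣ =>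
          (u : ↥(modularFunctionFieldFullC k N'))) hg2)
  · obtain ⟨c, g, a, e, hc, hg1, hg2, ham⟩ :=
      (t4niBU O π hπ hN' W1 Fr W hqO O' π' C M m hm hqm).norm_const_β _ hm hκ1
        (t4ni_hrL O π hπ hN' W1 Fr W hqO O' π' C M m hm hqm) (t4ni_hcl m hm) hι hΦ ⟨z, hzU⟩
        h1 h2 h3 hβ
    obtain ⟨c', a', hc', hci, hπc, hx, ha', ham'⟩ :=
      t4ni_consts_conv O π hπ hN' W1 Fr W hqO O' π' C M m hm hqm
        (x := t4vnNormB L N' q (z : ↥(TaF L (N' * q * q)))) c g a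
        (congrArg (fun u : (↥(TaF L (N' * q)))ˣ => (u : ↥(TaF L (N' * q)))) e) hc ham
    have hgO := t4ni_mem_Ov1_of_mem_U1 O π hπ hN' W1 Fr W hqO O' π' C M m _ g.2
    refine ⟨c', ((g : (↥(TaF L (N' * q)))ˣ) : ↥(TaF L (N' * q))), a', hc', hci, hπc,
      (g : (↥(TaF L (N' * q)))ˣ).ne_zero, hx, ?_, ?_, ham'⟩
    · have := t4ni_val_zero1_of_rho O π hπ hN' W1 Fr hgO.1 1
        (by rw [hone]; exact congrArg (fun u : (↥(modularFunctionFieldFullC k N'))ˣ =>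
          (u : ↥(modularFunctionFieldFullC k N'))) hg1)
      rwa [hone'] at this
    · exact t4ni_val_inf1_of_rho O π hπ hN' W1 Fr hgO.1 a'
        (by rw [ha']; exact congrArg (fun u : (↥(modularFunctionFieldFullC k N'))ˣ =>
          (u : ↥(modularFunctionFieldFullC k N'))) hg2)

end Inst

end Fermat.Agent.T4
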