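/-
T4-N (helper4), **top assembly**: the instance `(D, B)` of steps A + B at the inertia level, the
contract `T4niStepC` for the step-C instance (helper5), and
`T4niStepC at the inertia level ⟹ T4nCoreAt 𝔓 N'' h` (via helper3's `t4n_coreAt_of_inst`).
-/
import Fermat.Agent.Lib.T4.New.InstU
import Fermat.Agent.Lib.T4.New.Export
import Fermat.Agent.Lib.T4.New.CoreOf
import Fermat.Agent.Lib.T4.Inst.CycData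

set_option autoImplicit false
set_option linter.unusedSectionVars false
set_option linter.unusedVariables false
set_option linter.style.haveILetI false

open HahnSeries ModularCurve Module AlgebraicCurve IntermediateField Fermat.Agent.Curve
  Fermat.Agent.T1 Fermat.Agent.T2 Fermat.Agent.TW Fermat.Agent.S05Lib

noncomputable section

namespace Fermat.Agent.T4

local notation "Qb" => AlgebraicClosure ℚ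

section Contract

variable {L : Type} [Field L] [Algebra ℚ L] (O : ValuationSubring L) {k : Type} [Field k]
  (π : ↥O →+* k) [IsDiscreteValuationRing ↥O] (hπ : Function.Surjective π) [IsAlgClosed k]
  {N' q : ℕ} [NeZero N'] [hq : Fact q.Prime] [CharP k q] (hN' : (N' : k) ≠ 0)
  (W1 : T2iAL L N' q) (Fr : T2iFrob k N' q) (W : T4iAL L N' q)
  (hqO : Irreducible ((q : ℕ) : ↥O))
  {L' : Type*} [Field L'] [Algebra L L'] (O' : ValuationSubring L')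
  [IsDiscreteValuationRing ↥O'] (π' : ↥O' →+* k) (C : T4iCyc O O' π π' q)
  (M : T4iMid L L' N' q C.ζ) (m : ℕ)

attribute [local instance] t2iAlgebra t2i_isScalarTower

/-- the normalised constants of the `α`-relation for `z`: `N_α z = c · f ^ m`, `c ∈ O^×`, `π c = 1`,
`f ≡ 1` at `V¹_inf`, `f ≡ a` at `V¹_0`, `a ∈ O`, `π (a ^ m) = 1` -/
def T4niConstA (z : ↥(TaF L (N' * q * q))) : Prop :=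
  ∃ (c : L) (f : ↥(TaF L (N' * q))) (a : ↥O) (hc : c ∈ O), c⁻¹ ∈ O ∧ π ⟨c, hc⟩ = 1 ∧ f ≠ 0 ∧
    t4vnNormA L N' q z = algebraMap L ↥(TaF L (N' * q)) c * f ^ m ∧
    (taOv O π hπ (N' * q)).valuation (f - 1) < 1 ∧
    (t4vnO10 O π hπ W1).valuation (f - algebraMap L ↥(TaF L (N' * q)) (a : L)) < 1 ∧
    π (a ^ m) = 1

/-- the normalised constants of the `β`-relation for `z`: `N_β z = c · f ^ m`, `c ∈ O^×`, `π c = 1`,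
`f ≡ 1` at `V¹_0`, `f ≡ a` at `V¹_inf`, `a ∈ O`, `π (a ^ m) = 1` -/
def T4niConstB (z : ↥(TaF L (N' * q * q))) : Prop :=
  ∃ (c : L) (f : ↥(TaF L (N' * q))) (a : ↥O) (hc : c ∈ O), c⁻¹ ∈ O ∧ π ⟨c, hc⟩ = 1 ∧ f ≠ 0 ∧
    t4vnNormB L N' q z = algebraMap L ↥(TaF L (N' * q)) c * f ^ m ∧
    (t4vnO10 O π hπ W1).valuation (f - 1) < 1 ∧
    (taOv O π hπ (N' * q)).valuation (f - algebraMap L ↥(TaF L (N' * q)) (a : L)) < 1 ∧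
    π (a ^ m) = 1

/-- **the contract of the step-C instance**: for a Kummer function `z ≡ 1 (mod q 𝒪)` over `L` with
normalised norm constants there are chart presentations `P₁` (`X` finite), `P₂` (`X⁻¹` finite) of
`X = j^Q - j`, a correcting element `hh` with `hh ^ m ≡ 1`, and the chart hypotheses `T4nCChart`
of step C on both charts -/
def T4niStepC : Prop :=
  ∀ z : ↥(TaF L (N' * q * q)), z ≠ 0 →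
    z ∈ (t4vInput O π hπ hN' W1 Fr W hqO O' π' C M).Ov →
    z⁻¹ ∈ (t4vInput O π hπ hN' W1 Fr W hqO O' π' C M).Ov →
    (∃ o ∈ (t4vInput O π hπ hN' W1 Fr W hqO O' π' C M).Ov, z - 1 = t4vQ L N' q * o) →
    (∀ P : Place L ↥(TaF L (N' * q * q)), (m : ℤ) ∣ P.ord z) →
    T4niConstA O π hπ W1 m z → T4niConstB O π hπ W1 m z →
    ∃ (Qc : ℕ) (P₁ P₂ : T4Pres ↥(TaF L (N' * q * q))) (hh : ↥(TaF L (N' * q * q)))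
      (a1 a2 b1 b2 : ↥P₁.B) (a1' a2' b1' b2' : ↥P₂.B), 2 ≤ Qc ∧
      (∀ f : ↥(TaF L (N' * q * q)), f ∈ P₁.B ↔ f ∈ t2Int (K := L) (t4vX L N' q Qc) ∧
        f ∈ (t4vInput O π hπ hN' W1 Fr W hqO O' π' C M).Ov) ∧
      (∀ f : ↥(TaF L (N' * q * q)), f ∈ P₂.B ↔ f ∈ t2Int (K := L) (t4vX L N' q Qc)⁻¹ ∧
        f ∈ (t4vInput O π hπ hN' W1 Fr W hqO O' π' C M).Ov) ∧
      (∀ f : ↥(TaF L (N' * q * q)), f ∈ P₁.ov (t4vQ L N' q) ↔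
        f ∈ (t4vInput O π hπ hN' W1 Fr W hqO O' π' C M).Ov) ∧
      (∀ f : ↥(TaF L (N' * q * q)), f ∈ P₂.ov (t4vQ L N' q) ↔
        f ∈ (t4vInput O π hπ hN' W1 Fr W hqO O' π' C M).Ov) ∧
      hh ≠ 0 ∧
      (∃ o ∈ (t4vInput O π hπ hN' W1 Fr W hqO O' π' C M).Ov, hh ^ m - 1 = t4vQ L N' q * o) ∧
      T4nCChart P₁ (t4vQ L N' q) m z q (t4vOinf (N' := N') (q := q) O π hπ)
        (t4vOmid O π hπ O' π' C M) (t4vO0 O π hπ W) a1 a2 b1 b2 hh ∧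
      T4nCChart P₂ (t4vQ L N' q) m z q (t4vOinf (N' := N') (q := q) O π hπ)
        (t4vOmid O π hπ O' π' C M) (t4vO0 O π hπ W) a1' a2' b1' b2' hh

end Contract

section Fix

attribute [local instance] t2i_dvr t2i_isAlgClosed t2i_charP t2i_fact t2iAlgebra t2i_isScalarTower

variable (𝔓 : FFPlace) (N' : ℕ) [NeZero N'] (h : ¬ 𝔓.p ∣ N') {ζ : Qb}
  (hζ : IsPrimitiveRoot ζ 𝔓.p)

/-- **the contract of the step-C instance at the inertia level** -/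
def T4ntStepCFix (m : ℕ) : Prop :=
  letI := t4cyAlgebra 𝔓 (le_top : t4cyH 𝔓 ζ ≤ ⊤)
  T4niStepC (tbFixO 𝔓 ⊤) (tbFixRes 𝔓 ⊤) (tbFixRes_surjective 𝔓 ⊤) (t2i_natCast_ne_zero 𝔓 h)
    (t2iALFix 𝔓 ⊤ N' h) (t2iFrobFix 𝔓 N') (t4iALFix 𝔓 ⊤ N' h) (t4cy_irreducible_p 𝔓)
    (tbFixO 𝔓 (t4cyH 𝔓 ζ)) (tbFixRes 𝔓 (t4cyH 𝔓 ζ)) (t4iCycFix 𝔓 hζ) (t4vMidFix 𝔓 N' h hζ) m

/-- the instance of `T4nA` at the inertia level -/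
def t4niAFix (m : ℕ) : T4nA ↥(tbFix 𝔓 (⊤ : Subgroup 𝔓.I)) ↥(tbLevF 𝔓 (N' * 𝔓.p) ⊤)
    ↥(tbLevF 𝔓 (N' * 𝔓.p * 𝔓.p) ⊤) 𝔓.p m :=
  letI := t4cyAlgebra 𝔓 (le_top : t4cyH 𝔓 ζ ≤ ⊤)
  t4niAU (tbFixO 𝔓 ⊤) (tbFixRes 𝔓 ⊤) (tbFixRes_surjective 𝔓 ⊤) (t2i_natCast_ne_zero 𝔓 h)
    (t2iALFix 𝔓 ⊤ N' h) (t2iFrobFix 𝔓 N') (t4iALFix 𝔓 ⊤ N' h) (t4cy_irreducible_p 𝔓)
    (tbFixO 𝔓 (t4cyH 𝔓 ζ)) (tbFixRes 𝔓 (t4cyH 𝔓 ζ)) (t4iCycFix 𝔓 hζ) (t4vMidFix 𝔓 N' h hζ) m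

/-- the instance of `T4nB` at the inertia level -/
def t4niBFix (m : ℕ) (hm : m ≠ 0) (hqm : Nat.Coprime m 𝔓.p) :
    T4nB (t4niAFix 𝔓 N' h hζ m) (IsLocalRing.ResidueField ↥𝔓.P) ↥(tbBarF 𝔓 N')
      ↥(tbBarF 𝔓 N') :=
  letI := t4cyAlgebra 𝔓 (le_top : t4cyH 𝔓 ζ ≤ ⊤)
  t4niBU (tbFixO 𝔓 ⊤) (tbFixRes 𝔓 ⊤) (tbFixRes_surjective 𝔓 ⊤) (t2i_natCast_ne_zero 𝔓 h)
    (t2iALFix 𝔓 ⊤ N' h) (t2iFrobFix 𝔓 N') (t4iALFix 𝔓 ⊤ N' h) (t4cy_irreducible_p 𝔓)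
    (tbFixO 𝔓 (t4cyH 𝔓 ζ)) (tbFixRes 𝔓 (t4cyH 𝔓 ζ)) (t4iCycFix 𝔓 hζ) (t4vMidFix 𝔓 N' h hζ) m
    hm hqm

/-- **step C for the instance**: the export of helper3's `t4n_coreAt_of_inst` -/
theorem t4nt_stepC_fix (m : ℕ) (hm : m ≠ 0) (hqm : Nat.Coprime m 𝔓.p)
    (hC : T4ntStepCFix 𝔓 N' h hζ m)
    (z : (↥(tbLevF 𝔓 (N' * 𝔓.p * 𝔓.p) ⊤))ˣ) (hzU : z ∈ (t4niBFix 𝔓 N' h hζ m hm hqm).U1q)
    (hzK : z ∈ tWsub ↥(tbFix 𝔓 (⊤ : Subgroup 𝔓.I)) (N' * 𝔓.p * 𝔓.p) m)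
    (hzQ : ∀ P : Place Qb ↥(modularFunctionFieldBar (N' * 𝔓.p * 𝔓.p)),
      (m : ℤ) ∣ P.ord (tbPhiF 𝔓 (N' * 𝔓.p * 𝔓.p) ⊤ (z : ↥(tbLevF 𝔓 (N' * 𝔓.p * 𝔓.p) ⊤))))
    (hα : ∃ (c : (↥(tbFix 𝔓 (⊤ : Subgroup 𝔓.I)))ˣ) (g : (↥(tbLevF 𝔓 (N' * 𝔓.p) ⊤))ˣ),
      (t4niAFix 𝔓 N' h hζ m).Nα z = (t4niAFix 𝔓 N' h hζ m).cF1 c * g ^ m)
    (hβ : ∃ (c : (↥(tbFix 𝔓 (⊤ : Subgroup 𝔓.I)))ˣ) (g : (↥(tbLevF 𝔓 (N' * 𝔓.p) ⊤))ˣ),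
      (t4niAFix 𝔓 N' h hζ m).Nβ z = (t4niAFix 𝔓 N' h hζ m).cF1 c * g ^ m) :
    ∃ (c : (↥(tbFix 𝔓 (⊤ : Subgroup 𝔓.I)))ˣ) (t : (↥(tbLevF 𝔓 (N' * 𝔓.p * 𝔓.p) ⊤))ˣ),
      z ^ (𝔓.p ^ 2 - 1) = (t4niAFix 𝔓 N' h hζ m).cF c * t ^ m := by
  letI := t4cyAlgebra 𝔓 (le_top : t4cyH 𝔓 ζ ≤ ⊤)
  obtain ⟨hzO, hzO', hz1⟩ := mem_t4nU1q.mp hzU
  obtain ⟨hA, hB⟩ := t4ni_norm_consts (tbFixO 𝔓 ⊤) (tbFixRes 𝔓 ⊤) (tbFixRes_surjective 𝔓 ⊤)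
    (t2i_natCast_ne_zero 𝔓 h) (t2iALFix 𝔓 ⊤ N' h) (t2iFrobFix 𝔓 N') (t4iALFix 𝔓 ⊤ N' h)
    (t4cy_irreducible_p 𝔓) (tbFixO 𝔓 (t4cyH 𝔓 ζ)) (tbFixRes 𝔓 (t4cyH 𝔓 ζ)) (t4iCycFix 𝔓 hζ)
    (t4vMidFix 𝔓 N' h hζ) m hm hqm hzU hα hβ
  obtain ⟨Qc, P₁, P₂, hh, a1, a2, b1, b2, a1', a2', b1', b2', hQc, hB₁, hB₂, hOv₁, hOv₂, hh0,
    hhm, C₁, C₂⟩ := hC (z : ↥(tbLevF 𝔓 (N' * 𝔓.p * 𝔓.p) ⊤)) z.ne_zero hzO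
      (by rw [← Units.val_inv_eq_inv_val]; exact hzO') hz1 (mem_tWsub.mp hzK) hA hB
  obtain ⟨c, t, hc0, ht0, hct⟩ := t4nt_export 𝔓 N' h hζ hQc hm hqm z.ne_zero hzO hz1 hzQ P₁ P₂
    hB₁ hB₂ hOv₁ hOv₂
    (t4vOmid_ne_inf (tbFixO 𝔓 ⊤) (tbFixRes 𝔓 ⊤) (tbFixRes_surjective 𝔓 ⊤)
      (t2i_natCast_ne_zero 𝔓 h) (t2iALFix 𝔓 ⊤ N' h) (t2iFrobFix 𝔓 N') (t4iALFix 𝔓 ⊤ N' h)
      (t4cy_irreducible_p 𝔓) (tbFixO 𝔓 (t4cyH 𝔓 ζ)) (tbFixRes 𝔓 (t4cyH 𝔓 ζ)) (t4iCycFix 𝔓 hζ)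
      (t4vMidFix 𝔓 N' h hζ))
    (t4vOmid_ne_zero (tbFixO 𝔓 ⊤) (tbFixRes 𝔓 ⊤) (tbFixRes_surjective 𝔓 ⊤)
      (t2i_natCast_ne_zero 𝔓 h) (t2iALFix 𝔓 ⊤ N' h) (t2iFrobFix 𝔓 N') (t4iALFix 𝔓 ⊤ N' h)
      (t4cy_irreducible_p 𝔓) (tbFixO 𝔓 (t4cyH 𝔓 ζ)) (tbFixRes 𝔓 (t4cyH 𝔓 ζ)) (t4iCycFix 𝔓 hζ)
      (t4vMidFix 𝔓 N' h hζ))
    (t4vO0_ne_inf (tbFixO 𝔓 ⊤) (tbFixRes 𝔓 ⊤) (tbFixRes_surjective 𝔓 ⊤)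
      (t2i_natCast_ne_zero 𝔓 h) (t2iALFix 𝔓 ⊤ N' h) (t2iFrobFix 𝔓 N') (t4iALFix 𝔓 ⊤ N' h)
      (t4cy_irreducible_p 𝔓) (tbFixO 𝔓 (t4cyH 𝔓 ζ)) (tbFixRes 𝔓 (t4cyH 𝔓 ζ)) (t4iCycFix 𝔓 hζ)
      (t4vMidFix 𝔓 N' h hζ))
    hh0 hhm C₁ C₂
  refine ⟨Units.mk0 c hc0, Units.mk0 t ht0, Units.ext ?_⟩
  rw [Units.val_pow_eq_pow_val, sq, hct, Algebra.smul_def, Units.val_mul,
    Units.val_pow_eq_pow_val]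
  rfl

/-- **top assembly**: the step-C instance at the inertia level (for some primitive `p`-th root of
unity `ζ`, every exponent `m` prime to `p`) gives `T4nCoreAt 𝔓 N' h` -/
theorem t4nt_coreAt
    (hC : ∀ m : ℕ, Nat.Coprime m 𝔓.p → m ≠ 0 →
      ∃ (ζ : Qb) (hζ : IsPrimitiveRoot ζ 𝔓.p), T4ntStepCFix 𝔓 N' h hζ m) :
    T4nCoreAt 𝔓 N' h := by
  refine t4n_coreAt_of_inst 𝔓 N' h (fun m hqm hm => ?_)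
  obtain ⟨ζ, hζ, hCm⟩ := hC m hqm hm
  exact ⟨IsLocalRing.ResidueField ↥𝔓.P, ↥(tbBarF 𝔓 N'), ↥(tbBarF 𝔓 N'), inferInstance,
    inferInstance, inferInstance, t4niAFix 𝔓 N' h hζ m, t4niBFix 𝔓 N' h hζ m hm hqm,
    fun c => rfl, fun c => rfl, fun y => rfl, fun y => rfl,
    t4nt_stepC_fix 𝔓 N' h hζ m hm hqm hCm⟩

end Fix

end Fermat.Agent.T4
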