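/-
T4-N (helper5): **the step-C instance at the inertia level** (`T4ntStepCFix`), assembled.

* `t4nsc_chart1` (generic Val block): `T4nCChart` on chart 1 in the conventions of the contract
  `T4niStepC` (from `t4vk_chart1`; `hroot` from the Kummer hypothesis, constants `a, b` of the two
  normalised norm relations, the correcting element `hh` through its three congruences).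
* `t4nsc_top_fix`, `t4nsc_chart1_fix` (inertia level): for ANY presentation `P` of chart 1
  (`X = j^(p²) - j`) with the two dictionaries and noetherian `P.B` (helper2's `t4vz_top`, helper7's
  REG1 outputs `t4rgf_*0`, helper9's `t4vg_good_X`, the two integrality facts of `ChartBeta.lean`).
* **`t4nsc_stepC_fix_of_noeth`** : `T4ntStepCFix 𝔓 N' h hζ m` for `m ≠ 0` prime to `p`, `4 ∣ N' ∨ 9 ∣ N'`,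
  given that the chart-2 ring of helper2's `t4vyP2Fix` is noetherian (chart 2 = helper4's
  `t4nc2_chart2_fix_K2`).
-/
import Fermat.Agent.Lib.T4.Inst.ChartOne
import Fermat.Agent.Lib.T4.New.ChartTwoK2
import Fermat.Agent.Lib.T4.Inst.PresFix
import Fermat.Agent.Lib.T4.New.InstFix
import Fermat.Agent.Lib.T4.Inst.PresRoot
import Fermat.Agent.Lib.T4.Inst.PresTop
import Fermat.Agent.Lib.T4.Inst.GoodFix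
import Fermat.Agent.Lib.T4.Inst.ChartBeta
import Fermat.Agent.Lib.T4.Reg.LevFixOut

set_option autoImplicit false
set_option linter.unusedSectionVars false
set_option linter.unusedVariables false
set_option linter.style.haveILetI false
set_option synthInstance.maxHeartbeats 400000

open HahnSeries ModularCurve AlgebraicCurve Fermat.Agent.T1 Fermat.Agent.T2 IntermediateField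
  Fermat.Agent.Curve Fermat.Agent.TW Fermat.Agent.S05Lib

noncomputable section

namespace Fermat.Agent.T4

section Gen

variable {L : Type} [Field L] [Algebra ℚ L] (O : ValuationSubring L) {k : Type} [Field k]
  (π : ↥O →+* k) [IsDiscreteValuationRing ↥O] (hπ : Function.Surjective π) [IsAlgClosed k]
  {N' q : ℕ} [NeZero N'] [hq : Fact q.Prime] [CharP k q] (hN' : (N' : k) ≠ 0)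
  (W1 : T2iAL L N' q) (Fr : T2iFrob k N' q) (W : T4iAL L N' q)
  (hqO : Irreducible ((q : ℕ) : ↥O))
  {L' : Type*} [Field L'] [Algebra L L'] (O' : ValuationSubring L')
  [IsDiscreteValuationRing ↥O'] (π' : ↥O' →+* k) (C : T4iCyc O O' π π' q)
  (M : T4iMid L L' N' q C.ζ) {m : ℕ}

attribute [local instance] t2iAlgebra t2i_isScalarTower

include hπ hqO in
/-- an element of `O` with nonzero residue is a unit -/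
theorem t4nsc_isUnit_of_pi_ne {c : ↥O} (hc : π c ≠ 0) : IsUnit c := by
  have hinv := t4nh_inv_mem_of_pi_ne O π hπ hqO hc
  have hc0 : (c : L) ≠ 0 := by
    intro h0
    apply hc
    have : c = 0 := Subtype.ext h0
    rw [this, map_zero]
  refine ⟨⟨c, ⟨(c : L)⁻¹, hinv⟩, Subtype.ext (mul_inv_cancel₀ hc0),
    Subtype.ext (inv_mul_cancel₀ hc0)⟩, rfl⟩

set_option maxHeartbeats 1600000 in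
include hN' Fr hqO in
/-- **`T4nCChart` on chart 1** in the conventions of the contract `T4niStepC` -/
theorem t4nsc_chart1 {y0 : ↥(TaF L N')} (G : T4vmGood O π hπ hN' Fr y0)
    [IsDedekindDomain ↥(t2R (k := k) G.yb)]
    {x1 : ↥(TaF L (N' * q))} {P1 : T4Pres ↥(TaF L (N' * q))} {P : T4Pres ↥(TaF L (N' * q * q))}
    {P' : T4Pres ↥(TaF L N')}
    (hB : ∀ f, f ∈ P.B ↔ f ∈ t2Int (K := L) (t4vA0 L N' q y0) ∧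
      f ∈ (t4vInput O π hπ hN' W1 Fr W hqO O' π' C M).Ov)
    (T : T4rtTop O π hπ W1 W O' π' C M x1 (t4vA0 L N' q y0) P1 P)
    (T' : T4rmLow O π hπ y0 P' P1) (hG : T4rtRegG O π hπ W1 P1)
    (hM : T4rmRegM O π hπ W1 P' P1 T'.overA')
    (hB' : ∀ f : ↥(TaF L N'), f ∈ P'.B ↔ f ∈ t2Int (K := L) y0 ∧ f ∈ taOv O π hπ N')
    (noeth : IsNoetherianRing ↥P.B) (hm : m ≠ 0) (hqm : Nat.Coprime m q)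
    {z : ↥(TaF L (N' * q * q))} (hz : z ≠ 0)
    (hK : ∀ v : Place L ↥(TaF L (N' * q * q)), (m : ℤ) ∣ v.ord z)
    {ca cb : L} {fa fb : ↥(TaF L (N' * q))} {a b : ↥O}
    (hca : ca ∈ O) (hcai : ca⁻¹ ∈ O) (hπca : π ⟨ca, hca⟩ = 1)
    (hcb : cb ∈ O) (hcbi : cb⁻¹ ∈ O) (hπcb : π ⟨cb, hcb⟩ = 1)
    (hNa : t4vnNormA L N' q z = algebraMap L ↥(TaF L (N' * q)) ca * fa ^ m)
    (hfa1 : (taOv O π hπ (N' * q)).valuation (fa - 1) < 1)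
    (hfa2 : (t4vnO10 O π hπ W1).valuation (fa - algebraMap L ↥(TaF L (N' * q)) (a : L)) < 1)
    (ha : π (a ^ m) = 1)
    (hNb : t4vnNormB L N' q z = algebraMap L ↥(TaF L (N' * q)) cb * fb ^ m)
    (hfb1 : (t4vnO10 O π hπ W1).valuation (fb - 1) < 1)
    (hfb2 : (taOv O π hπ (N' * q)).valuation (fb - algebraMap L ↥(TaF L (N' * q)) (b : L)) < 1)
    (hb : π (b ^ m) = 1) {hh : ↥(TaF L (N' * q * q))}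
    (h1 : (t4vOinf (N' := N') (q := q) O π hπ).valuation
      (hh - algebraMap L ↥(TaF L (N' * q * q)) ((a : L) ^ q * (b : L))) < 1)
    (h2 : (t4vOmid O π hπ O' π' C M).valuation
      (hh - algebraMap L ↥(TaF L (N' * q * q)) ((a : L) ^ (q + 1) * (b : L) ^ (q + 1))) < 1)
    (h3 : (t4vO0 O π hπ W).valuation
      (hh - algebraMap L ↥(TaF L (N' * q * q)) ((a : L) * (b : L) ^ q)) < 1) :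
    T4nCChart P (t4vQ L N' q) m z q (t4vOinf (N' := N') (q := q) O π hπ)
      (t4vOmid O π hπ O' π' C M) (t4vO0 O π hπ W) 1
      ⟨algebraMap L ↥(TaF L (N' * q * q)) (a : L),
        t4rt_const_mem_B O π hπ hN' W1 Fr W hqO O' π' C M T.vals a⟩ 1
      ⟨algebraMap L ↥(TaF L (N' * q * q)) (b : L),
        t4rt_const_mem_B O π hπ hN' W1 Fr W hqO O' π' C M T.vals b⟩ hh := by
  have hmπ : π ((m : ℕ) : ↥O) ≠ 0 := by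
    rw [map_natCast]
    intro h0
    have hdvd := (CharP.cast_eq_zero_iff k q m).mp h0
    have h1 : q ∣ Nat.gcd m q := Nat.dvd_gcd hdvd dvd_rfl
    rw [hqm] at h1
    exact hq.out.one_lt.ne' (Nat.dvd_one.mp h1)
  have hmO : ((m : ℕ) : L)⁻¹ ∈ O := by
    have := t4nh_inv_mem_of_pi_ne O π hπ hqO hmπ
    rwa [show ((((m : ℕ) : ↥O)) : L) = ((m : ℕ) : L) from by push_cast; rfl] at this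
  have hne : ∀ {c : L} (hc : c ∈ O), π ⟨c, hc⟩ = 1 → c ≠ 0 := by
    intro c hc h1 h0
    have : (⟨c, hc⟩ : ↥O) = 0 := Subtype.ext h0
    rw [this, map_zero] at h1
    exact zero_ne_one h1
  have hvert := T.vert hqO
  exact t4vk_chart1 (hN' := hN') (W1 := W1) (Fr := Fr) hqO G hB T T' hG hM hB' noeth hm hmO
    (t4vq_hroot_chart P _ (t4vQ L N' q) _ T.vals hvert hz hK)
    hca hcai (hne hca hπca) hcb hcbi (hne hcb hπcb)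
    (t4nsc_isUnit_of_pi_ne O π hπ hqO (t4nh_pi_ne_zero O π hπ hqO hm ha))
    (t4nsc_isUnit_of_pi_ne O π hπ hqO (t4nh_pi_ne_zero O π hπ hqO hm hb))
    hNa hfa1 hfa2 hNb hfb1 hfb2 rfl rfl
    (t4nh_hh_field O π hπ hN' W1 Fr W hqO O' π' C M P
      (t4nc2_vert O π hπ W hqO O' π' C M T.vals) rfl rfl h1 h2 h3)

end Gen

/-! ### The inertia level -/

section Fix

local notation "Qb" => AlgebraicClosure ℚ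

attribute [local instance] t2i_dvr t2i_isAlgClosed t2i_charP t2i_fact t2iAlgebra t2i_isScalarTower

variable (𝔓 : FFPlace) (N' : ℕ) [NeZero N'] (h : ¬ 𝔓.p ∣ N') {ζ : Qb}
  (hζ : IsPrimitiveRoot ζ 𝔓.p) (h49 : 4 ∣ N' ∨ 9 ∣ N')

theorem t4nsc_two_le : 2 ≤ 𝔓.p * 𝔓.p := by
  have h2 : 2 ≤ 𝔓.p := (Fact.out : 𝔓.p.Prime).two_le
  nlinarith

include h49 in
/-- **helper8's `T4rtTop` at the inertia level**, for any presentation `P` of chart 1 with the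
dictionaries -/
theorem t4nsc_top_fix :
    letI := t4cyAlgebra 𝔓 (le_top : t4cyH 𝔓 ζ ≤ ⊤)
    ∀ (P : T4Pres ↥(TaF ↥(tbFix 𝔓 (⊤ : Subgroup 𝔓.I)) (N' * 𝔓.p * 𝔓.p)))
      (hvals : P.vals = t4vpHor ↥(tbFix 𝔓 (⊤ : Subgroup 𝔓.I))
          (t4vX ↥(tbFix 𝔓 (⊤ : Subgroup 𝔓.I)) N' 𝔓.p (𝔓.p * 𝔓.p)) ∪
        t4vwVer (tbFixO 𝔓 ⊤) (tbFixRes 𝔓 ⊤) (tbFixRes_surjective 𝔓 ⊤) (t4iALFix 𝔓 ⊤ N' h)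
          (tbFixO 𝔓 (t4cyH 𝔓 ζ)) (tbFixRes 𝔓 (t4cyH 𝔓 ζ)) (t4iCycFix 𝔓 hζ)
          (t4vMidFix 𝔓 N' h hζ))
      (hB : ∀ f, f ∈ P.B ↔
        f ∈ t2Int (K := ↥(tbFix 𝔓 (⊤ : Subgroup 𝔓.I)))
          (t4vX ↥(tbFix 𝔓 (⊤ : Subgroup 𝔓.I)) N' 𝔓.p (𝔓.p * 𝔓.p)) ∧
        f ∈ (t4vInput (tbFixO 𝔓 ⊤) (tbFixRes 𝔓 ⊤) (tbFixRes_surjective 𝔓 ⊤)
          (t2i_natCast_ne_zero 𝔓 h) (t2iALFix 𝔓 ⊤ N' h) (t2iFrobFix 𝔓 N') (t4iALFix 𝔓 ⊤ N' h)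
          (t4cy_irreducible_p 𝔓) (tbFixO 𝔓 (t4cyH 𝔓 ζ)) (tbFixRes 𝔓 (t4cyH 𝔓 ζ))
          (t4iCycFix 𝔓 hζ) (t4vMidFix 𝔓 N' h hζ)).Ov),
      T4rtTop (tbFixO 𝔓 ⊤) (tbFixRes 𝔓 ⊤) (tbFixRes_surjective 𝔓 ⊤) (t2iALFix 𝔓 ⊤ N' h)
        (t4iALFix 𝔓 ⊤ N' h) (tbFixO 𝔓 (t4cyH 𝔓 ζ)) (tbFixRes 𝔓 (t4cyH 𝔓 ζ)) (t4iCycFix 𝔓 hζ)
        (t4vMidFix 𝔓 N' h hζ)
        (t4vX1 ↥(tbFix 𝔓 (⊤ : Subgroup 𝔓.I)) N' 𝔓.p (𝔓.p * 𝔓.p))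
        (t4vX ↥(tbFix 𝔓 (⊤ : Subgroup 𝔓.I)) N' 𝔓.p (𝔓.p * 𝔓.p))
        (t4rLevFixPres1 𝔓 N' h (t4nsc_two_le 𝔓)) P := by
  letI := t4cyAlgebra 𝔓 (le_top : t4cyH 𝔓 ζ ≤ ⊤)
  intro P hvals hB
  exact t4vz_top (tbFixO 𝔓 ⊤) (tbFixRes 𝔓 ⊤) (tbFixRes_surjective 𝔓 ⊤)
    (t2i_natCast_ne_zero 𝔓 h) (t2iALFix 𝔓 ⊤ N' h) (t2iFrobFix 𝔓 N') (t4iALFix 𝔓 ⊤ N' h)
    (t4cy_irreducible_p 𝔓) (tbFixO 𝔓 (t4cyH 𝔓 ζ)) (tbFixRes 𝔓 (t4cyH 𝔓 ζ))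
    (t4iCycFix 𝔓 hζ) (t4vMidFix 𝔓 N' h hζ) (t4rLevFixPres1 𝔓 N' h (t4nsc_two_le 𝔓)) P
    (t4rLevFixPres1_vals 𝔓 N' h (t4nsc_two_le 𝔓)) hvals
    (mem_t4rLevFixPres1_B 𝔓 N' h (t4nsc_two_le 𝔓)) hB
    (t4vc_gen_X_level 𝔓 (N' * 𝔓.p) ⊤ (t4nsc_two_le 𝔓))
    (t4vj_X_betaX 𝔓 ⊤ N' h (t4nsc_two_le 𝔓)) (t4vj_betaX_X 𝔓 ⊤ N' (t4nsc_two_le 𝔓))

set_option maxHeartbeats 1600000 in
include h49 in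
/-- **`T4nCChart` on chart 1 at the inertia level**, for any presentation `P` of chart 1 with the
dictionaries and noetherian `P.B` -/
theorem t4nsc_chart1_fix :
    letI := t4cyAlgebra 𝔓 (le_top : t4cyH 𝔓 ζ ≤ ⊤)
    ∀ (P : T4Pres ↥(TaF ↥(tbFix 𝔓 (⊤ : Subgroup 𝔓.I)) (N' * 𝔓.p * 𝔓.p)))
      (hvals : P.vals = t4vpHor ↥(tbFix 𝔓 (⊤ : Subgroup 𝔓.I))
          (t4vX ↥(tbFix 𝔓 (⊤ : Subgroup 𝔓.I)) N' 𝔓.p (𝔓.p * 𝔓.p)) ∪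
        t4vwVer (tbFixO 𝔓 ⊤) (tbFixRes 𝔓 ⊤) (tbFixRes_surjective 𝔓 ⊤) (t4iALFix 𝔓 ⊤ N' h)
          (tbFixO 𝔓 (t4cyH 𝔓 ζ)) (tbFixRes 𝔓 (t4cyH 𝔓 ζ)) (t4iCycFix 𝔓 hζ)
          (t4vMidFix 𝔓 N' h hζ))
      (hB : ∀ f, f ∈ P.B ↔
        f ∈ t2Int (K := ↥(tbFix 𝔓 (⊤ : Subgroup 𝔓.I)))
          (t4vX ↥(tbFix 𝔓 (⊤ : Subgroup 𝔓.I)) N' 𝔓.p (𝔓.p * 𝔓.p)) ∧
        f ∈ (t4vInput (tbFixO 𝔓 ⊤) (tbFixRes 𝔓 ⊤) (tbFixRes_surjective 𝔓 ⊤)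
          (t2i_natCast_ne_zero 𝔓 h) (t2iALFix 𝔓 ⊤ N' h) (t2iFrobFix 𝔓 N') (t4iALFix 𝔓 ⊤ N' h)
          (t4cy_irreducible_p 𝔓) (tbFixO 𝔓 (t4cyH 𝔓 ζ)) (tbFixRes 𝔓 (t4cyH 𝔓 ζ))
          (t4iCycFix 𝔓 hζ) (t4vMidFix 𝔓 N' h hζ)).Ov)
      (noeth : IsNoetherianRing ↥P.B) {m : ℕ} (hm : m ≠ 0) (hqm : Nat.Coprime m 𝔓.p)
      {z : ↥(TaF ↥(tbFix 𝔓 (⊤ : Subgroup 𝔓.I)) (N' * 𝔓.p * 𝔓.p))} (hz : z ≠ 0)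
      (hK : ∀ v : Place ↥(tbFix 𝔓 (⊤ : Subgroup 𝔓.I))
        ↥(TaF ↥(tbFix 𝔓 (⊤ : Subgroup 𝔓.I)) (N' * 𝔓.p * 𝔓.p)), (m : ℤ) ∣ v.ord z)
      {ca cb : ↥(tbFix 𝔓 (⊤ : Subgroup 𝔓.I))}
      {fa fb : ↥(TaF ↥(tbFix 𝔓 (⊤ : Subgroup 𝔓.I)) (N' * 𝔓.p))} {a b : ↥(tbFixO 𝔓 ⊤)}
      (hca : ca ∈ tbFixO 𝔓 ⊤) (hcai : ca⁻¹ ∈ tbFixO 𝔓 ⊤) (hπca : tbFixRes 𝔓 ⊤ ⟨ca, hca⟩ = 1)
      (hcb : cb ∈ tbFixO 𝔓 ⊤) (hcbi : cb⁻¹ ∈ tbFixO 𝔓 ⊤) (hπcb : tbFixRes 𝔓 ⊤ ⟨cb, hcb⟩ = 1)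
      (hNa : t4vnNormA ↥(tbFix 𝔓 (⊤ : Subgroup 𝔓.I)) N' 𝔓.p z =
        algebraMap ↥(tbFix 𝔓 (⊤ : Subgroup 𝔓.I))
          ↥(TaF ↥(tbFix 𝔓 (⊤ : Subgroup 𝔓.I)) (N' * 𝔓.p)) ca * fa ^ m)
      (hfa1 : (taOv (tbFixO 𝔓 ⊤) (tbFixRes 𝔓 ⊤) (tbFixRes_surjective 𝔓 ⊤)
        (N' * 𝔓.p)).valuation (fa - 1) < 1)
      (hfa2 : (t4vnO10 (tbFixO 𝔓 ⊤) (tbFixRes 𝔓 ⊤) (tbFixRes_surjective 𝔓 ⊤)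
        (t2iALFix 𝔓 ⊤ N' h)).valuation (fa - algebraMap ↥(tbFix 𝔓 (⊤ : Subgroup 𝔓.I))
          ↥(TaF ↥(tbFix 𝔓 (⊤ : Subgroup 𝔓.I)) (N' * 𝔓.p))
            (a : ↥(tbFix 𝔓 (⊤ : Subgroup 𝔓.I)))) < 1)
      (ha : tbFixRes 𝔓 ⊤ (a ^ m) = 1)
      (hNb : t4vnNormB ↥(tbFix 𝔓 (⊤ : Subgroup 𝔓.I)) N' 𝔓.p z =
        algebraMap ↥(tbFix 𝔓 (⊤ : Subgroup 𝔓.I))
          ↥(TaF ↥(tbFix 𝔓 (⊤ : Subgroup 𝔓.I)) (N' * 𝔓.p)) cb * fb ^ m)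
      (hfb1 : (t4vnO10 (tbFixO 𝔓 ⊤) (tbFixRes 𝔓 ⊤) (tbFixRes_surjective 𝔓 ⊤)
        (t2iALFix 𝔓 ⊤ N' h)).valuation (fb - 1) < 1)
      (hfb2 : (taOv (tbFixO 𝔓 ⊤) (tbFixRes 𝔓 ⊤) (tbFixRes_surjective 𝔓 ⊤)
        (N' * 𝔓.p)).valuation (fb - algebraMap ↥(tbFix 𝔓 (⊤ : Subgroup 𝔓.I))
          ↥(TaF ↥(tbFix 𝔓 (⊤ : Subgroup 𝔓.I)) (N' * 𝔓.p))
            (b : ↥(tbFix 𝔓 (⊤ : Subgroup 𝔓.I)))) < 1)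
      (hb : tbFixRes 𝔓 ⊤ (b ^ m) = 1)
      {hh : ↥(TaF ↥(tbFix 𝔓 (⊤ : Subgroup 𝔓.I)) (N' * 𝔓.p * 𝔓.p))}
      (h1 : (t4vOinf (N' := N') (q := 𝔓.p) (tbFixO 𝔓 ⊤) (tbFixRes 𝔓 ⊤)
        (tbFixRes_surjective 𝔓 ⊤)).valuation
        (hh - algebraMap ↥(tbFix 𝔓 (⊤ : Subgroup 𝔓.I))
          ↥(TaF ↥(tbFix 𝔓 (⊤ : Subgroup 𝔓.I)) (N' * 𝔓.p * 𝔓.p))
          ((a : ↥(tbFix 𝔓 (⊤ : Subgroup 𝔓.I))) ^ 𝔓.p * (b : ↥(tbFix 𝔓 (⊤ : Subgroup 𝔓.I))))) < 1)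
      (h2 : (t4vOmid (tbFixO 𝔓 ⊤) (tbFixRes 𝔓 ⊤) (tbFixRes_surjective 𝔓 ⊤)
        (tbFixO 𝔓 (t4cyH 𝔓 ζ)) (tbFixRes 𝔓 (t4cyH 𝔓 ζ)) (t4iCycFix 𝔓 hζ)
        (t4vMidFix 𝔓 N' h hζ)).valuation
        (hh - algebraMap ↥(tbFix 𝔓 (⊤ : Subgroup 𝔓.I))
          ↥(TaF ↥(tbFix 𝔓 (⊤ : Subgroup 𝔓.I)) (N' * 𝔓.p * 𝔓.p))
          ((a : ↥(tbFix 𝔓 (⊤ : Subgroup 𝔓.I))) ^ (𝔓.p + 1) *
            (b : ↥(tbFix 𝔓 (⊤ : Subgroup 𝔓.I))) ^ (𝔓.p + 1))) < 1)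
      (h3 : (t4vO0 (tbFixO 𝔓 ⊤) (tbFixRes 𝔓 ⊤) (tbFixRes_surjective 𝔓 ⊤)
        (t4iALFix 𝔓 ⊤ N' h)).valuation
        (hh - algebraMap ↥(tbFix 𝔓 (⊤ : Subgroup 𝔓.I))
          ↥(TaF ↥(tbFix 𝔓 (⊤ : Subgroup 𝔓.I)) (N' * 𝔓.p * 𝔓.p))
          ((a : ↥(tbFix 𝔓 (⊤ : Subgroup 𝔓.I))) * (b : ↥(tbFix 𝔓 (⊤ : Subgroup 𝔓.I))) ^ 𝔓.p)) < 1),
      T4nCChart P (t4vQ ↥(tbFix 𝔓 (⊤ : Subgroup 𝔓.I)) N' 𝔓.p) m z 𝔓.p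
        (t4vOinf (N' := N') (q := 𝔓.p) (tbFixO 𝔓 ⊤) (tbFixRes 𝔓 ⊤) (tbFixRes_surjective 𝔓 ⊤))
        (t4vOmid (tbFixO 𝔓 ⊤) (tbFixRes 𝔓 ⊤) (tbFixRes_surjective 𝔓 ⊤)
          (tbFixO 𝔓 (t4cyH 𝔓 ζ)) (tbFixRes 𝔓 (t4cyH 𝔓 ζ)) (t4iCycFix 𝔓 hζ)
          (t4vMidFix 𝔓 N' h hζ))
        (t4vO0 (tbFixO 𝔓 ⊤) (tbFixRes 𝔓 ⊤) (tbFixRes_surjective 𝔓 ⊤) (t4iALFix 𝔓 ⊤ N' h)) 1
        ⟨algebraMap ↥(tbFix 𝔓 (⊤ : Subgroup 𝔓.I))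
          ↥(TaF ↥(tbFix 𝔓 (⊤ : Subgroup 𝔓.I)) (N' * 𝔓.p * 𝔓.p))
          (a : ↥(tbFix 𝔓 (⊤ : Subgroup 𝔓.I))),
          t4rt_const_mem_B (tbFixO 𝔓 ⊤) (tbFixRes 𝔓 ⊤) (tbFixRes_surjective 𝔓 ⊤)
            (t2i_natCast_ne_zero 𝔓 h) (t2iALFix 𝔓 ⊤ N' h) (t2iFrobFix 𝔓 N') (t4iALFix 𝔓 ⊤ N' h)
            (t4cy_irreducible_p 𝔓) (tbFixO 𝔓 (t4cyH 𝔓 ζ)) (tbFixRes 𝔓 (t4cyH 𝔓 ζ))
            (t4iCycFix 𝔓 hζ) (t4vMidFix 𝔓 N' h hζ) hvals a⟩ 1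
        ⟨algebraMap ↥(tbFix 𝔓 (⊤ : Subgroup 𝔓.I))
          ↥(TaF ↥(tbFix 𝔓 (⊤ : Subgroup 𝔓.I)) (N' * 𝔓.p * 𝔓.p))
          (b : ↥(tbFix 𝔓 (⊤ : Subgroup 𝔓.I))),
          t4rt_const_mem_B (tbFixO 𝔓 ⊤) (tbFixRes 𝔓 ⊤) (tbFixRes_surjective 𝔓 ⊤)
            (t2i_natCast_ne_zero 𝔓 h) (t2iALFix 𝔓 ⊤ N' h) (t2iFrobFix 𝔓 N') (t4iALFix 𝔓 ⊤ N' h)
            (t4cy_irreducible_p 𝔓) (tbFixO 𝔓 (t4cyH 𝔓 ζ)) (tbFixRes 𝔓 (t4cyH 𝔓 ζ))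
            (t4iCycFix 𝔓 hζ) (t4vMidFix 𝔓 N' h hζ) hvals b⟩ hh := by
  letI := t4cyAlgebra 𝔓 (le_top : t4cyH 𝔓 ζ ≤ ⊤)
  intro P hvals hB noeth m hm hqm z hz hK ca cb fa fb a b hca hcai hπca hcb hcbi hπcb hNa hfa1
    hfa2 ha hNb hfb1 hfb2 hb hh h1 h2 h3
  have hQ := t4nsc_two_le 𝔓
  have hpQ : 𝔓.p ∣ 𝔓.p * 𝔓.p := dvd_mul_right _ _
  have G := t4vg_good_X 𝔓 ⊤ N' h h49 hQ hpQ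
  haveI := t4vg_dedekind_X 𝔓 ⊤ N' h hQ G
  have T := t4nsc_top_fix 𝔓 N' h hζ h49 P hvals hB
  rw [t4vX_eq] at T
  have hB2 : ∀ f, f ∈ P.B ↔
      f ∈ t2Int (K := ↥(tbFix 𝔓 (⊤ : Subgroup 𝔓.I)))
        (t4vA0 ↥(tbFix 𝔓 (⊤ : Subgroup 𝔓.I)) N' 𝔓.p
          (t4vX' ↥(tbFix 𝔓 (⊤ : Subgroup 𝔓.I)) N' (𝔓.p * 𝔓.p))) ∧
      f ∈ (t4vInput (tbFixO 𝔓 ⊤) (tbFixRes 𝔓 ⊤) (tbFixRes_surjective 𝔓 ⊤)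
        (t2i_natCast_ne_zero 𝔓 h) (t2iALFix 𝔓 ⊤ N' h) (t2iFrobFix 𝔓 N') (t4iALFix 𝔓 ⊤ N' h)
        (t4cy_irreducible_p 𝔓) (tbFixO 𝔓 (t4cyH 𝔓 ζ)) (tbFixRes 𝔓 (t4cyH 𝔓 ζ))
        (t4iCycFix 𝔓 hζ) (t4vMidFix 𝔓 N' h hζ)).Ov := by
    intro f
    rw [← t4vX_eq]
    exact hB f
  exact t4nsc_chart1 (tbFixO 𝔓 ⊤) (tbFixRes 𝔓 ⊤) (tbFixRes_surjective 𝔓 ⊤)
    (t2i_natCast_ne_zero 𝔓 h) (t2iALFix 𝔓 ⊤ N' h) (t2iFrobFix 𝔓 N') (t4iALFix 𝔓 ⊤ N' h)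
    (t4cy_irreducible_p 𝔓) (tbFixO 𝔓 (t4cyH 𝔓 ζ)) (tbFixRes 𝔓 (t4cyH 𝔓 ζ))
    (t4iCycFix 𝔓 hζ) (t4vMidFix 𝔓 N' h hζ) G hB2 T
    (t4rgf_low0 𝔓 N' h hQ h49) (t4rgf_regG0 𝔓 N' h hQ h49) (t4rgf_regM0 𝔓 N' h hQ h49)
    (mem_t4rLevFixP'_B 𝔓 N' hQ) noeth hm hqm hz hK hca hcai hπca hcb hcbi hπcb hNa hfa1 hfa2 ha
    hNb hfb1 hfb2 hb h1 h2 h3

set_option maxHeartbeats 1600000 in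
include h49 in
/-- **the step-C instance at the inertia level**, modulo the noetherianity of the chart-2 ring -/
theorem t4nsc_stepC_fix_of_noeth (noeth₂ : IsNoetherianRing ↥(t4vyP2Fix 𝔓 N' h hζ).B) {m : ℕ}
    (hm : m ≠ 0) (hqm : Nat.Coprime m 𝔓.p) : T4ntStepCFix 𝔓 N' h hζ m := by
  letI := t4cyAlgebra 𝔓 (le_top : t4cyH 𝔓 ζ ≤ ⊤)
  intro z hz0 hzO hziO hz1 hK hA hBc
  obtain ⟨ca, fa, a, hca, hcai, hπca, hfa0, hNa, hfa1, hfa2, ha⟩ := hA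
  obtain ⟨cb, fb, b, hcb, hcbi, hπcb, hfb0, hNb, hfb1, hfb2, hb⟩ := hBc
  obtain ⟨hh, hh0, hhm, h1, h2, h3⟩ := t4nh_exists_hh (tbFixO 𝔓 ⊤) (tbFixRes 𝔓 ⊤)
    (tbFixRes_surjective 𝔓 ⊤) (t2i_natCast_ne_zero 𝔓 h) (t2iALFix 𝔓 ⊤ N' h) (t2iFrobFix 𝔓 N')
    (t4iALFix 𝔓 ⊤ N' h) (t4cy_irreducible_p 𝔓) (tbFixO 𝔓 (t4cyH 𝔓 ζ)) (tbFixRes 𝔓 (t4cyH 𝔓 ζ))
    (t4iCycFix 𝔓 hζ) (t4vMidFix 𝔓 N' h hζ) hm ha hb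
  have hQ := t4nsc_two_le 𝔓
  have T := t4nsc_top_fix 𝔓 N' h hζ h49 (t4vyPFix 𝔓 N' h hζ) (t4vyPFix_vals 𝔓 N' h hζ)
    (mem_t4vyPFix_B 𝔓 N' h hζ)
  have C1 := t4nsc_chart1_fix 𝔓 N' h hζ h49 (t4vyPFix 𝔓 N' h hζ) (t4vyPFix_vals 𝔓 N' h hζ)
    (mem_t4vyPFix_B 𝔓 N' h hζ) (t4vyPFix_noeth 𝔓 N' h hζ) hm hqm hz0 hK hca hcai hπca hcb hcbi
    hπcb hNa hfa1 hfa2 ha hNb hfb1 hfb2 hb h1 h2 h3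
  obtain ⟨a2', b2', ha2', hb2', C2⟩ := t4nc2_chart2_fix_K2 𝔓 N' h h49 hζ T
    (t4rgf_low0 𝔓 N' h hQ h49) (t4rgf_regG0 𝔓 N' h hQ h49) (t4rgf_regM0 𝔓 N' h hQ h49)
    (t4vyP2Fix_vals 𝔓 N' h hζ) (mem_t4vyP2Fix_B 𝔓 N' h hζ) noeth₂ hm hqm hz0 hK ha hb h1 h2 h3
  exact ⟨𝔓.p * 𝔓.p, t4vyPFix 𝔓 N' h hζ, t4vyP2Fix 𝔓 N' h hζ, hh, 1, _, 1, _, 1, a2', 1, b2', hQ,
    mem_t4vyPFix_B 𝔓 N' h hζ, mem_t4vyP2Fix_B 𝔓 N' h hζ, mem_t4vyPFix_ov 𝔓 N' h hζ,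
    mem_t4vyP2Fix_ov 𝔓 N' h hζ, hh0, hhm, C1, C2⟩

end Fix

end Fermat.Agent.T4
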