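/-
T4-N (helper5): **the closing lines of step C**: with helper2's `t4vyP2Fix_noeth` the step-C
instance `T4ntStepCFix` holds unconditionally, hence `T4nCoreAt 𝔓 N' h` at all levels
`4 ∣ N' ∨ 9 ∣ N'` (helper4's `t4nt_coreAt`) and `T4New t4gWU` (helper3's `t4n_new_of_coreAt`).
-/
import Fermat.Agent.Lib.T4.New.StepCFix
import Fermat.Agent.Lib.T4.Inst.PresFix2
import Fermat.Agent.Lib.T4.New.Final

set_option autoImplicit false
set_option linter.unusedSectionVars false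
set_option linter.unusedVariables false
set_option linter.style.haveILetI false
set_option synthInstance.maxHeartbeats 400000

open HahnSeries ModularCurve AlgebraicCurve Fermat.Agent.T1 Fermat.Agent.T2 IntermediateField
  Fermat.Agent.Curve Fermat.Agent.TW Fermat.Agent.S05Lib

noncomputable section

namespace Fermat.Agent.T4

local notation "Qb" => AlgebraicClosure ℚ

attribute [local instance] t2i_dvr t2i_isAlgClosed t2i_charP t2i_fact t2iAlgebra t2i_isScalarTower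

variable (𝔓 : FFPlace) (N' : ℕ) [NeZero N'] (h : ¬ 𝔓.p ∣ N') {ζ : Qb}
  (hζ : IsPrimitiveRoot ζ 𝔓.p) (h49 : 4 ∣ N' ∨ 9 ∣ N')

include h49 in
/-- **the step-C instance at the inertia level** -/
theorem t4nsc_stepC_fix {m : ℕ} (hm : m ≠ 0) (hqm : Nat.Coprime m 𝔓.p) :
    T4ntStepCFix 𝔓 N' h hζ m :=
  t4nsc_stepC_fix_of_noeth 𝔓 N' h hζ h49 (t4vyP2Fix_noeth 𝔓 N' h hζ) hm hqm

/-- a primitive `p`-th root of unity in `ℚ̄` -/
theorem t4nsc_exists_zeta : ∃ ζ : Qb, IsPrimitiveRoot ζ 𝔓.p := by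
  haveI : NeZero ((𝔓.p : ℕ) : Qb) := ⟨Nat.cast_ne_zero.mpr 𝔓.hp.ne_zero⟩
  exact HasEnoughRootsOfUnity.exists_primitiveRoot Qb 𝔓.p

include h49 in
/-- **(NEW) inside the level field** at the levels `4 ∣ N' ∨ 9 ∣ N'` -/
theorem t4nsc_coreAt : T4nCoreAt 𝔓 N' h := by
  obtain ⟨ζ, hζ⟩ := t4nsc_exists_zeta 𝔓
  exact t4nt_coreAt 𝔓 N' h (fun m hqm hm => ⟨ζ, hζ, t4nsc_stepC_fix 𝔓 N' h hζ h49 hm hqm⟩)

/-- **(NEW) at all levels** -/
theorem t4nsc_new : T4New t4gWU :=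
  t4n_new_of_coreAt (fun 𝔓 N'' _ h h49 => t4nsc_coreAt 𝔓 N'' h h49)

end Fermat.Agent.T4
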