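/-
T4-N (helper4), step C, chart 2, part 4: chart 2 at helper2's `t4vyP2Fix`, everything but
Noetherianity discharged.
-/
import Fermat.Agent.Lib.T4.New.ChartTwoK2
import Fermat.Agent.Lib.T4.Inst.PresFix
import Fermat.Agent.Lib.T4.Reg.LevFixOut

set_option autoImplicit false
set_option linter.unusedSectionVars false
set_option linter.unusedVariables false
set_option linter.style.haveILetI false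

open HahnSeries ModularCurve Fermat.Agent.T1 Fermat.Agent.T2 Fermat.Agent.TW Fermat.Agent.S05Lib
  IntermediateField AlgebraicCurve

noncomputable section

namespace Fermat.Agent.T4

section Fix

local notation "Qb" => AlgebraicClosure ℚ

attribute [local instance] t2i_dvr t2i_isAlgClosed t2i_charP t2i_fact t2iAlgebra t2i_isScalarTower

variable (𝔓 : FFPlace) (N' : ℕ) [NeZero N'] (h : ¬ 𝔓.p ∣ N') (h49 : 4 ∣ N' ∨ 9 ∣ N') {ζ : Qb}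
  (hζ : IsPrimitiveRoot ζ 𝔓.p) {m : ℕ}

/-- helper7's and helper2's level-`N' p` presentations agree -/
theorem t4nc2_P1_eq : t4rLevFixPres1 𝔓 N' h (t4vy_two_le 𝔓) = t4vyP1Fix 𝔓 N' h := rfl

include h49 in
/-- **chart 2 at the inertia level** for helper2's presentation `t4vyP2Fix`: the only remaining
hypothesis is Noetherianity -/
theorem t4nc2_chart2_P2Fix
    (noeth : IsNoetherianRing ↥(t4vyP2Fix 𝔓 N' h hζ).B) (hm : m ≠ 0) (hqm : Nat.Coprime m 𝔓.p)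
    {z : ↥(tbLevF 𝔓 (N' * 𝔓.p * 𝔓.p) ⊤)} (hz : z ≠ 0)
    (hdiv : ∀ v : Place ↥(tbFix 𝔓 (⊤ : Subgroup 𝔓.I))
      ↥(TaF ↥(tbFix 𝔓 (⊤ : Subgroup 𝔓.I)) (N' * 𝔓.p * 𝔓.p)), (m : ℤ) ∣ v.ord z)
    {a b : ↥(tbFixO 𝔓 ⊤)} (ha : tbFixRes 𝔓 ⊤ (a ^ m) = 1) (hb : tbFixRes 𝔓 ⊤ (b ^ m) = 1)
    {hh : ↥(tbLevF 𝔓 (N' * 𝔓.p * 𝔓.p) ⊤)}
    (h1 : (t4vOinfFix 𝔓 N').valuation
      (hh - algebraMap ↥(tbFix 𝔓 (⊤ : Subgroup 𝔓.I)) ↥(tbLevF 𝔓 (N' * 𝔓.p * 𝔓.p) ⊤)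
        ((a : ↥(tbFix 𝔓 (⊤ : Subgroup 𝔓.I))) ^ 𝔓.p * (b : ↥(tbFix 𝔓 (⊤ : Subgroup 𝔓.I))))) < 1)
    (h2 : (t4vOmidFix 𝔓 N' h hζ).valuation
      (hh - algebraMap ↥(tbFix 𝔓 (⊤ : Subgroup 𝔓.I)) ↥(tbLevF 𝔓 (N' * 𝔓.p * 𝔓.p) ⊤)
        ((a : ↥(tbFix 𝔓 (⊤ : Subgroup 𝔓.I))) ^ (𝔓.p + 1) *
          (b : ↥(tbFix 𝔓 (⊤ : Subgroup 𝔓.I))) ^ (𝔓.p + 1))) < 1)
    (h3 : (t4vO0Fix 𝔓 N' h).valuation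
      (hh - algebraMap ↥(tbFix 𝔓 (⊤ : Subgroup 𝔓.I)) ↥(tbLevF 𝔓 (N' * 𝔓.p * 𝔓.p) ⊤)
        ((a : ↥(tbFix 𝔓 (⊤ : Subgroup 𝔓.I))) * (b : ↥(tbFix 𝔓 (⊤ : Subgroup 𝔓.I))) ^ 𝔓.p)) < 1) :
    ∃ a2 b2 : ↥(t4vyP2Fix 𝔓 N' h hζ).B,
      (a2 : ↥(tbLevF 𝔓 (N' * 𝔓.p * 𝔓.p) ⊤)) =
        algebraMap ↥(tbFix 𝔓 (⊤ : Subgroup 𝔓.I)) ↥(tbLevF 𝔓 (N' * 𝔓.p * 𝔓.p) ⊤)
          (a : ↥(tbFix 𝔓 (⊤ : Subgroup 𝔓.I))) ∧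
      (b2 : ↥(tbLevF 𝔓 (N' * 𝔓.p * 𝔓.p) ⊤)) =
        algebraMap ↥(tbFix 𝔓 (⊤ : Subgroup 𝔓.I)) ↥(tbLevF 𝔓 (N' * 𝔓.p * 𝔓.p) ⊤)
          (b : ↥(tbFix 𝔓 (⊤ : Subgroup 𝔓.I))) ∧
      T4nCChart (t4vyP2Fix 𝔓 N' h hζ) (t4vQFix 𝔓 N') m z 𝔓.p (t4vOinfFix 𝔓 N')
        (t4vOmidFix 𝔓 N' h hζ) (t4vO0Fix 𝔓 N' h) 1 a2 1 b2 hh := by
  letI := t4cyAlgebra 𝔓 (le_top : t4cyH 𝔓 ζ ≤ ⊤)
  have hQ := t4vy_two_le 𝔓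
  exact t4nc2_chart2_fix_K2 𝔓 N' h h49 hζ (t4vyTopFix 𝔓 N' h hζ) (t4rgf_low0 𝔓 N' h hQ h49)
    (t4rgf_regG0 𝔓 N' h hQ h49) (t4rgf_regM0 𝔓 N' h hQ h49) (t4vyP2Fix_vals 𝔓 N' h hζ)
    (mem_t4vyP2Fix_B 𝔓 N' h hζ) noeth hm hqm hz hdiv ha hb h1 h2 h3

end Fix

end Fermat.Agent.T4
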